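import Fermat.Agent.JacRep.Defs

/-!
# Bundles over the ground field form a small set

`exists_representatives`: there is a small family of bundles over the ground field meeting every
isomorphism class, obtained by recording a bundle on chosen representatives of the classes of
its three modules (`BundleCode`).
-/

set_option autoImplicit false
set_option linter.style.haveILetI false

noncomputable section

open scoped TensorProduct

universe u

namespace FLTAgent.JacRep.Charts

variable {k : Type u} [Field k] (C : Cover k)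

/-- The data of a bundle on chosen representatives of the classes of its three modules. -/
structure BundleCode : Type u where
  p₀ : CommRing.Pic (C.B₀ k)
  p₁ : CommRing.Pic (C.B₁ k)
  p : CommRing.Pic (C.B k)
  ι₀ : p₀.AsModule →ₛₗ[C.resB₀ k] p.AsModule
  ι₁ : p₁.AsModule →ₛₗ[C.resB₁ k] p.AsModule
  inj₀ : Function.Injective ι₀
  inj₁ : Function.Injective ι₁
  loc₀ : ∀ m : p.AsModule, ∃ (n : ℕ) (m₀ : p₀.AsModule), C.resB₀ k (C.xB k) ^ n • m = ι₀ m₀
  loc₁ : ∀ m : p.AsModule, ∃ (n : ℕ) (m₁ : p₁.AsModule), C.resB₁ k (C.yB k) ^ n • m = ι₁ m₁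

variable {C}

/-- The bundle of a code. -/
def BundleCode.bundle (c : BundleCode C) : Bundle C k :=
  { M₀ := c.p₀.AsModule
    M₁ := c.p₁.AsModule
    M := c.p.AsModule
    ι₀ := c.ι₀
    ι₁ := c.ι₁
    inj₀ := c.inj₀
    inj₁ := c.inj₁
    loc₀ := c.loc₀
    loc₁ := c.loc₁ }

variable (C)

/-- A small family of representatives of all bundles over the ground field. -/
theorem exists_representatives :
    ∃ (ι : Type u) (E₀ : ι → Bundle C k), ∀ E : Bundle C k, ∃ i, E.Iso (E₀ i) := by
  refine ⟨BundleCode C, BundleCode.bundle, fun E => ?_⟩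
  let e₀ := CommRing.Pic.mk.linearEquiv (C.B₀ k) E.M₀
  let e₁ := CommRing.Pic.mk.linearEquiv (C.B₁ k) E.M₁
  let e := CommRing.Pic.mk.linearEquiv (C.B k) E.M
  let c : BundleCode C :=
    { p₀ := CommRing.Pic.mk (C.B₀ k) E.M₀
      p₁ := CommRing.Pic.mk (C.B₁ k) E.M₁
      p := CommRing.Pic.mk (C.B k) E.M
      ι₀ :=
        { toFun := fun m => e.symm (E.ι₀ (e₀ m))
          map_add' := fun a b => by simp [map_add]
          map_smul' := fun r a => by simp [LinearMap.map_smulₛₗ] }
      ι₁ :=
        { toFun := fun m => e.symm (E.ι₁ (e₁ m))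
          map_add' := fun a b => by simp [map_add]
          map_smul' := fun r a => by simp [LinearMap.map_smulₛₗ] }
      inj₀ := fun a b h => e₀.injective (E.inj₀ (e.symm.injective h))
      inj₁ := fun a b h => e₁.injective (E.inj₁ (e.symm.injective h))
      loc₀ := fun m => by
        obtain ⟨n, m₀, h⟩ := E.loc₀ (e m)
        refine ⟨n, e₀.symm m₀, ?_⟩
        show _ = e.symm (E.ι₀ (e₀ (e₀.symm m₀)))
        rw [e₀.apply_symm_apply, ← h, map_smul, e.symm_apply_apply]
      loc₁ := fun m => by
        obtain ⟨n, m₁, h⟩ := E.loc₁ (e m)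
        refine ⟨n, e₁.symm m₁, ?_⟩
        show _ = e.symm (E.ι₁ (e₁ (e₁.symm m₁)))
        rw [e₁.apply_symm_apply, ← h, map_smul, e.symm_apply_apply] }
  refine ⟨c, e₀.symm, e₁.symm, e.symm, fun m => ?_, fun m => ?_⟩
  · show e.symm (E.ι₀ m) = e.symm (E.ι₀ (e₀ (e₀.symm m)))
    rw [e₀.apply_symm_apply]
  · show e.symm (E.ι₁ m) = e.symm (E.ι₁ (e₁ (e₁.symm m)))
    rw [e₁.apply_symm_apply]

end FLTAgent.JacRep.Charts
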