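import Mathlib

/-!
# Lifting invertible modules along square zero surjections

Finite projective modules lift (`exists_lift_projective`), one which becomes free of rank one
modulo the ideal is free of rank one (`nonempty_equiv_of_baseChange`), and hence invertible
modules lift (`exists_lift_invertible`).
-/

set_option autoImplicit false
set_option linter.style.haveILetI false
set_option linter.unusedSectionVars false

noncomputable section

open TensorProduct

universe u

namespace FLTAgent.JacRep.Charts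

variable {B' B : Type u} [CommRing B'] [CommRing B] [Algebra B' B]

theorem tmul_one_surjective {P : Type u} [AddCommGroup P] [Module B' P]
    (hq : Function.Surjective (algebraMap B' B)) (z : B ⊗[B'] P) : ∃ p : P, z = 1 ⊗ₜ p := by
  induction z using TensorProduct.induction_on with
  | zero => exact ⟨0, by rw [TensorProduct.tmul_zero]⟩
  | tmul b p =>
    obtain ⟨r, rfl⟩ := hq b
    exact ⟨r • p, by rw [Algebra.algebraMap_eq_smul_one, TensorProduct.smul_tmul]⟩
  | add a c ha hc =>
    obtain ⟨p, rfl⟩ := ha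
    obtain ⟨s, rfl⟩ := hc
    exact ⟨p + s, by rw [TensorProduct.tmul_add]⟩

theorem one_tmul_eq_zero {P : Type u} [AddCommGroup P] [Module B' P]
    (hq : Function.Surjective (algebraMap B' B)) {z : P} (h : (1 : B) ⊗ₜ[B'] z = 0) :
    z ∈ RingHom.ker (algebraMap B' B) • (⊤ : Submodule B' P) := by
  let J := RingHom.ker (algebraMap B' B)
  let e : (B' ⧸ J) ≃ₐ[B'] B :=
    Ideal.quotientKerAlgEquivOfSurjective (f := Algebra.ofId B' B) hq
  have h2 := congrArg ((TensorProduct.quotTensorEquivQuotSMul P J).toLinearMap ∘ₗ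
    e.symm.toLinearMap.rTensor P) h
  rw [map_zero] at h2
  simp only [LinearMap.comp_apply, LinearMap.rTensor_tmul, AlgEquiv.toLinearMap_apply,
    map_one, LinearEquiv.coe_coe] at h2
  rw [show (1 : B' ⧸ J) = Ideal.Quotient.mk J 1 from rfl,
    TensorProduct.quotTensorEquivQuotSMul_mk_tmul, one_smul] at h2
  exact (Submodule.Quotient.mk_eq_zero _).mp h2

/-- The kernel of a semilinear surjection of invertible modules. -/
theorem mem_ker_smul_top (hq : Function.Surjective (algebraMap B' B))
    {M' M : Type u} [AddCommGroup M'] [Module B' M'] [Module.Invertible B' M']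
    [AddCommGroup M] [Module B M] [Module.Invertible B M]
    (f : M' →ₛₗ[algebraMap B' B] M) (hf : Function.Surjective f) {z : M'} (hz : f z = 0) :
    z ∈ RingHom.ker (algebraMap B' B) • (⊤ : Submodule B' M') := by
  letI : Module B' M := Module.compHom M (algebraMap B' B)
  haveI : IsScalarTower B' B M := IsScalarTower.of_algebraMap_smul fun _ _ => rfl
  let g : M' →ₗ[B'] M :=
    { toFun := f, map_add' := map_add f, map_smul' := fun r m => LinearMap.map_smulₛₗ f r m }
  have hs : Function.Surjective (g.liftBaseChange B) := fun m => by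
    obtain ⟨x, rfl⟩ := hf m
    exact ⟨1 ⊗ₜ x, by rw [LinearMap.liftBaseChange_tmul, one_smul]; rfl⟩
  refine one_tmul_eq_zero hq ((Module.Invertible.bijective_of_surjective hs).1 ?_)
  rw [map_zero, LinearMap.liftBaseChange_tmul, one_smul]
  exact hz

theorem eq_top_of_map_surjective {M' : Type u} [AddCommGroup M'] [Module B' M']
    (hJ : RingHom.ker (algebraMap B' B) ^ 2 = ⊥) (S : Submodule B' M')
    (h : S ⊔ RingHom.ker (algebraMap B' B) • (⊤ : Submodule B' M') = ⊤) : S = ⊤ := by
  set J := RingHom.ker (algebraMap B' B)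
  refine eq_top_iff.mpr ?_
  have h1 : J • (⊤ : Submodule B' M') ≤ S := by
    calc J • (⊤ : Submodule B' M') = J • (S ⊔ J • ⊤) := by rw [h]
      _ = J • S ⊔ (J ^ 2) • ⊤ := by rw [Submodule.smul_sup, pow_two, Submodule.mul_smul]
      _ ≤ S := by rw [hJ, Submodule.bot_smul, sup_bot_eq]; exact Submodule.smul_le_right
  rw [← h]
  exact sup_le le_rfl h1

/-- Finite projective modules lift. -/
theorem exists_lift_projective (hq : Function.Surjective (algebraMap B' B))
    (hJ : RingHom.ker (algebraMap B' B) ^ 2 = ⊥) (M : Type u) [AddCommGroup M] [Module B M]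
    [Module.Finite B M] [Module.Projective B M] :
    ∃ (M' : Type u) (_ : AddCommGroup M') (_ : Module B' M'), Module.Projective B' M' ∧
      ∃ f : M' →ₛₗ[algebraMap B' B] M, Function.Surjective f ∧
        Nonempty (B ⊗[B'] M' ≃ₗ[B] M) := by
  classical
  obtain ⟨n, π, hπ⟩ := Module.Finite.exists_fin' B M
  obtain ⟨j, hj⟩ := Module.projective_lifting_property π LinearMap.id hπ
  set q := algebraMap B' B with hqdef
  let E : Matrix (Fin n) (Fin n) B := LinearMap.toMatrix' (j ∘ₗ π)
  have hE : IsIdempotentElem E := by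
    show E * E = E
    rw [← LinearMap.toMatrix'_comp]
    congr 1
    refine LinearMap.ext fun v => ?_
    show j (π (j (π v))) = j (π v)
    rw [← LinearMap.comp_apply π j, hj, LinearMap.id_apply]
  have hker : ∀ x ∈ RingHom.ker (q.mapMatrix (m := Fin n)), IsNilpotent x := by
    intro x hx
    refine ⟨2, ?_⟩
    have hx' : ∀ a b, x a b ∈ RingHom.ker q := fun a b => by
      have := congrFun (congrFun hx a) b
      simpa [RingHom.mem_ker] using this
    ext a b
    rw [pow_two, Matrix.mul_apply, Matrix.zero_apply]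
    refine Finset.sum_eq_zero fun c _ => ?_
    have := Ideal.mul_mem_mul (hx' a c) (hx' c b)
    rw [← pow_two, hJ] at this
    simpa using this
  obtain ⟨E', hE', hEE'⟩ := exists_isIdempotentElem_eq_of_ker_isNilpotent
    (q.mapMatrix (m := Fin n)) hker E
    (by
      choose g hg using hq
      exact ⟨E.map g, by ext a b; simp [hg]⟩) hE
  let e' : (Fin n → B') →ₗ[B'] (Fin n → B') := Matrix.toLin' E'
  have he' : ∀ v, e' (e' v) = e' v := fun v => by
    rw [← LinearMap.comp_apply, ← Matrix.toLin'_mul, hE'.eq]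
  let M' : Submodule B' (Fin n → B') := LinearMap.range e'
  let p : (Fin n → B') →ₗ[B'] M' := e'.rangeRestrict
  have hp : ∀ z : M', p (z : Fin n → B') = z := fun z => by
    obtain ⟨v, hv⟩ := z.2
    refine Subtype.ext ?_
    show e' (z : Fin n → B') = z
    rw [← hv, he']
  haveI : Module.Projective B' M' := Module.Projective.of_split M'.subtype p (LinearMap.ext hp)
  -- coordinatewise reduction
  let Q : (Fin n → B') →ₛₗ[q] (Fin n → B) :=
    { toFun := fun v i => q (v i)
      map_add' := fun v w => funext fun i => map_add q _ _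
      map_smul' := fun r v => funext fun i => map_mul q _ _ }
  have hQe : ∀ v, Q (e' v) = j (π (Q v)) := fun v => by
    funext i
    show q (Matrix.toLin' E' v i) = _
    rw [Matrix.toLin'_apply, RingHom.map_mulVec, ← RingHom.mapMatrix_apply, hEE',
      ← Matrix.toLin'_apply]
    simp only [E, Matrix.toLin'_toMatrix', LinearMap.comp_apply]
    rfl
  let f : M' →ₛₗ[q] M :=
    { toFun := fun z => π (Q (z : Fin n → B'))
      map_add' := fun a b => by rw [Submodule.coe_add, map_add, map_add]
      map_smul' := fun r a => by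
        rw [Submodule.coe_smul, LinearMap.map_smulₛₗ, map_smul] }
  have hQsurj : ∀ w : Fin n → B, ∃ v, Q v = w := fun w => by
    choose g hg using hq
    exact ⟨fun i => g (w i), funext fun i => hg _⟩
  have hfp : ∀ v, f (p v) = π (Q v) := fun v => by
    show π (Q (e' v)) = _
    rw [hQe, ← LinearMap.comp_apply π j, hj, LinearMap.id_apply]
  have hfsurj : Function.Surjective f := fun m => by
    obtain ⟨w, rfl⟩ := hπ m
    obtain ⟨v, rfl⟩ := hQsurj w
    exact ⟨p v, hfp v⟩
  letI : Module B' M := Module.compHom M q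
  haveI : IsScalarTower B' B M := IsScalarTower.of_algebraMap_smul fun _ _ => rfl
  let fl : M' →ₗ[B'] M :=
    { toFun := f, map_add' := map_add f, map_smul' := fun r m => LinearMap.map_smulₛₗ f r m }
  let g : B ⊗[B'] M' →ₗ[B] M := fl.liftBaseChange B
  let h : M →ₗ[B] B ⊗[B'] M' :=
    (Fintype.linearCombination B fun i => (1 : B) ⊗ₜ[B'] p (Pi.single i 1)) ∘ₗ j
  have hg : ∀ (b : B) (z : M'), g (b ⊗ₜ z) = b • f z := fun b z => rfl
  have hh : ∀ z : M', h (f z) = (1 : B) ⊗ₜ[B'] z := fun z => by
    have h1 : j (f z) = Q (z : Fin n → B') := by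
      show j (π (Q (z : Fin n → B'))) = _
      rw [← hQe]
      obtain ⟨v, hv⟩ := z.2
      rw [← hv, he']
    rw [LinearMap.comp_apply, h1, Fintype.linearCombination_apply]
    conv_rhs => rw [← hp z, pi_eq_sum_univ' (z : Fin n → B'), map_sum, TensorProduct.tmul_sum]
    refine Finset.sum_congr rfl fun i _ => ?_
    show q ((z : Fin n → B') i) • ((1 : B) ⊗ₜ[B'] p (Pi.single i 1)) = _
    rw [map_smul, TensorProduct.tmul_smul, hqdef, algebraMap_smul]
  refine ⟨M', inferInstance, inferInstance, inferInstance, f, hfsurj,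
    ⟨LinearEquiv.ofLinearMap g h ?_ ?_⟩⟩
  · refine LinearMap.ext fun m => ?_
    obtain ⟨z, rfl⟩ := hfsurj m
    rw [LinearMap.comp_apply, hh, hg, one_smul, LinearMap.id_apply]
  · refine LinearMap.ext fun z => ?_
    obtain ⟨x, rfl⟩ := tmul_one_surjective hq z
    rw [LinearMap.comp_apply, hg, one_smul, hh, LinearMap.id_apply]

/-- A finite projective module which becomes trivial of rank one modulo the ideal is trivial. -/
theorem nonempty_equiv_of_baseChange (hq : Function.Surjective (algebraMap B' B))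
    (hJ : RingHom.ker (algebraMap B' B) ^ 2 = ⊥) {P : Type u} [AddCommGroup P] [Module B' P]
    [Module.Projective B' P] (θ : B ⊗[B'] P ≃ₗ[B] B) : Nonempty (P ≃ₗ[B'] B') := by
  set J := RingHom.ker (algebraMap B' B) with hJdef
  obtain ⟨φ, hφ⟩ := Module.projective_lifting_property (Algebra.linearMap B' B)
    ((θ.toLinearMap.restrictScalars B') ∘ₗ TensorProduct.mk B' B P 1) hq
  have hφ' : ∀ p, algebraMap B' B (φ p) = θ (1 ⊗ₜ p) := fun p => LinearMap.congr_fun hφ p
  obtain ⟨p₁, hp₁⟩ := tmul_one_surjective hq (θ.symm 1)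
  have hunit : IsUnit (φ p₁) := by
    have h1 : algebraMap B' B (φ p₁) = 1 := by rw [hφ', ← hp₁, θ.apply_symm_apply]
    refine IsUnit.of_mul_eq_one (2 - φ p₁) ?_
    have h2 : (φ p₁ - 1) ^ 2 = 0 := by
      rw [← Submodule.mem_bot B', ← hJ]
      exact Ideal.pow_mem_pow (by rw [RingHom.mem_ker, map_sub, h1, map_one, sub_self]) 2
    linear_combination -h2
  obtain ⟨u, hu⟩ := hunit
  set e₁ : P := (↑u⁻¹ : B') • p₁
  have he₁ : φ e₁ = 1 := by rw [map_smul, smul_eq_mul, ← hu, Units.inv_mul]
  refine ⟨LinearEquiv.ofBijective φ ⟨?_, fun b => ⟨b • e₁, by rw [map_smul, he₁]; simp⟩⟩⟩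
  rw [injective_iff_map_eq_zero]
  let ρ : P →ₗ[B'] P := LinearMap.id - φ.smulRight e₁
  have hρ : ∀ p, φ (ρ p) = 0 := fun p => by simp [ρ, he₁]
  have hK : ∀ z, φ z = 0 → z ∈ J • (⊤ : Submodule B' P) := fun z hz =>
    one_tmul_eq_zero hq (θ.injective (by rw [← hφ', hz, map_zero, map_zero]))
  intro z hz
  have h1 : ρ z = z := by simp [ρ, hz]
  have h2 : (⊤ : Submodule B' P).map ρ ≤ J • (⊤ : Submodule B' P) := by
    rintro _ ⟨p, -, rfl⟩
    exact hK _ (hρ p)
  have h3 : z ∈ J • (J • (⊤ : Submodule B' P)) := by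
    refine smul_mono_right J h2 ?_
    rw [← Submodule.map_smul'']
    exact ⟨z, hK z hz, h1⟩
  rwa [← Submodule.mul_smul, ← pow_two, hJ, Submodule.bot_smul, Submodule.mem_bot] at h3

/-- Invertible modules lift. -/
theorem exists_lift_invertible (hq : Function.Surjective (algebraMap B' B))
    (hJ : RingHom.ker (algebraMap B' B) ^ 2 = ⊥) (M : Type u) [AddCommGroup M] [Module B M]
    [Module.Invertible B M] :
    ∃ (M' : Type u) (_ : AddCommGroup M') (_ : Module B' M') (_ : Module.Invertible B' M'),
      ∃ f : M' →ₛₗ[algebraMap B' B] M, Function.Surjective f := by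
  obtain ⟨M', _, _, hM', f, hf, ⟨eM⟩⟩ := exists_lift_projective hq hJ M
  obtain ⟨N', _, _, hN', -, -, ⟨eN⟩⟩ := exists_lift_projective hq hJ (Module.Dual B M)
  have θ : B ⊗[B'] (N' ⊗[B'] M') ≃ₗ[B] B :=
    TensorProduct.AlgebraTensorModule.distribBaseChange B' B N' M' ≪≫ₗ
      TensorProduct.congr eN eM ≪≫ₗ Module.Invertible.linearEquiv B M
  obtain ⟨e⟩ := nonempty_equiv_of_baseChange hq hJ θ
  exact ⟨M', inferInstance, inferInstance, Module.Invertible.right e, f, hf⟩

end FLTAgent.JacRep.Charts
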