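import Fermat.Agent.JacRep.Charts.Basic
import Fermat.Agent.JacRep.Charts.LiftMod

/-!
# Deformations of bundles

`exists_lift_bundle`: a bundle lifts along a surjection of bases with square zero kernel.  The
three modules are lifted by `exists_lift_invertible`, and the restrictions are corrected to be
compatible, the restriction maps of the curve over a base being injective.
-/

set_option autoImplicit false
set_option linter.style.haveILetI false
set_option linter.unusedSectionVars false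

noncomputable section

open scoped TensorProduct Polynomial

universe u

namespace FLTAgent.JacRep.Charts

section Generic

theorem x_mul_eq_zero {k A : Type u} [Field k] [CommRing A] [Algebra k A] {x : A} {n : ℕ}
    {b : Fin n → A}
    (hb : Function.Bijective fun c : Fin n → k[X] => ∑ i, Polynomial.aeval x (c i) * b i)
    {a : A} (h : x * a = 0) : a = 0 := by
  obtain ⟨c, rfl⟩ := hb.2 a
  have h2 : (fun i => Polynomial.X * c i) = (0 : Fin n → k[X]) := hb.1 (by
    simp only [Pi.zero_apply, map_zero, zero_mul, Finset.sum_const_zero, map_mul,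
      Polynomial.aeval_X, mul_assoc, ← Finset.mul_sum]
    exact h)
  have h3 : c = 0 := funext fun i => (mul_eq_zero.mp (congrFun h2 i)).resolve_left Polynomial.X_ne_zero
  simp [h3]

theorem injective_of_away {k A₀ A : Type u} [Field k] [CommRing A₀] [CommRing A] [Algebra k A₀]
    [Algebra k A] {res : A₀ →ₐ[k] A} {x : A₀} {n : ℕ} {b : Fin n → A₀}
    (hb : Function.Bijective fun c : Fin n → k[X] => ∑ i, Polynomial.aeval x (c i) * b i)
    (hloc : letI := res.toRingHom.toAlgebra; IsLocalization.Away x A) :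
    Function.Injective res := by
  letI := res.toRingHom.toAlgebra
  haveI : IsLocalization.Away x A := hloc
  refine IsLocalization.injective A (M := Submonoid.powers x) (Submonoid.powers_le.mpr ?_)
  exact mem_nonZeroDivisors_iff_left.mpr fun a ha => x_mul_eq_zero hb ha

theorem map_id_injective {k R A₀ A : Type u} [Field k] [CommRing R] [Algebra k R] [CommRing A₀]
    [CommRing A] [Algebra k A₀] [Algebra k A] {f : A₀ →ₐ[k] A} (hf : Function.Injective f) :
    Function.Injective (Algebra.TensorProduct.map (AlgHom.id k R) f) :=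
  Module.Flat.lTensor_preserves_injective_linearMap (M := R) f.toLinearMap hf

theorem map_id_surjective {k R R' A : Type u} [Field k] [CommRing R] [Algebra k R] [CommRing R']
    [Algebra k R'] [CommRing A] [Algebra k A] (π : R' →ₐ[k] R) (hπ : Function.Surjective π)
    (hker : RingHom.ker (π : R' →+* R) ^ 2 = ⊥) :
    Function.Surjective (Algebra.TensorProduct.map π (AlgHom.id k A)) ∧
      RingHom.ker (Algebra.TensorProduct.map π (AlgHom.id k A)).toRingHom ^ 2 = ⊥ := by
  refine ⟨Algebra.TensorProduct.map_surjective (S := k) π (AlgHom.id k A) hπ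
    Function.surjective_id, ?_⟩
  have h : RingHom.ker (Algebra.TensorProduct.map π (AlgHom.id k A)).toRingHom =
      (RingHom.ker (π : R' →+* R)).map
        (Algebra.TensorProduct.includeLeft : R' →ₐ[k] R' ⊗[k] A) :=
    Algebra.TensorProduct.rTensor_ker (C := A) π hπ
  rw [h, ← Ideal.map_pow, hker, Ideal.map_bot]

end Generic

variable {k : Type u} [Field k] (C : Cover k) (R : Type u) [CommRing R] [Algebra k R]

theorem res₀_injective : Function.Injective C.res₀ :=
  injective_of_away C.basis₀_bijective C.away₀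

theorem res₁_injective : Function.Injective C.res₁ :=
  injective_of_away C.basis₁_bijective C.away₁

theorem resB₀_injective' : Function.Injective (C.resB₀ R) :=
  map_id_injective (res₀_injective C)

theorem resB₁_injective' : Function.Injective (C.resB₁ R) :=
  map_id_injective (res₁_injective C)

variable {C R}

theorem exists_pow_mul_eq₀ (b : C.B R) : ∃ n b₀, xT C R ^ n * b = C.resB₀ R b₀ := by
  induction b using TensorProduct.induction_on with
  | zero => exact ⟨0, 0, by simp⟩
  | tmul r a =>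
    letI := C.res₀.toRingHom.toAlgebra
    haveI : IsLocalization.Away C.x C.A := C.away₀
    obtain ⟨n, a₀, h⟩ := IsLocalization.Away.surj C.x a
    refine ⟨n, r ⊗ₜ a₀, ?_⟩
    have h' : a * C.res₀ C.x ^ n = C.res₀ a₀ := h
    rw [resB₀_tmul, ← h', xT, Cover.xB, resB₀_tmul, Algebra.TensorProduct.tmul_pow,
      Algebra.TensorProduct.tmul_mul_tmul, one_pow, one_mul, mul_comm]
  | add p q hp hq =>
    obtain ⟨n, p₀, hp⟩ := hp
    obtain ⟨m, q₀, hq⟩ := hq
    refine ⟨n + m, C.xB R ^ m * p₀ + C.xB R ^ n * q₀, ?_⟩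
    rw [map_add, map_mul, map_mul, map_pow, map_pow, show C.resB₀ R (C.xB R) = xT C R from rfl,
      ← hp, ← hq]
    ring

theorem exists_pow_mul_eq₁ (b : C.B R) : ∃ n b₁, yT C R ^ n * b = C.resB₁ R b₁ := by
  induction b using TensorProduct.induction_on with
  | zero => exact ⟨0, 0, by simp⟩
  | tmul r a =>
    letI := C.res₁.toRingHom.toAlgebra
    haveI : IsLocalization.Away C.y C.A := C.away₁
    obtain ⟨n, a₁, h⟩ := IsLocalization.Away.surj C.y a
    refine ⟨n, r ⊗ₜ a₁, ?_⟩
    have h' : a * C.res₁ C.y ^ n = C.res₁ a₁ := h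
    rw [resB₁_tmul, ← h', yT, Cover.yB, resB₁_tmul, Algebra.TensorProduct.tmul_pow,
      Algebra.TensorProduct.tmul_mul_tmul, one_pow, one_mul, mul_comm]
  | add p q hp hq =>
    obtain ⟨n, p₁, hp⟩ := hp
    obtain ⟨m, q₁, hq⟩ := hq
    refine ⟨n + m, C.yB R ^ m * p₁ + C.yB R ^ n * q₁, ?_⟩
    rw [map_add, map_mul, map_mul, map_pow, map_pow, show C.resB₁ R (C.yB R) = yT C R from rfl,
      ← hp, ← hq]
    ring

variable {R' : Type u} [CommRing R'] [Algebra k R']

/-- Bundles lift along square zero extensions. -/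
theorem exists_lift_bundle (π : R' →ₐ[k] R) (hπ : Function.Surjective π)
    (hker : RingHom.ker (π : R' →+* R) ^ 2 = ⊥) (E : Bundle C R) :
    ∃ E' : Bundle C R', Bundle.IsPullback π E' E := by
  letI a₀ : Algebra (C.B₀ R') (C.B₀ R) := (C.mapB₀ π).toAlgebra
  letI a₁ : Algebra (C.B₁ R') (C.B₁ R) := (C.mapB₁ π).toAlgebra
  letI a : Algebra (C.B R') (C.B R) := (C.mapB π).toAlgebra
  obtain ⟨hq₀, hk₀⟩ := map_id_surjective (A := C.A₀) π hπ hker
  obtain ⟨hq₁, hk₁⟩ := map_id_surjective (A := C.A₁) π hπ hker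
  obtain ⟨hq, hk⟩ := map_id_surjective (A := C.A) π hπ hker
  obtain ⟨N₀, _, _, _, f₀, hf₀⟩ := exists_lift_invertible (B' := C.B₀ R') hq₀ hk₀ E.M₀
  obtain ⟨N₁, _, _, _, f₁, hf₁⟩ := exists_lift_invertible (B' := C.B₁ R') hq₁ hk₁ E.M₁
  -- the overlap
  letI r₀ : Algebra (C.B₀ R') (C.B R') := (C.resB₀ R').toAlgebra
  let fadd : C.B R' ⊗[C.B₀ R'] N₀ →+ E.M := TensorProduct.liftAddHom (R := C.B₀ R') (M := C.B R') (N := N₀)
    { toFun := fun b =>
        { toFun := fun m => C.mapB π b • E.ι₀ (f₀ m)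
          map_zero' := by simp
          map_add' := fun m m' => by simp [map_add, smul_add] }
      map_zero' := by ext m; simp
      map_add' := fun b b' => by ext m; simp [map_add, add_smul] }
    (fun r b m => by
      show C.mapB π (C.resB₀ R' r * b) • E.ι₀ (f₀ m) = C.mapB π b • E.ι₀ (f₀ (r • m))
      rw [map_mul, LinearMap.map_smulₛₗ, LinearMap.map_smulₛₗ, smul_smul, mapB_resB₀, mul_comm]
      rfl)
  have hfadd : ∀ b m, fadd (b ⊗ₜ m) = C.mapB π b • E.ι₀ (f₀ m) := fun b m => rfl
  let f : C.B R' ⊗[C.B₀ R'] N₀ →ₛₗ[C.mapB π] E.M :=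
    { fadd with
      map_smul' := fun b z => by
        show fadd (b • z) = C.mapB π b • fadd z
        induction z using TensorProduct.induction_on with
        | zero => simp
        | tmul c m => rw [TensorProduct.smul_tmul', hfadd, hfadd, smul_eq_mul, map_mul, smul_smul]
        | add z w hz hw => rw [smul_add, map_add, map_add, hz, hw, smul_add] }
  have hf : ∀ b m, f (b ⊗ₜ m) = C.mapB π b • E.ι₀ (f₀ m) := fun b m => rfl
  have hfs : Function.Surjective f := fun m => by
    obtain ⟨n, m₀, h⟩ := E.loc₀ m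
    obtain ⟨v, rfl⟩ := hf₀ m₀
    refine ⟨(yT C R' ^ n) ⊗ₜ[C.B₀ R'] v, ?_⟩
    rw [hf, ← h, map_pow, yT, mapB_resB₁, mapB₁_yB, smul_smul,
      show C.resB₀ R (C.xB R) = xT C R from rfl, show C.resB₁ R (C.yB R) = yT C R from rfl,
      ← mul_pow, yT_mul_xT, one_pow, one_smul]
  -- the second chart
  letI r₁ : Algebra (C.B₁ R') (C.B R') := (C.resB₁ R').toAlgebra
  letI m₁' : Module (C.B₁ R') E.M := Module.compHom _ ((C.mapB π).comp (C.resB₁ R'))
  let fl : C.B R' ⊗[C.B₀ R'] N₀ →ₗ[C.B₁ R'] E.M :=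
    { toFun := f
      map_add' := map_add f
      map_smul' := fun b z => by
        rw [← algebraMap_smul (C.B R') b z, LinearMap.map_smulₛₗ]
        rfl }
  let gl : N₁ →ₗ[C.B₁ R'] E.M :=
    { toFun := fun m => E.ι₁ (f₁ m)
      map_add' := fun m m' => by simp [map_add]
      map_smul' := fun b m => by
        rw [LinearMap.map_smulₛₗ, LinearMap.map_smulₛₗ]
        show _ = C.mapB π (C.resB₁ R' b) • E.ι₁ (f₁ m)
        rw [mapB_resB₁]
        rfl }
  obtain ⟨h, hh⟩ := Module.projective_lifting_property fl gl hfs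
  have hh' : ∀ m, f (h m) = E.ι₁ (f₁ m) := fun m => LinearMap.congr_fun hh m
  set S : Submodule (C.B R') (C.B R' ⊗[C.B₀ R'] N₀) := Submodule.span (C.B R') (Set.range h)
  have hS : S = ⊤ := by
    refine eq_top_of_map_surjective (B := C.B R) hk S (eq_top_iff.mpr fun z _ => ?_)
    obtain ⟨n, v, hn⟩ := E.loc₁ (f z)
    obtain ⟨w, rfl⟩ := hf₁ v
    have h1 : f (xT C R' ^ n • h w) = f z := by
      rw [LinearMap.map_smulₛₗ, hh', map_pow, mapB_xT, ← hn,
        show C.resB₁ R (C.yB R) = yT C R from rfl, smul_smul, ← mul_pow, xT_mul_yT, one_pow,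
        one_smul]
    have h2 : z - xT C R' ^ n • h w ∈
        RingHom.ker (algebraMap (C.B R') (C.B R)) • (⊤ : Submodule (C.B R') _) :=
      mem_ker_smul_top hq f hfs (by rw [map_sub, h1, sub_self])
    rw [← add_sub_cancel (xT C R' ^ n • h w) z]
    exact Submodule.add_mem_sup (S.smul_mem _ (Submodule.subset_span ⟨w, rfl⟩)) h2
  have hloc₁ : ∀ z : C.B R' ⊗[C.B₀ R'] N₀, ∃ (n : ℕ) (w : N₁),
      C.resB₁ R' (C.yB R') ^ n • z = h w := by
    intro z
    have hz : z ∈ S := hS ▸ Submodule.mem_top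
    induction hz using Submodule.span_induction with
    | mem z hz => obtain ⟨w, rfl⟩ := hz; exact ⟨0, w, by simp⟩
    | zero => exact ⟨0, 0, by simp⟩
    | add z z' _ _ hz hz' =>
      obtain ⟨n, w, hn⟩ := hz
      obtain ⟨n', w', hn'⟩ := hz'
      refine ⟨n + n', C.yB R' ^ n' • w + C.yB R' ^ n • w', ?_⟩
      rw [map_add, map_smul, map_smul, ← hn, ← hn', smul_add, ← algebraMap_smul (C.B R') (C.yB R' ^ n'),
        ← algebraMap_smul (C.B R') (C.yB R' ^ n)]
      show _ = C.resB₁ R' (C.yB R' ^ n') • C.resB₁ R' (C.yB R') ^ n • z +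
        C.resB₁ R' (C.yB R' ^ n) • C.resB₁ R' (C.yB R') ^ n' • z'
      simp only [map_pow, smul_smul, ← pow_add, Nat.add_comm n n']
    | smul b z _ hz =>
      obtain ⟨n, w, hn⟩ := hz
      obtain ⟨p, b₁, hb⟩ := exists_pow_mul_eq₁ b
      refine ⟨p + n, b₁ • w, ?_⟩
      rw [map_smul, ← hn, ← algebraMap_smul (C.B R') b₁]
      show _ = C.resB₁ R' b₁ • C.resB₁ R' (C.yB R') ^ n • z
      rw [← hb, show C.resB₁ R' (C.yB R') = yT C R' from rfl, smul_smul, smul_smul, pow_add]
      congr 1
      ring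
  have hinj₁ : Function.Injective h := by
    have hs : Function.Surjective (h.liftBaseChange (C.B R')) := by
      rw [← LinearMap.range_eq_top, eq_top_iff, ← hS]
      refine Submodule.span_le.mpr ?_
      rintro _ ⟨w, rfl⟩
      exact ⟨1 ⊗ₜ w, by rw [LinearMap.liftBaseChange_tmul, one_smul]⟩
    have hb := Module.Invertible.bijective_of_surjective hs
    intro v w hvw
    have h1 : (1 : C.B R') ⊗ₜ[C.B₁ R'] v = 1 ⊗ₜ w :=
      hb.1 (by simp [LinearMap.liftBaseChange_tmul, hvw])
    have h2 := Module.Flat.rTensor_preserves_injective_linearMap (M := N₁)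
      (Algebra.linearMap (C.B₁ R') (C.B R')) (resB₁_injective' C R')
    have h3 := @h2 (1 ⊗ₜ v) (1 ⊗ₜ w) (by simpa using h1)
    simpa using congrArg (TensorProduct.lid (C.B₁ R') N₁) h3
  let ι₁' : N₁ →ₛₗ[C.resB₁ R'] C.B R' ⊗[C.B₀ R'] N₀ :=
    { toFun := h
      map_add' := map_add h
      map_smul' := fun b m => by
        rw [map_smul, ← algebraMap_smul (C.B R') b]
        rfl }
  let ι₀' : N₀ →ₛₗ[C.resB₀ R'] C.B R' ⊗[C.B₀ R'] N₀ :=
    { toFun := fun m => 1 ⊗ₜ m
      map_add' := fun m m' => TensorProduct.tmul_add _ _ _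
      map_smul' := fun r m => by
        rw [← TensorProduct.smul_tmul, TensorProduct.smul_tmul']
        congr 1 }
  refine ⟨{ M₀ := N₀, M₁ := N₁, M := C.B R' ⊗[C.B₀ R'] N₀, ι₀ := ι₀', ι₁ := ι₁',
            inj₀ := ?_, inj₁ := hinj₁, loc₀ := ?_, loc₁ := hloc₁ }, f₀, f₁, f, ?_, ?_, ?_, ?_⟩
  · intro v w hvw
    have h2 := Module.Flat.rTensor_preserves_injective_linearMap (M := N₀)
      (Algebra.linearMap (C.B₀ R') (C.B R')) (resB₀_injective' C R')
    have h3 := @h2 (1 ⊗ₜ v) (1 ⊗ₜ w) (by simpa [ι₀'] using hvw)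
    simpa using congrArg (TensorProduct.lid (C.B₀ R') N₀) h3
  · intro z
    show ∃ (n : ℕ) (m₀ : N₀), C.resB₀ R' (C.xB R') ^ n • z = 1 ⊗ₜ m₀
    induction z using TensorProduct.induction_on with
    | zero => exact ⟨0, 0, by simp⟩
    | tmul b m =>
      obtain ⟨n, b₀, hb⟩ := exists_pow_mul_eq₀ b
      refine ⟨n, b₀ • m, ?_⟩
      rw [TensorProduct.smul_tmul', smul_eq_mul,
        show C.resB₀ R' (C.xB R') = xT C R' from rfl, hb, ← TensorProduct.smul_tmul,
        Algebra.smul_def, mul_one]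
      rfl
    | add z w hz hw =>
      obtain ⟨n, v, hv⟩ := hz
      obtain ⟨n', v', hv'⟩ := hw
      refine ⟨n + n', C.xB R' ^ n' • v + C.xB R' ^ n • v', ?_⟩
      have e : ∀ (p : ℕ) (u : N₀), (1 : C.B R') ⊗ₜ[C.B₀ R'] (C.xB R' ^ p • u) =
          C.resB₀ R' (C.xB R') ^ p • ((1 : C.B R') ⊗ₜ[C.B₀ R'] u) := fun p u => by
        rw [← TensorProduct.smul_tmul, TensorProduct.smul_tmul', Algebra.smul_def, mul_one,
          smul_eq_mul, mul_one, map_pow]
        rfl
      rw [TensorProduct.tmul_add, e, e, ← hv, ← hv', smul_add, smul_smul, smul_smul, ← pow_add,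
        ← pow_add, Nat.add_comm n' n]
  · rw [hf₀.range_eq, Submodule.span_univ]
  · rw [hf₁.range_eq, Submodule.span_univ]
  · intro m
    show f (1 ⊗ₜ m) = E.ι₀ (f₀ m)
    rw [hf, map_one, one_smul]
  · intro m
    exact hh' m

end FLTAgent.JacRep.Charts
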