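import Fermat.Agent.JacRep.Charts.Twist
import Mathlib.RingTheory.Localization.Away.Basic

/-!
# The good locus is cut out by an ideal

`exists_good_ideal`: for a family of Euler characteristic zero the bases over which it becomes
good along a tree are those where one ideal generates the unit ideal.  On the acyclic locus this
is `exists_treeGood_ideal`, applied over the localisations at the elements of the acyclicity
ideal.
-/

set_option autoImplicit false
set_option linter.style.haveILetI false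

noncomputable section

open scoped TensorProduct

universe u

namespace FLTAgent.JacRep.Charts

variable {k : Type u} [Field k] {C : Cover k} {R : Type u} [CommRing R] [Algebra k R]

theorem exists_mem_ne_zero_of_map_eq_top {K : Type u} [Field K] {S : Type u} [CommRing S]
    (φ : S →+* K) {I : Ideal S} (h : I.map φ = ⊤) : ∃ a ∈ I, φ a ≠ 0 := by
  by_contra hne
  push Not at hne
  have : I.map φ = ⊥ := (Ideal.map_eq_bot_iff_le_ker φ).mpr fun a ha => hne a ha
  exact bot_ne_top (this.symm.trans h)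

/-- **The good locus is cut out by an ideal.** -/
theorem exists_good_ideal (T : Tree C) (F : Bundle C R)
    (hχ : ∀ (K : Type u) [Field K] [Algebra k K] (φ : R →ₐ[k] K) (E' : Bundle C K),
      Bundle.IsPullback φ F E' → E'.euler = 0) :
    ∃ I : Ideal R, ∀ (S : Type u) [CommRing S] [Algebra k S] (φ : R →ₐ[k] S) (F' : Bundle C S),
      Bundle.IsPullback φ F F' → (TreeGood T F' ↔ I.map (φ : R →+* S) = ⊤) := by
  classical
  obtain ⟨Iac, hIac⟩ := F.exists_acyclic_ideal hχ
  have hJ : ∀ f ∈ Iac, ∃ J : Ideal R, ∀ (K : Type u) [Field K] [Algebra k K] (φ : R →ₐ[k] K)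
      (F' : Bundle C K), Bundle.IsPullback φ F F' → φ f ≠ 0 →
        (TreeGood T F' ↔ ∃ a ∈ J, φ a ≠ 0) := by
    intro f hf
    let L := Localization.Away f
    let l : R →ₐ[k] L := IsScalarTower.toAlgHom k R L
    obtain ⟨FL, hFL⟩ := F.exists_pullback l
    have hu : IsUnit (l f) := IsLocalization.Away.algebraMap_isUnit f
    have hFA : FL.Acyclic := (hIac L l FL hFL).mpr
      (Ideal.eq_top_of_isUnit_mem _ (Ideal.mem_map_of_mem _ hf) hu)
    obtain ⟨J, hJ⟩ := exists_treeGood_ideal hFA T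
    refine ⟨J.comap l, fun K _ _ φ F' hF' hne => ?_⟩
    have hunits : ∀ y : Submonoid.powers f, IsUnit (φ (y : R)) := by
      rintro ⟨_, n, rfl⟩
      rw [map_pow]
      exact (Ne.isUnit hne).pow n
    let χ : L →ₐ[k] K := IsLocalization.liftAlgHom (M := Submonoid.powers f) (f := φ) hunits
    have hχl : χ.comp l = φ := AlgHom.ext fun r => IsLocalization.lift_eq _ r
    obtain ⟨G, hG⟩ := FL.exists_pullback χ
    have hiso : G.Iso F' := Bundle.isPullback_unique (Bundle.iso_refl F)
      (hχl ▸ Bundle.isPullback_comp hFL hG) hF'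
    have hiff : TreeGood T G ↔ J.map (χ : L →+* K) = ⊤ := hJ K χ G (hG.acyclic hFA) hG
    constructor
    · intro h
      obtain ⟨j, hj, hj0⟩ := exists_mem_ne_zero_of_map_eq_top (χ : L →+* K)
        (hiff.mp (treeGood_iso (Bundle.iso_symm hiso) h))
      obtain ⟨⟨a, s⟩, hs⟩ := IsLocalization.surj (Submonoid.powers f) j
      have ha : l a ∈ J := by
        show algebraMap R L a ∈ J
        rw [← hs]
        exact J.mul_mem_right _ hj
      refine ⟨a, ha, fun h0 => hj0 ?_⟩
      have e : χ j * χ (l (s : R)) = χ (l a) := by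
        rw [← map_mul]; exact congrArg χ hs
      rw [← AlgHom.comp_apply, ← AlgHom.comp_apply, hχl, h0] at e
      exact (mul_eq_zero.mp e).resolve_right (hunits s).ne_zero
    · rintro ⟨a, ha, hne'⟩
      refine treeGood_iso hiso (hiff.mpr (Ideal.eq_top_of_isUnit_mem _
        (Ideal.mem_map_of_mem _ ha) (Ne.isUnit ?_)))
      show χ (l a) ≠ 0
      rwa [← AlgHom.comp_apply, hχl]
  choose J hJ using hJ
  refine ⟨⨆ f : Iac, Ideal.span {(f : R)} * J f f.2, fun S _ _ φ F' hF' => ?_⟩
  set I := ⨆ f : Iac, Ideal.span {(f : R)} * J f f.2 with hI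
  have hle : I ≤ Iac := iSup_le fun f => Ideal.mul_le_left.trans
    ((Ideal.span_singleton_le_iff_mem _).mpr f.2)
  have hres : ∀ (P : Ideal S) [P.IsMaximal],
      ∃ (K : Type u) (_ : Field K) (_ : Algebra k K) (ψ : S →ₐ[k] K) (G : Bundle C K),
        Bundle.IsPullback ψ F' G ∧ ∀ s, ψ s = 0 ↔ s ∈ P := by
    intro P hP
    letI := Ideal.Quotient.field P
    obtain ⟨G, hG⟩ := F'.exists_pullback (Ideal.Quotient.mkₐ k P)
    exact ⟨S ⧸ P, inferInstance, inferInstance, Ideal.Quotient.mkₐ k P, G, hG,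
      fun s => Ideal.Quotient.eq_zero_iff_mem⟩
  constructor
  · intro h
    by_contra htop
    obtain ⟨P, hP, hle'⟩ := Ideal.exists_le_maximal _ htop
    haveI := hP
    obtain ⟨K, _, _, ψ, G, hG, hψ⟩ := hres P
    obtain ⟨f, hf, hfP⟩ : ∃ f ∈ Iac, φ f ∉ P := by
      by_contra hne
      push Not at hne
      exact hP.ne_top (top_unique ((hIac S φ F' hF').mp h.1 ▸ Ideal.map_le_iff_le_comap.mpr hne))
    obtain ⟨a, ha, hne⟩ := (hJ f hf K (ψ.comp φ) G (Bundle.isPullback_comp hF' hG)
      (fun h0 => hfP ((hψ _).mp h0))).mp (treeGood_pullback hG h)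
    have hmem : φ (f * a) ∈ P := hle' (Ideal.mem_map_of_mem _ (Submodule.mem_iSup_of_mem
      (⟨f, hf⟩ : Iac) (Ideal.mul_mem_mul (Ideal.mem_span_singleton_self _) ha)))
    rw [← hψ, map_mul, map_mul] at hmem
    exact (mul_eq_zero.mp hmem).elim (fun h0 => hfP ((hψ _).mp h0)) hne
  · intro htop
    have hA : F'.Acyclic := (hIac S φ F' hF').mpr
      (top_unique (htop ▸ Ideal.map_mono hle))
    obtain ⟨J', hJ'⟩ := exists_treeGood_ideal hA T
    refine (hJ' S (AlgHom.id k S) F' hA (Bundle.isPullback_id F')).mpr ?_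
    by_contra hne'
    obtain ⟨P, hP, hle'⟩ := Ideal.exists_le_maximal _ hne'
    haveI := hP
    obtain ⟨K, _, _, ψ, G, hG, hψ⟩ := hres P
    obtain ⟨f, hfa⟩ : ∃ f : Iac, ∃ a ∈ J f f.2, ψ (φ ((f : R) * a)) ≠ 0 := by
      by_contra hno
      push Not at hno
      refine hP.ne_top (top_unique (htop ▸ Ideal.map_le_iff_le_comap.mpr (iSup_le fun f => ?_)))
      refine Ideal.mul_le.mpr fun r hr a ha => ?_
      obtain ⟨c, rfl⟩ := Ideal.mem_span_singleton'.mp hr
      rw [Ideal.mem_comap, RingHom.coe_coe, mul_assoc, map_mul]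
      exact P.mul_mem_left _ ((hψ _).mp (hno f a ha))
    obtain ⟨a, ha, hne⟩ := hfa
    rw [map_mul, map_mul] at hne
    have hgood : TreeGood T G := (hJ f f.2 K (ψ.comp φ) G (Bundle.isPullback_comp hF' hG)
      (left_ne_zero_of_mul hne)).mpr ⟨a, ha, right_ne_zero_of_mul hne⟩
    obtain ⟨j, hj, hj0⟩ := exists_mem_ne_zero_of_map_eq_top (ψ : S →+* K)
      ((hJ' K ψ G hgood.1 hG).mp hgood)
    exact hj0 ((hψ j).mpr
      (hle' (Ideal.mem_map_of_mem (AlgHom.id k S : S →+* S) hj)))

end FLTAgent.JacRep.Charts
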