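import Fermat.Agent.JacRep.Charts.Pieces

/-!
# Over an algebraically closed field some tree is good

`exists_treeGood`: for an acyclic bundle over an algebraically closed field there is a rooted tree
along which it is good.  Some piece generates at the base point (`exists_rootOK`), and every point
is reached from it along surjective entries, since the first chart is a domain
(`closed_eq_univ`).
-/

set_option autoImplicit false
set_option linter.style.haveILetI false

noncomputable section

open scoped TensorProduct Polynomial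

universe u

namespace FLTAgent.JacRep.Charts

variable {k : Type u} [Field k] {C : Cover k} {K : Type u} [Field K] [Algebra k K]
  {F : Bundle C K} (hA : F.Acyclic)

theorem exists_dual_ne_zero {B M : Type u} [CommRing B] [AddCommGroup M] [Module B M]
    [Module.Invertible B M] {v : M} (hv : v ≠ 0) : ∃ f : Module.Dual B M, f v ≠ 0 := by
  by_contra h
  push Not at h
  obtain ⟨s, hs⟩ := exists_dual_basis (B := B) (M := M)
  refine hv ?_
  rw [← one_smul B v, ← hs, Finset.sum_smul]
  exact Finset.sum_eq_zero fun p _ => by rw [dual_smul_comm, h, zero_smul]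

include hA in
theorem piece_ne_bot (i : Fin C.rank) : piece hA i ≠ ⊥ := by
  intro h
  haveI := invertible_piece hA i
  haveI : Subsingleton (piece hA i) := by rw [h]; infer_instance
  exact bot_ne_top (ideal_eq_top_of_smul_top (M := piece hA i) (I := (⊥ : Ideal K))
    (Subsingleton.elim _ _))

theorem entrySurj_of_ne_zero {i j : Fin C.rank} {a : C.A₀} {d : ℕ} {v : F.M₀}
    (hv : v ∈ piece hA j) (h : entry hA i a d v ≠ 0) : EntrySurj hA i j a d := by
  haveI := invertible_piece hA i
  refine le_antisymm (by rintro _ ⟨u, -, rfl⟩; exact pieceMap_mem hA i _) fun u hu => ?_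
  let w : piece hA i := ⟨entry hA i a d v, pieceMap_mem hA i _⟩
  obtain ⟨f, hf⟩ := exists_dual_ne_zero (B := K) (v := w) (fun e => h (congrArg Subtype.val e))
  refine ⟨((f w)⁻¹ * f ⟨u, hu⟩) • v, Submodule.smul_mem _ _ hv, ?_⟩
  have e := congrArg Subtype.val (dual_smul_comm f ⟨u, hu⟩ w)
  simp only [SetLike.val_smul] at e
  rw [map_smul, mul_smul, show entry hA i a d v = (w : F.M₀) from rfl, e, smul_smul,
    inv_mul_cancel₀ hf, one_smul]

theorem coeff_xB_pow_smul (d e : ℕ) (m : F.M₀) :
    coeff hA d (C.xB K ^ e • m) = if e ≤ d then coeff hA (d - e) m else 0 := by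
  induction e generalizing d with
  | zero => simp
  | succ e ih =>
    rw [pow_succ', ← smul_smul]
    rcases d with - | d
    · simp [coeff_zero, head_xB_smul]
    · rw [coeff_xB_smul_succ, ih]; simp

/-- A piece stays within a set closed under the entries. -/
theorem pieceMap_coeff_eq_zero {S : Set (Fin C.rank)}
    (hS : ∀ i ∈ S, ∀ j ∉ S, ∀ l d, ∀ v ∈ piece hA i, entry hA j (C.basis₀ l) d v = 0)
    {m : F.M₀} (hm : m ∈ Submodule.span (C.B₀ K) {v | ∃ i ∈ S, v ∈ piece hA i})
    (b : C.B₀ K) (d : ℕ) {j : Fin C.rank} (hj : j ∉ S) :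
    pieceMap hA j (coeff hA d (b • m)) = 0 := by
  induction hm using Submodule.span_induction generalizing b with
  | zero => simp
  | add p q _ _ hp hq => rw [smul_add, map_add, map_add, hp, hq, add_zero]
  | smul c m _ hm => rw [smul_smul]; exact hm _
  | mem v hv =>
    obtain ⟨i, hi, hv⟩ := hv
    induction b using TensorProduct.induction_on with
    | zero => simp
    | add p q hp hq => rw [add_smul, map_add, map_add, hp, hq, add_zero]
    | tmul r a =>
      rw [show (r ⊗ₜ[k] a : C.B₀ K) = (r ⊗ₜ[k] (1 : C.A₀)) * ((1 : K) ⊗ₜ a) by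
          rw [Algebra.TensorProduct.tmul_mul_tmul, one_mul, mul_one],
        mul_smul, ← smul_R_def, map_smul, map_smul]
      suffices h : pieceMap hA j (coeff hA d (((1 : K) ⊗ₜ[k] a : C.B₀ K) • v)) = 0 by
        rw [h, smul_zero]
      obtain ⟨c, rfl⟩ := C.basis₀_bijective.2 a
      simp only [TensorProduct.tmul_sum, Finset.sum_smul, map_sum]
      refine Finset.sum_eq_zero fun l _ => ?_
      generalize c l = q
      induction q using Polynomial.induction_on' with
      | add p q hp hq =>
        rw [map_add, add_mul, TensorProduct.tmul_add, add_smul, map_add, map_add, hp, hq, add_zero]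
      | monomial e z =>
        rw [Polynomial.aeval_monomial, ← Algebra.smul_def, smul_mul_assoc,
          ← TensorProduct.smul_tmul,
          show ((z • (1 : K)) ⊗ₜ[k] (C.x ^ e * C.basis₀ l) : C.B₀ K) =
            ((z • (1 : K)) ⊗ₜ[k] (1 : C.A₀)) * (C.xB K ^ e * ((1 : K) ⊗ₜ C.basis₀ l)) by
            rw [Cover.xB, Algebra.TensorProduct.tmul_pow, Algebra.TensorProduct.tmul_mul_tmul,
              Algebra.TensorProduct.tmul_mul_tmul, one_pow, one_mul, one_mul, mul_one],
          mul_smul, mul_smul, ← smul_R_def, map_smul, map_smul, coeff_xB_pow_smul]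
        split
        · rw [← entry_apply, hS i hi j hj l _ v hv, smul_zero]
        · simp

/-- A set closed under the entries in both directions is everything. -/
theorem closed_eq_univ [IsDomain (C.B₀ K)] {S : Set (Fin C.rank)} (hne : S.Nonempty)
    (hS : ∀ i ∈ S, ∀ j ∉ S, ∀ l d, ∀ v ∈ piece hA i, entry hA j (C.basis₀ l) d v = 0)
    (hS' : ∀ i ∈ S, ∀ j ∉ S, ∀ l d, ∀ v ∈ piece hA j, entry hA i (C.basis₀ l) d v = 0) :
    ∀ i, i ∈ S := by
  by_contra h
  push Not at h
  obtain ⟨j, hj⟩ := h
  obtain ⟨i, hi⟩ := hne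
  obtain ⟨v, hv, hv0⟩ := (Submodule.ne_bot_iff _).mp (piece_ne_bot hA i)
  obtain ⟨w, hw, hw0⟩ := (Submodule.ne_bot_iff _).mp (piece_ne_bot hA j)
  obtain ⟨f, hf⟩ := exists_dual_ne_zero (B := C.B₀ K) hv0
  set m := f w • v with hm
  have h1 : m ∈ Submodule.span (C.B₀ K) {u | ∃ i ∈ S, u ∈ piece hA i} :=
    Submodule.smul_mem _ _ (Submodule.subset_span ⟨i, hi, hv⟩)
  have h2 : m ∈ Submodule.span (C.B₀ K) {u | ∃ i ∈ Sᶜ, u ∈ piece hA i} := by
    rw [hm, dual_smul_comm]
    exact Submodule.smul_mem _ _ (Submodule.subset_span ⟨j, hj, hw⟩)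
  have hzero : ∀ d, coeff hA d m = 0 := fun d => by
    rw [← sum_pieceMap_of_mem hA (coeff_mem hA d m)]
    refine Finset.sum_eq_zero fun l _ => ?_
    by_cases hl : l ∈ S
    · have := pieceMap_coeff_eq_zero hA (S := Sᶜ)
        (fun a ha b hb l d u hu => hS' b (not_not.mp hb) a ha l d u hu) h2 1 d (j := l)
        (not_not.mpr hl)
      rwa [one_smul] at this
    · have := pieceMap_coeff_eq_zero hA hS h1 1 d (j := l) hl
      rwa [one_smul] at this
  obtain ⟨n, hn⟩ := exists_eq_sum_coeff hA m
  have hm0 : f v • w = 0 := by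
    rw [← dual_smul_comm, ← hm, hn]
    exact Finset.sum_eq_zero fun d _ => by rw [hzero, smul_zero]
  obtain ⟨g, hg⟩ := exists_dual_ne_zero (B := C.B₀ K) hw0
  have e := congrArg g hm0
  rw [map_smul, map_zero, smul_eq_mul] at e
  exact (mul_ne_zero hf hg) e

include hA in
theorem exists_rootOK : ∃ i, RootOK hA i := by
  have hmax : (RingHom.ker (C.baseB K)).IsMaximal :=
    RingHom.ker_isMaximal_of_surjective _ fun r => ⟨_, baseB_left C K r⟩
  by_contra h
  push Not at h
  have hle : ∀ i, ∀ v ∈ piece hA i,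
      v ∈ RingHom.ker (C.baseB K) • (⊤ : Submodule (C.B₀ K) F.M₀) := by
    intro i v hv
    by_contra hv'
    refine h i ?_
    set N := Submodule.span (C.B₀ K) (piece hA i : Set F.M₀) ⊔
      RingHom.ker (C.baseB K) • (⊤ : Submodule (C.B₀ K) F.M₀) with hN
    obtain ⟨I, hI⟩ := exists_ideal_smul_top N
    show N = ⊤
    have e : N = (I ⊔ RingHom.ker (C.baseB K)) • ⊤ := by
      rw [Submodule.sup_smul, ← hI]
      exact (sup_eq_left.mpr le_sup_right).symm
    rcases (le_sup_right : RingHom.ker (C.baseB K) ≤ I ⊔ RingHom.ker (C.baseB K)).eq_or_lt with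
      h' | h'
    · refine absurd ?_ hv'
      rw [h', ← e]
      exact Submodule.mem_sup_left (Submodule.subset_span hv)
    · rw [e, hmax.1.2 _ h', Submodule.top_smul]
  refine hmax.ne_top (ideal_eq_top_of_smul_top (M := F.M₀) (top_unique ?_))
  refine le_trans (span_vSub hA).ge (Submodule.span_le.mpr ?_)
  intro v hv
  rw [← sum_pieceMap_of_mem hA hv]
  exact Submodule.sum_mem _ fun i _ => hle i _ (pieceMap_mem hA i v)

/-- Points reached from `r` in `n` steps along surjective entries. -/
def Reach (r : Fin C.rank) : ℕ → Fin C.rank → Prop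
  | 0, i => i = r
  | n + 1, i => ∃ j, Reach r n j ∧ ∃ l d, EntrySurj hA i j (C.basis₀ l) d ∨
      EntrySurj hA j i (C.basis₀ l) d

theorem exists_reach [IsDomain (C.B₀ K)] (r i : Fin C.rank) : ∃ n, Reach hA r n i := by
  refine closed_eq_univ hA (S := {i | ∃ n, Reach hA r n i}) ⟨r, 0, rfl⟩ ?_ ?_ i
  all_goals
    rintro a ⟨n, ha⟩ b hb l d v hv
    by_contra h
  · exact hb ⟨n + 1, a, ha, l, d, Or.inl (entrySurj_of_ne_zero hA hv h)⟩
  · exact hb ⟨n + 1, a, ha, l, d, Or.inr (entrySurj_of_ne_zero hA hv h)⟩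

include hA in
/-- **Some tree is good.** -/
theorem exists_treeGood [IsDomain (C.B₀ K)] : ∃ T : Tree C, TreeGood T F := by
  classical
  obtain ⟨r, hr⟩ := exists_rootOK hA
  let ord : Fin C.rank → ℕ := fun i => Nat.find (exists_reach hA r i)
  have step : ∀ i, i ≠ r → ∃ (j : Fin C.rank) (l : Fin C.rank) (d : ℕ) (dir : Bool),
      ord j < ord i ∧ EntrySurj hA (if dir then i else j) (if dir then j else i)
        (C.basis₀ l) d := by
    intro i hi
    obtain ⟨m, hm⟩ : ∃ m, ord i = m + 1 := by
      refine Nat.exists_eq_succ_of_ne_zero fun h0 => hi ?_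
      have := Nat.find_spec (exists_reach hA r i)
      rw [show Nat.find (exists_reach hA r i) = 0 from h0] at this
      exact this
    have hi' : Reach hA r (m + 1) i := hm ▸ Nat.find_spec (exists_reach hA r i)
    obtain ⟨j, hj, l, d, hl⟩ := hi'
    have hlt : ord j < ord i := hm ▸ Nat.lt_succ_of_le (Nat.find_le hj)
    rcases hl with hl | hl
    exacts [⟨j, l, d, true, hlt, hl⟩, ⟨j, l, d, false, hlt, hl⟩]
  choose par fn dg dir hlt hsurj using step
  let ext {α : Type} (g : ∀ i, i ≠ r → α) (a : α) (i : Fin C.rank) : α :=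
    if h : i = r then a else g i h
  refine ⟨⟨r, ext par r, ord, ext dir true, ext fn r, ext dg 0, fun i hi => ?_⟩, hA,
    fun i hi => ?_, hr⟩
  · show ord (ext par r i) < ord i
    simp only [ext, dif_neg hi]
    exact hlt i hi
  · simp only [Tree.tgt, Tree.src, ext, dif_neg hi]
    exact hsurj i hi

end FLTAgent.JacRep.Charts
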