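import Fermat.Agent.JacRep.Charts.Univ
import Fermat.Agent.JacRep.Charts.Tree
import Fermat.Agent.JacRep.Charts.Open
import Fermat.Agent.JacRep.Charts.Lift
import Mathlib.RingTheory.Smooth.Basic

/-!
# The universal bundle of a chart

`exists_universal`: the universal point is realised by the twist of a bundle over `ChartRing T` by
`E₀`.  This bundle represents `TwistGood` (`universal_represents`), has degree zero when `E₀` has
Euler characteristic zero, and the chart algebras are formally smooth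
(`formallySmooth_chartRing`: deform the bundle, the good locus being open, and take its point).
-/

set_option autoImplicit false
set_option linter.style.haveILetI false

noncomputable section

open scoped TensorProduct

universe u

namespace FLTAgent.JacRep.Charts

variable {k : Type u} [Field k] {C : Cover k} {R : Type u} [CommRing R] [Algebra k R]

/-- The universal bundle of a chart: `univ` twisted by `E₀` is the bundle of the universal point. -/
theorem exists_universal [Infinite k] (T : Tree C) (E₀ : Bundle C k) :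
    ∃ Eu E₀u Fu : Bundle C (ChartRing T),
      Bundle.IsPullback (Algebra.ofId k (ChartRing T)) E₀ E₀u ∧ Bundle.IsTensor Eu E₀u Fu ∧
        HasPt (univPt T) Fu ∧ Fu.IsRigidified ∧ Eu.IsRigidified := by
  obtain ⟨Fu, hp, hr⟩ := exists_bundle_of_pt (univPt T)
  obtain ⟨E₀u, h₀⟩ := E₀.exists_pullback (Algebra.ofId k (ChartRing T))
  obtain ⟨B', U, hB, hU, hrB⟩ := Bundle.exists_inverse E₀u
  obtain ⟨Eu, hEu⟩ := Bundle.exists_tensor Fu B'
  obtain ⟨G, hG⟩ := Bundle.exists_tensor Eu E₀u
  have e : G.Iso Fu :=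
    iso_of_tensor_inverse (B := B') hU hEu (Bundle.isTensor_comm hB) hG
  exact ⟨Eu, E₀u, Fu, h₀, isTensor_of_iso hG e, hp, hr,
    Bundle.isRigidified_tensor hEu hr (hrB (h₀.isRigidified (isRigidified_field E₀)))⟩

section Universal

variable {T : Tree C} {E₀ : Bundle C k} {Eu E₀u Fu : Bundle C (ChartRing T)}
  (h₀ : Bundle.IsPullback (Algebra.ofId k (ChartRing T)) E₀ E₀u)
  (hu : Bundle.IsTensor Eu E₀u Fu) (hp : HasPt (univPt T) Fu)

theorem HasPt.treeGood {p : Pt T R} {E : Bundle C R} (h : HasPt p E) : TreeGood T E :=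
  h.elim fun F => F.treeGood

include h₀ hu hp in
theorem universal_good : TwistGood T E₀ (ChartRing T) Eu :=
  ⟨E₀u, Fu, h₀, hu, hp.treeGood⟩

include h₀ in
theorem isPullback_twist {φ : ChartRing T →ₐ[k] R} {E₀' : Bundle C R}
    (h₀' : Bundle.IsPullback (Algebra.ofId k R) E₀ E₀') : Bundle.IsPullback φ E₀u E₀' := by
  obtain ⟨G, hG⟩ := E₀u.exists_pullback φ
  exact Bundle.isPullback_of_iso (Bundle.iso_refl E₀u)
    (Bundle.isPullback_unique (Bundle.iso_refl E₀) (isPullback_ofId_comp h₀ hG) h₀') hG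

include h₀ hu hp in
/-- The universal bundle has degree zero. -/
theorem universal_degreeZero (hE₀ : E₀.euler = 0) : Eu.DegreeZero := by
  intro K _ _ φ E' U hP hU
  obtain ⟨E₀', h₀'⟩ := E₀.exists_pullback (Algebra.ofId k K)
  obtain ⟨H, hH⟩ := Bundle.exists_tensor E' E₀'
  have hHp : Bundle.IsPullback φ Fu H :=
    Bundle.isTensor_pullback hP (isPullback_twist h₀ h₀') hu hH
  have := euler_twist hE₀ h₀' hH hU
  rwa [((Bundle.acyclic_iff_field H).mp (hHp.acyclic hp.treeGood.1)).1, zero_add, eq_comm] at this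

include h₀ hu hp in
/-- **The universal bundle represents the condition.** -/
theorem universal_represents {E : Bundle C R} (hE : E.IsRigidified) (hg : TwistGood T E₀ R E) :
    ∃! φ : ChartRing T →ₐ[k] R, ∃ E' : Bundle C R, Bundle.IsPullback φ Eu E' ∧ E'.Iso E := by
  obtain ⟨E₀', F, h₀', hF, hgood⟩ := hg
  have hFr : F.IsRigidified :=
    Bundle.isRigidified_tensor hF hE (h₀'.isRigidified (isRigidified_field E₀))
  obtain ⟨p, hpF⟩ := exists_hasPt hgood hFr
  refine ⟨p.classify, ?_, ?_⟩
  · obtain ⟨E', hE'⟩ := Eu.exists_pullback p.classify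
    obtain ⟨H, hH⟩ := Bundle.exists_tensor E' E₀'
    have hHF : Bundle.IsPullback p.classify Fu F :=
      isPullback_of_hasPt hp (by rw [Pt.classify_spec]; exact hpF)
    exact ⟨E', hE', isTensor_left_cancel hH hF (Bundle.isPullback_unique (Bundle.iso_refl Fu)
      (Bundle.isTensor_pullback hE' (isPullback_twist h₀ h₀') hu hH) hHF)⟩
  · rintro ψ ⟨E', hE', e⟩
    have hP : Bundle.IsPullback ψ Fu F :=
      Bundle.isTensor_pullback (Bundle.isPullback_of_iso (Bundle.iso_refl Eu) e hE')
        (isPullback_twist h₀ h₀') hu hF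
    refine chartRing_hom_ext ?_
    rw [Pt.classify_spec]
    exact (hp.pullback hgood.1 hP).unique hpF

end Universal

/-- **The charts are formally smooth.** -/
theorem formallySmooth_chartRing [Infinite k] (T : Tree C) :
    Algebra.FormallySmooth k (ChartRing T) := by
  refine Algebra.FormallySmooth.of_comp_surjective ?_
  intro B _ _ I hI φ
  obtain ⟨Fu, hp, hr⟩ := exists_bundle_of_pt (univPt T)
  obtain ⟨G, hG⟩ := Fu.exists_pullback φ
  let π : B →ₐ[k] B ⧸ I := Ideal.Quotient.mkₐ k I
  have hπ : Function.Surjective π := Ideal.Quotient.mkₐ_surjective k I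
  have hkerπ : RingHom.ker (π : B →+* B ⧸ I) = I := Ideal.Quotient.mkₐ_ker k I
  have hker : RingHom.ker (π : B →+* B ⧸ I) ^ 2 = ⊥ := by rw [hkerπ, hI]
  obtain ⟨F', hF'⟩ := exists_lift_bundle π hπ hker G
  have hGgood : TreeGood T G := treeGood_pullback hG hp.treeGood
  have hχ : ∀ (K : Type u) [Field K] [Algebra k K] (ψ : B →ₐ[k] K) (E' : Bundle C K),
      Bundle.IsPullback ψ F' E' → E'.euler = 0 := by
    intro K _ _ ψ E' hE'
    have hI' : ∀ a ∈ I, ψ a = 0 := fun a ha => by
      have h2 : a ^ 2 ∈ I ^ 2 := Ideal.pow_mem_pow ha 2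
      rw [hI, Ideal.mem_bot] at h2
      have h3 := congrArg ψ h2
      rw [map_pow, map_zero] at h3
      exact pow_eq_zero_iff two_ne_zero |>.mp h3
    let χ : B ⧸ I →ₐ[k] K := Ideal.Quotient.liftₐ I ψ hI'
    have hχ' : χ.comp π = ψ := AlgHom.ext fun b => rfl
    obtain ⟨G', hG'⟩ := G.exists_pullback χ
    have e : G'.Iso E' := Bundle.isPullback_unique (Bundle.iso_refl F')
      (hχ' ▸ Bundle.isPullback_comp hF' hG') hE'
    rw [euler_iso e]
    exact ((Bundle.acyclic_iff_field G').mp (hG'.acyclic hGgood.1)).1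
  obtain ⟨J, hJ⟩ := exists_good_ideal T F' hχ
  have hnil : ∀ {L : Ideal B}, L.map (π : B →+* B ⧸ I) = ⊤ → L = ⊤ := by
    intro L hL
    have h1 : L ⊔ I = ⊤ := by
      rw [← hkerπ, RingHom.ker_eq_comap_bot,
        ← Ideal.comap_map_of_surjective (π : B →+* B ⧸ I) hπ, hL, Ideal.comap_top]
    obtain ⟨a, ha, b, hb, hab⟩ := Submodule.mem_sup.mp
      (show (1 : B) ∈ L ⊔ I by rw [h1]; exact Submodule.mem_top)
    refine Ideal.eq_top_of_isUnit_mem _ ha ?_
    have hb2 : IsNilpotent b := ⟨2, by
      have := Ideal.pow_mem_pow hb 2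
      rwa [hI, Ideal.mem_bot] at this⟩
    rw [show a = 1 - b from eq_sub_of_add_eq hab]
    exact hb2.isUnit_one_sub
  have hgood : TreeGood T F' := by
    refine (hJ B (AlgHom.id k B) F' (Bundle.isPullback_id F')).mpr ?_
    rw [hnil ((hJ _ π G hF').mp hGgood)]
    exact Ideal.map_top _
  have hFr : F'.IsRigidified := isRigidified_of_thickening hπ hker hF' (hG.isRigidified hr)
  obtain ⟨p, hpF⟩ := exists_hasPt hgood hFr
  refine ⟨p.classify, chartRing_hom_ext ?_⟩
  show (univPt T).map (π.comp p.classify) = _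
  rw [← Pt.map_map, Pt.classify_spec]
  exact (hpF.pullback hGgood.1 hF').unique (hp.pullback hGgood.1 hG)

end FLTAgent.JacRep.Charts
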