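import Fermat.Agent.JacRep.Defs

/-!
# Covers over a base and invertible modules

Elementary facts used by the charts: submodules of an invertible module come from ideals
(`exists_ideal_smul_top`); the coordinates `xT`, `yT` on the overlap of a cover over a base; the
separating functions `sepB` at the points of the fibre `x = 0`, by which a function is the sum of
its values modulo the coordinate (`exists_eq_sum_sepB`); and the compatibility of all of these
with a change of base.
-/

set_option autoImplicit false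
set_option linter.style.haveILetI false

noncomputable section

open scoped TensorProduct

universe u

namespace FLTAgent.JacRep.Charts

/-! ### Invertible modules -/

section Invertible

variable {B M : Type u} [CommRing B] [AddCommGroup M] [Module B M] [Module.Invertible B M]

theorem dual_smul_comm (f : Module.Dual B M) (m v : M) : f m • v = f v • m := by
  simpa using congrArg ((TensorProduct.lid B M).toLinearMap ∘ₗ f.rTensor M)
    (Module.Invertible.tmul_comm (R := B) (m₁ := m) (m₂ := v))

theorem exists_dual_basis : ∃ (s : Finset (Module.Dual B M × M)), ∑ p ∈ s, p.1 p.2 = 1 := by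
  classical
  obtain ⟨s, hs⟩ := TensorProduct.exists_finset ((Module.Invertible.linearEquiv B M).symm 1)
  refine ⟨s, ?_⟩
  have h := congrArg (Module.Invertible.linearEquiv B M) hs
  simpa [Module.Invertible.linearEquiv] using h.symm

/-- Every submodule of an invertible module comes from an ideal. -/
theorem exists_ideal_smul_top (N : Submodule B M) : ∃ I : Ideal B, N = I • ⊤ := by
  obtain ⟨s, hs⟩ := exists_dual_basis (B := B) (M := M)
  refine ⟨Ideal.span {b | ∃ (f : Module.Dual B M) (v : M), v ∈ N ∧ f v = b}, le_antisymm ?_ ?_⟩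
  · intro v hv
    have : v = ∑ p ∈ s, p.1 v • p.2 := by
      rw [← Finset.sum_congr rfl fun p _ => dual_smul_comm p.1 p.2 v, ← Finset.sum_smul, hs,
        one_smul]
    rw [this]
    exact Submodule.sum_mem _ fun p _ =>
      Submodule.smul_mem_smul (Ideal.subset_span ⟨p.1, v, hv, rfl⟩) trivial
  · rw [Submodule.smul_le]
    intro b hb m _
    induction hb using Submodule.span_induction with
    | mem b hb => obtain ⟨f, v, hv, rfl⟩ := hb; rw [← dual_smul_comm]; exact N.smul_mem _ hv
    | zero => rw [zero_smul]; exact N.zero_mem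
    | add a b _ _ ha hb => rw [add_smul]; exact N.add_mem ha hb
    | smul a b _ hb => rw [smul_eq_mul, ← smul_smul]; exact N.smul_mem _ hb

theorem ideal_eq_top_of_smul_top {I : Ideal B} (h : I • (⊤ : Submodule B M) = ⊤) : I = ⊤ := by
  obtain ⟨s, hs⟩ := exists_dual_basis (B := B) (M := M)
  rw [Ideal.eq_top_iff_one, ← hs]
  refine Ideal.sum_mem _ fun p _ => ?_
  have hmem : p.2 ∈ I • (⊤ : Submodule B M) := by rw [h]; exact Submodule.mem_top
  refine Submodule.smul_induction_on (p := fun x => p.1 x ∈ I) hmem (fun r hr m _ => ?_)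
    fun x y hx hy => ?_
  · rw [map_smul, smul_eq_mul]; exact I.mul_mem_right _ hr
  · rw [map_add]; exact I.add_mem hx hy

end Invertible

section SemilinearImage

variable {B B' M M' : Type u} [CommRing B] [CommRing B'] [AddCommGroup M] [AddCommGroup M']
  [Module B M] [Module B' M'] {σ : B →+* B'}

/-- The image of `I • M` under a map with spanning image spans `σ I • M'`. -/
theorem span_image_smul_top (f : M →ₛₗ[σ] M') (hf : Submodule.span B' (Set.range f) = ⊤)
    (I : Ideal B) :
    Submodule.span B' (f '' ((I • (⊤ : Submodule B M) : Submodule B M) : Set M)) = I.map σ • ⊤ := by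
  refine le_antisymm (Submodule.span_le.mpr ?_) ?_
  · rintro _ ⟨m, hm, rfl⟩
    refine Submodule.smul_induction_on
      (p := fun x => f x ∈ I.map σ • (⊤ : Submodule B' M')) hm (fun r hr n _ => ?_) fun x y hx hy => ?_
    · rw [LinearMap.map_smulₛₗ]
      exact Submodule.smul_mem_smul (Ideal.mem_map_of_mem σ hr) trivial
    · rw [map_add]; exact Submodule.add_mem _ hx hy
  · rw [← hf, Ideal.map, Ideal.span, Submodule.smul_le]
    intro b hb n hn
    induction hn using Submodule.span_induction with
    | mem n hn =>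
      obtain ⟨m, rfl⟩ := hn
      induction hb using Submodule.span_induction with
      | mem b hb =>
        obtain ⟨r, hr, rfl⟩ := hb
        rw [← LinearMap.map_smulₛₗ]
        exact Submodule.subset_span ⟨_, Submodule.smul_mem_smul hr Submodule.mem_top, rfl⟩
      | zero => rw [zero_smul]; exact Submodule.zero_mem _
      | add a c _ _ ha hc => rw [add_smul]; exact Submodule.add_mem _ ha hc
      | smul a c _ hc => rw [smul_eq_mul, ← smul_smul]; exact Submodule.smul_mem _ _ hc
    | zero => rw [smul_zero]; exact Submodule.zero_mem _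
    | add x y _ _ hx hy => rw [smul_add]; exact Submodule.add_mem _ hx hy
    | smul a x _ hx => rw [smul_comm]; exact Submodule.smul_mem _ _ hx

end SemilinearImage

/-! ### Covers over a base -/

variable {k : Type u} [Field k] (C : Cover k) (R : Type u) [CommRing R] [Algebra k R]
  {R' : Type u} [CommRing R'] [Algebra k R']

/-- The coordinate on the overlap. -/
def xT : C.B R := C.resB₀ R (C.xB R)

/-- Its inverse. -/
def yT : C.B R := C.resB₁ R (C.yB R)

theorem resB₀_tmul (r : R) (a : C.A₀) : C.resB₀ R (r ⊗ₜ a) = r ⊗ₜ C.res₀ a := by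
  simp [Cover.resB₀]

theorem resB₁_tmul (r : R) (a : C.A₁) : C.resB₁ R (r ⊗ₜ a) = r ⊗ₜ C.res₁ a := by
  simp [Cover.resB₁]

theorem xT_mul_yT : xT C R * yT C R = 1 := by
  rw [xT, yT, Cover.xB, Cover.yB, resB₀_tmul, resB₁_tmul, Algebra.TensorProduct.tmul_mul_tmul,
    one_mul, C.x_mul_y]
  rfl

theorem yT_mul_xT : yT C R * xT C R = 1 := by rw [mul_comm, xT_mul_yT]

theorem baseB_tmul (r : R) (a : C.A₀) : C.baseB R (r ⊗ₜ a) = algebraMap k R (C.base a) * r := by
  simp [Cover.baseB, Algebra.smul_def]

theorem ptB_tmul (i : Fin C.rank) (r : R) (a : C.A₀) :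
    C.ptB R i (r ⊗ₜ a) = algebraMap k R (C.pt i a) * r := by
  simp [Cover.ptB, Algebra.smul_def]

theorem baseB_left (r : R) : C.baseB R (r ⊗ₜ 1) = r := by simp [baseB_tmul]

theorem ptB_left (i : Fin C.rank) (r : R) : C.ptB R i (r ⊗ₜ 1) = r := by simp [ptB_tmul]

theorem ptB_xB (i : Fin C.rank) : C.ptB R i (C.xB R) = 0 := by
  simp [Cover.xB, ptB_tmul, C.pt_x]

/-- An element of the first chart with value `1` at the point `i` and `0` at the others. -/
def sep (i : Fin C.rank) : C.A₀ := (C.pt_surjective (Pi.single i 1)).choose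

theorem pt_sep (i j : Fin C.rank) : C.pt j (sep C i) = if j = i then 1 else 0 := by
  rw [sep, (C.pt_surjective (Pi.single i 1)).choose_spec j, Pi.single_apply]

/-- The same over a base. -/
def sepB (i : Fin C.rank) : C.B₀ R := 1 ⊗ₜ sep C i

theorem ptB_sepB (i j : Fin C.rank) : C.ptB R j (sepB C R i) = if j = i then 1 else 0 := by
  rw [sepB, ptB_tmul, pt_sep, mul_one]
  split <;> simp

/-- Modulo the coordinate an element is the sum of its values. -/
theorem exists_eq_sum_sepB (b : C.B₀ R) :
    ∃ c, b = ∑ i, (C.ptB R i b ⊗ₜ[k] (1 : C.A₀)) * sepB C R i + C.xB R * c := by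
  induction b using TensorProduct.induction_on with
  | zero => exact ⟨0, by simp⟩
  | tmul r a =>
    obtain ⟨c, hc⟩ := C.pt_ker (a - ∑ i, C.pt i a • sep C i) fun j => by
      simp [map_sub, map_sum, map_smul, pt_sep]
    refine ⟨r ⊗ₜ c, ?_⟩
    have hterm : ∀ i, (C.ptB R i (r ⊗ₜ a) ⊗ₜ[k] (1 : C.A₀)) * sepB C R i =
        r ⊗ₜ (C.pt i a • sep C i) := fun i => by
      rw [ptB_tmul, sepB, Algebra.TensorProduct.tmul_mul_tmul, mul_one, one_mul, ← Algebra.smul_def,
        TensorProduct.smul_tmul]
    simp only [hterm]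
    rw [← TensorProduct.tmul_sum, Cover.xB, Algebra.TensorProduct.tmul_mul_tmul, one_mul, ← hc,
      ← TensorProduct.tmul_add, add_sub_cancel]
  | add p q hp hq =>
    obtain ⟨c, hc⟩ := hp
    obtain ⟨d, hd⟩ := hq
    refine ⟨c + d, ?_⟩
    conv_lhs => rw [hc, hd]
    simp only [map_add, TensorProduct.add_tmul, add_mul, Finset.sum_add_distrib, mul_add]
    abel

variable {C R}

theorem mapB₀_tmul (φ : R →ₐ[k] R') (r : R) (a : C.A₀) : C.mapB₀ φ (r ⊗ₜ a) = φ r ⊗ₜ a := by
  simp [Cover.mapB₀]

theorem mapB₁_tmul (φ : R →ₐ[k] R') (r : R) (a : C.A₁) : C.mapB₁ φ (r ⊗ₜ a) = φ r ⊗ₜ a := by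
  simp [Cover.mapB₁]

theorem mapB_tmul (φ : R →ₐ[k] R') (r : R) (a : C.A) : C.mapB φ (r ⊗ₜ a) = φ r ⊗ₜ a := by
  simp [Cover.mapB]

theorem mapB₀_xB (φ : R →ₐ[k] R') : C.mapB₀ φ (C.xB R) = C.xB R' := by
  simp [Cover.xB, mapB₀_tmul]

theorem mapB₁_yB (φ : R →ₐ[k] R') : C.mapB₁ φ (C.yB R) = C.yB R' := by
  simp [Cover.yB, mapB₁_tmul]

theorem mapB₀_sepB (φ : R →ₐ[k] R') (i : Fin C.rank) :
    C.mapB₀ φ (sepB C R i) = sepB C R' i := by
  simp [sepB, mapB₀_tmul]

theorem mapB_resB₀ (φ : R →ₐ[k] R') (b : C.B₀ R) :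
    C.mapB φ (C.resB₀ R b) = C.resB₀ R' (C.mapB₀ φ b) := by
  induction b using TensorProduct.induction_on with
  | zero => simp
  | tmul r a => rw [resB₀_tmul, mapB_tmul, mapB₀_tmul, resB₀_tmul]
  | add p q hp hq => simp only [map_add, hp, hq]

theorem mapB_resB₁ (φ : R →ₐ[k] R') (b : C.B₁ R) :
    C.mapB φ (C.resB₁ R b) = C.resB₁ R' (C.mapB₁ φ b) := by
  induction b using TensorProduct.induction_on with
  | zero => simp
  | tmul r a => rw [resB₁_tmul, mapB_tmul, mapB₁_tmul, resB₁_tmul]
  | add p q hp hq => simp only [map_add, hp, hq]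

theorem mapB_xT (φ : R →ₐ[k] R') : C.mapB φ (xT C R) = xT C R' := by
  rw [xT, mapB_resB₀, mapB₀_xB, xT]

theorem baseB_mapB₀ (φ : R →ₐ[k] R') (b : C.B₀ R) :
    C.baseB R' (C.mapB₀ φ b) = φ (C.baseB R b) := by
  induction b using TensorProduct.induction_on with
  | zero => simp
  | tmul r a => simp [mapB₀_tmul, baseB_tmul, map_mul]
  | add p q hp hq => simp only [map_add, hp, hq]

theorem ptB_mapB₀ (φ : R →ₐ[k] R') (i : Fin C.rank) (b : C.B₀ R) :
    C.ptB R' i (C.mapB₀ φ b) = φ (C.ptB R i b) := by
  induction b using TensorProduct.induction_on with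
  | zero => simp
  | tmul r a => simp [mapB₀_tmul, ptB_tmul, map_mul]
  | add p q hp hq => simp only [map_add, hp, hq]

end FLTAgent.JacRep.Charts
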