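import Fermat.Agent.JacRep.Charts.Point
import Fermat.Agent.JacRep.Ops

/-!
# Frames of good bundles

A `Frame` of a bundle `E` is a normalised basis of `V` adapted to the points of the fibre, with the
matrices and values of a point `p : Pt T R` of the chart (`HasPt p E`).  The point of a bundle is
unique (`HasPt.unique`), every bundle which is good along the tree and rigidified has one
(`exists_hasPt`: choose generators along the tree), and points commute with pullback
(`HasPt.pullback`).
-/

set_option autoImplicit false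
set_option linter.style.haveILetI false

noncomputable section

open scoped TensorProduct Polynomial

universe u

namespace FLTAgent.JacRep.Charts

variable {k : Type u} [Field k] {C : Cover k} {R : Type u} [CommRing R] [Algebra k R]

variable (C R) in
/-- Polynomials in the coordinate. -/
def evX : R[X] →+* C.B₀ R :=
  Polynomial.eval₂RingHom (Algebra.TensorProduct.includeLeftRingHom : R →+* C.B₀ R) (C.xB R)

variable (C R) in
/-- Polynomials in the coordinate at infinity. -/
def evY : R[X] →+* C.B₁ R :=
  Polynomial.eval₂RingHom (Algebra.TensorProduct.includeLeftRingHom : R →+* C.B₁ R) (C.yB R)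

theorem evX_monomial (d : ℕ) (r : R) :
    evX C R (Polynomial.monomial d r) = (r ⊗ₜ[k] (1 : C.A₀)) * C.xB R ^ d := by
  simp [evX]

theorem baseB_evX (c : R[X]) : C.baseB R (evX C R c) = c.eval (algebraMap k R (C.base C.x)) := by
  induction c using Polynomial.induction_on' with
  | add a b ha hb => rw [map_add, map_add, ha, hb, Polynomial.eval_add]
  | monomial d r =>
    rw [evX_monomial, map_mul, map_pow, baseB_left, Polynomial.eval_monomial, Cover.xB, baseB_tmul,
      mul_one]

theorem mapB₀_evX {R' : Type u} [CommRing R'] [Algebra k R'] (φ : R →ₐ[k] R') (c : R[X]) :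
    C.mapB₀ φ (evX C R c) = evX C R' (c.map (φ : R →+* R')) := by
  induction c using Polynomial.induction_on' with
  | add a b ha hb => rw [map_add, map_add, ha, hb, Polynomial.map_add, map_add]
  | monomial d r =>
    rw [evX_monomial, map_mul, map_pow, mapB₀_tmul, mapB₀_xB, Polynomial.map_monomial, evX_monomial,
      RingHom.coe_coe]

theorem mem_ideal_of_smul_mem {B M : Type u} [CommRing B] [AddCommGroup M] [Module B M]
    [Module.Invertible B M] {I : Ideal B} {b : B}
    (h : ∀ m : M, b • m ∈ I • (⊤ : Submodule B M)) : b ∈ I := by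
  obtain ⟨s, hs⟩ := exists_dual_basis (B := B) (M := M)
  rw [← mul_one b, ← hs, Finset.mul_sum]
  refine Ideal.sum_mem _ fun p _ => ?_
  rw [← smul_eq_mul, ← map_smul]
  refine Submodule.smul_induction_on (p := fun x => p.1 x ∈ I) (h p.2) (fun r hr m _ => ?_)
    fun x y hx hy => ?_
  · rw [map_smul, smul_eq_mul]; exact I.mul_mem_right _ hr
  · rw [map_add]; exact I.add_mem hx hy

theorem eq_zero_of_smul_generator {S M : Type u} [CommRing S] [AddCommGroup M] [Module S M]
    [Module.Invertible S M] {v : M} (hv : ∀ w : M, ∃ r : S, w = r • v) {r : S} (h : r • v = 0) :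
    r = 0 :=
  (Module.Invertible.bijective_of_surjective (f := LinearMap.toSpanSingleton S M v) fun w =>
    let ⟨r, hr⟩ := hv w; ⟨r, hr.symm⟩).1 (by simpa using h)

variable {T : Tree C} {E : Bundle C R}

/-- A frame of `E` realising the point `p`. -/
structure Frame (T : Tree C) (E : Bundle C R) (p : Pt T R) : Type u where
  acyclic : E.Acyclic
  e : Fin C.rank → E.M₀
  mem : ∀ i, e i ∈ piece acyclic i
  gen : ∀ i, ∀ v ∈ piece acyclic i, ∃ r : R, v = r • e i
  rel : ∀ a j, ((1 : R) ⊗ₜ[k] a : C.B₀ R) • e j = ∑ i, evX C R (p.mat a i j) • e i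
  val : ∀ i, e i - p.b i • e T.root ∈ RingHom.ker (C.baseB R) • (⊤ : Submodule (C.B₀ R) E.M₀)
  rootOK : RootOK acyclic T.root

/-- `E` realises the point `p`. -/
def HasPt (p : Pt T R) (E : Bundle C R) : Prop := Nonempty (Frame T E p)

section Adapted

variable (hA : E.Acyclic) {e : Fin C.rank → E.M₀}

/-- The combinations of a frame. -/
def combine (e : Fin C.rank → E.M₀) (c : Fin C.rank → R[X]) : E.M₀ := ∑ i, evX C R (c i) • e i

theorem combine_add (e : Fin C.rank → E.M₀) (c d : Fin C.rank → R[X]) :
    combine e (c + d) = combine e c + combine e d := by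
  simp [combine, add_smul, Finset.sum_add_distrib]

variable (hmem : ∀ i, e i ∈ piece hA i)
include hmem

theorem coeff_evX_smul (i : Fin C.rank) (c : R[X]) (d : ℕ) :
    coeff hA d (evX C R c • e i) = c.coeff d • e i := by
  induction c using Polynomial.induction_on' with
  | add a b ha hb => rw [map_add, add_smul, map_add, ha, hb, Polynomial.coeff_add, add_smul]
  | monomial n r =>
    rw [evX_monomial, mul_smul, ← smul_R_def, map_smul,
      coeff_monomial hA (piece_le_vSub hA i (hmem i)), Polynomial.coeff_monomial]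
    rcases eq_or_ne d n with rfl | h
    · simp
    · simp [h, Ne.symm h]

theorem pieceMap_coeff_combine (c : Fin C.rank → R[X]) (i : Fin C.rank) (d : ℕ) :
    pieceMap hA i (coeff hA d (combine e c)) = (c i).coeff d • e i := by
  simp only [combine, map_sum, coeff_evX_smul hA hmem, map_smul, pieceMap_of_mem hA (hmem _)]
  simp

variable (hgen : ∀ i, ∀ v ∈ piece hA i, ∃ r : R, v = r • e i)
include hgen

theorem smul_e_injective (i : Fin C.rank) {r s : R} (h : r • e i = s • e i) : r = s := by
  haveI := invertible_piece hA i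
  refine sub_eq_zero.mp (eq_zero_of_smul_generator (v := (⟨e i, hmem i⟩ : piece hA i))
    (fun w => let ⟨t, ht⟩ := hgen i w w.2; ⟨t, Subtype.ext ht⟩) (Subtype.ext ?_))
  simp [sub_smul, h]

theorem combine_injective {c d : Fin C.rank → R[X]} (h : combine e c = combine e d) : c = d :=
  funext fun i => Polynomial.ext fun n => smul_e_injective hA hmem hgen i (by
    rw [← pieceMap_coeff_combine hA hmem c i n, h, pieceMap_coeff_combine hA hmem d i n])

omit hmem in
theorem exists_combine (m : E.M₀) : ∃ c, combine e c = m := by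
  obtain ⟨n, hn⟩ := exists_eq_sum_coeff hA m
  choose r hr using fun (d : ℕ) (i : Fin C.rank) =>
    hgen i _ (pieceMap_mem hA i (coeff hA d m))
  refine ⟨fun i => ∑ d ∈ Finset.range n, Polynomial.monomial d (r d i), ?_⟩
  conv_rhs => rw [hn]
  simp only [combine, map_sum, Finset.sum_smul, evX_monomial]
  rw [Finset.sum_comm]
  refine Finset.sum_congr rfl fun d _ => ?_
  conv_rhs => rw [← sum_pieceMap_of_mem hA (coeff_mem hA d m), Finset.smul_sum]
  refine Finset.sum_congr rfl fun i _ => ?_
  rw [mul_comm, mul_smul, ← smul_R_def, hr d i]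

omit hgen hmem in
theorem evX_smul_combine (c : R[X]) (d : Fin C.rank → R[X]) :
    evX C R c • combine e d = combine e fun i => c * d i := by
  simp [combine, Finset.smul_sum, smul_smul]

end Adapted

namespace Frame

variable {p : Pt T R} (F : Frame T E p)

theorem combine_mat (a : C.A₀) (j : Fin C.rank) :
    combine F.e (fun i => p.mat a i j) = ((1 : R) ⊗ₜ[k] a : C.B₀ R) • F.e j := (F.rel a j).symm

theorem entry_e (i j : Fin C.rank) (a : C.A₀) (d : ℕ) :
    entry F.acyclic i a d (F.e j) = (p.mat a i j).coeff d • F.e i := by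
  rw [entry_apply, ← F.combine_mat, pieceMap_coeff_combine F.acyclic F.mem]

include F in
theorem treeGood : TreeGood T E := by
  refine ⟨F.acyclic, fun i hi => le_antisymm ?_ ?_, F.rootOK⟩
  · rintro _ ⟨v, -, rfl⟩
    exact pieceMap_mem _ _ _
  · intro v hv
    obtain ⟨r, rfl⟩ := F.gen _ v hv
    refine ⟨r • F.e (T.src i), Submodule.smul_mem _ r (F.mem _), ?_⟩
    rw [map_smul, F.entry_e, p.edge i hi, one_smul]

theorem smul_root_mem_ker {r : R}
    (h : r • F.e T.root ∈ RingHom.ker (C.baseB R) • (⊤ : Submodule (C.B₀ R) E.M₀)) : r = 0 := by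
  have hmem : (r ⊗ₜ[k] (1 : C.A₀) : C.B₀ R) ∈ RingHom.ker (C.baseB R) := by
    refine mem_ideal_of_smul_mem (M := E.M₀) fun m => ?_
    have hm : m ∈ Submodule.span (C.B₀ R) (piece F.acyclic T.root : Set E.M₀) ⊔
        RingHom.ker (C.baseB R) • (⊤ : Submodule (C.B₀ R) E.M₀) := by
      rw [F.rootOK]; exact Submodule.mem_top
    obtain ⟨y, hy, z, hz, rfl⟩ := Submodule.mem_sup.mp hm
    rw [smul_add]
    refine Submodule.add_mem _ ?_ (Submodule.smul_mem _ _ hz)
    clear hm
    induction hy using Submodule.span_induction with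
    | mem v hv =>
      obtain ⟨s, rfl⟩ := F.gen _ v hv
      rw [smul_R_def, smul_comm]
      exact Submodule.smul_mem _ _ (by rw [← smul_R_def]; exact h)
    | zero => simp
    | add a b _ _ ha hb => rw [smul_add]; exact Submodule.add_mem _ ha hb
    | smul b a _ ha => rw [smul_comm]; exact Submodule.smul_mem _ _ ha
  rwa [RingHom.mem_ker, baseB_left] at hmem

end Frame

/-- **The point of a bundle is unique.** -/
theorem HasPt.unique {p q : Pt T R} (hp : HasPt p E) (hq : HasPt q E) : p = q := by
  obtain ⟨F⟩ := hp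
  obtain ⟨G⟩ := hq
  choose w hw using fun i => F.gen i (G.e i) (G.mem i)
  have hedge : ∀ i, i ≠ T.root → w i = w (T.parent i) := by
    intro i hi
    have h : entry F.acyclic (T.tgt i) (C.basis₀ (T.fn i)) (T.deg i) (G.e (T.src i)) =
        G.e (T.tgt i) := by
      show entry G.acyclic _ _ _ _ = _
      rw [G.entry_e, q.edge i hi, one_smul]
    rw [hw, map_smul, F.entry_e, p.edge i hi, one_smul, hw] at h
    have h' := smul_e_injective F.acyclic F.mem F.gen _ h
    simp only [Tree.src, Tree.tgt] at h'
    split at h'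
    · exact h'.symm
    · exact h'
  have hconst : ∀ m i, T.ord i < m → w i = w T.root := by
    intro m
    induction m with
    | zero => exact fun i h => absurd h (Nat.not_lt_zero _)
    | succ m ih =>
      intro i hi
      by_cases hr : i = T.root
      · rw [hr]
      · exact (hedge i hr).trans (ih _ (lt_of_lt_of_le (T.ord_lt i hr) (Nat.lt_succ_iff.mp hi)))
  have hG : ∀ i, G.e i = w T.root • F.e i := fun i =>
    (hw i).trans (by rw [hconst _ i (Nat.lt_succ_self _)])
  have hunit : IsUnit (w T.root) := by
    obtain ⟨s, hs⟩ := G.gen _ (F.e T.root) (F.mem _)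
    refine IsUnit.of_mul_eq_one s (smul_e_injective F.acyclic F.mem F.gen T.root ?_)
    rw [one_smul, mul_comm, mul_smul, ← hG, ← hs]
  obtain ⟨u, hu⟩ := hunit
  refine Pt.ext (AlgHom.ext fun a => Matrix.ext fun i j => ?_) (funext fun i => ?_)
  · have h1 := G.combine_mat a j
    have h2 : combine G.e (fun i => q.mat a i j) =
        w T.root • combine F.e (fun i => q.mat a i j) := by
      simp only [combine, hG, Finset.smul_sum]
      exact Finset.sum_congr rfl fun l _ => smul_comm _ _ _
    rw [h2, hG, smul_comm _ (w T.root), ← F.combine_mat, ← hu] at h1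
    have h3 : combine F.e (fun i => q.mat a i j) = combine F.e fun i => p.mat a i j := by
      have := congrArg (((u⁻¹ : Rˣ) : R) • ·) h1
      simpa [smul_smul] using this
    exact (congrFun (combine_injective F.acyclic F.mem F.gen h3) i).symm
  · refine sub_eq_zero.mp ((hu ▸ u.isUnit).mul_right_eq_zero.mp (F.smul_root_mem_ker ?_))
    have h1 := Submodule.smul_of_tower_mem _ (w T.root) (F.val i)
    have h2 := G.val i
    rw [hG, hG] at h2
    convert Submodule.sub_mem _ h2 h1 using 1
    simp only [smul_sub, sub_smul, mul_smul, smul_comm (q.b i) (w T.root)]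
    abel

/-- **Good rigidified bundles have points.** -/
theorem exists_hasPt (hT : TreeGood T E) (hR : E.IsRigidified) : ∃ p : Pt T R, HasPt p E := by
  classical
  obtain ⟨hA, hedge, hroot⟩ := hT
  obtain ⟨f, hf⟩ := hR
  -- a generator of the root piece
  obtain ⟨v, hv, hfv⟩ : ∃ v ∈ piece hA T.root, f v = 1 := by
    let J : Ideal R :=
      { carrier := f '' (piece hA T.root : Set E.M₀)
        zero_mem' := ⟨0, zero_mem _, map_zero f⟩
        add_mem' := by
          rintro _ _ ⟨a, ha, rfl⟩ ⟨b, hb, rfl⟩
          exact ⟨a + b, add_mem ha hb, map_add f a b⟩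
        smul_mem' := by
          rintro r _ ⟨a, ha, rfl⟩
          exact ⟨r • a, Submodule.smul_mem _ r ha,
            by rw [smul_R_def, LinearMap.map_smulₛₗ, baseB_left]⟩ }
    obtain ⟨m, hm⟩ := hf 1
    have hmem : m ∈ Submodule.span (C.B₀ R) (piece hA T.root : Set E.M₀) ⊔
        RingHom.ker (C.baseB R) • (⊤ : Submodule (C.B₀ R) E.M₀) := by
      rw [hroot]; exact Submodule.mem_top
    obtain ⟨y, hy, z, hz, rfl⟩ := Submodule.mem_sup.mp hmem
    have hz0 : f z = 0 := Submodule.smul_induction_on (p := fun x => f x = 0) hz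
      (fun r hr n _ => by rw [LinearMap.map_smulₛₗ, RingHom.mem_ker.mp hr, zero_smul])
      fun a b ha hb => by rw [map_add, ha, hb, add_zero]
    have hy' : f y ∈ J := by
      clear hmem hm
      induction hy using Submodule.span_induction with
      | mem a ha => exact ⟨a, ha, rfl⟩
      | zero => rw [map_zero]; exact J.zero_mem
      | add a b _ _ ha hb => rw [map_add]; exact J.add_mem ha hb
      | smul b a _ ha => rw [LinearMap.map_smulₛₗ]; exact J.smul_mem _ ha
    rw [map_add, hz0, add_zero] at hm
    exact hm ▸ hy'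
  have hvgen : ∀ w ∈ piece hA T.root, ∃ r : R, w = r • v := by
    intro w hw
    haveI := invertible_piece hA T.root
    let g : piece hA T.root →ₗ[R] R :=
      { toFun := fun a => f a
        map_add' := fun a b => map_add f _ _
        map_smul' := fun r a => by
          show f (r • (a : E.M₀)) = r * f a
          rw [smul_R_def, LinearMap.map_smulₛₗ, baseB_left, smul_eq_mul] }
    have hinj := (Module.Invertible.bijective_of_surjective (f := g) fun r =>
      ⟨r • ⟨v, hv⟩, by rw [map_smul, show g ⟨v, hv⟩ = 1 from hfv, smul_eq_mul, mul_one]⟩).1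
    refine ⟨f w, congrArg Subtype.val (hinj (a₁ := ⟨w, hw⟩) (a₂ := f w • ⟨v, hv⟩) ?_)⟩
    rw [map_smul, show g ⟨v, hv⟩ = 1 from hfv, smul_eq_mul, mul_one]
    rfl
  -- normalised generators along the tree
  have hgenAll : ∀ m : ℕ, ∃ e : Fin C.rank → E.M₀, e T.root = v ∧
      ∀ i, T.ord i < m → i ≠ T.root → e i ∈ piece hA i ∧
        (∀ w ∈ piece hA i, ∃ r : R, w = r • e i) ∧
        entry hA (T.tgt i) (C.basis₀ (T.fn i)) (T.deg i) (e (T.src i)) = e (T.tgt i) := by
    intro m
    induction m with
    | zero => exact ⟨fun _ => v, rfl, fun i h => absurd h (Nat.not_lt_zero _)⟩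
    | succ m ih =>
      obtain ⟨e, he0, he⟩ := ih
      have hparent : ∀ i, i ≠ T.root → T.ord i < m + 1 → e (T.parent i) ∈ piece hA (T.parent i) ∧
          ∀ w ∈ piece hA (T.parent i), ∃ r : R, w = r • e (T.parent i) := by
        intro i hi hm
        by_cases hp : T.parent i = T.root
        · rw [hp, he0]; exact ⟨hv, hvgen⟩
        · have := he _ (lt_of_lt_of_le (T.ord_lt i hi) (Nat.lt_succ_iff.mp hm)) hp
          exact ⟨this.1, this.2.1⟩
      have hstep : ∀ i, ∃ z : E.M₀, i ≠ T.root → T.ord i = m → z ∈ piece hA i ∧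
          (∀ w ∈ piece hA i, ∃ r : R, w = r • z) ∧
          entry hA (T.tgt i) (C.basis₀ (T.fn i)) (T.deg i)
              (if T.dir i then e (T.parent i) else z) =
            if T.dir i then z else e (T.parent i) := by
        intro i
        by_cases hcase : i ≠ T.root ∧ T.ord i = m
        · obtain ⟨hi, hm⟩ := hcase
          obtain ⟨hpm, hpg⟩ := hparent i hi (hm ▸ Nat.lt_succ_self _)
          have hs := hedge i hi
          cases hd : T.dir i
          · simp only [Tree.tgt, Tree.src, hd, Bool.false_eq_true, if_false] at hs ⊢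
            obtain ⟨z, hz, hze⟩ : e (T.parent i) ∈ (piece hA i).map
                (entry hA (T.parent i) (C.basis₀ (T.fn i)) (T.deg i)) := hs.symm ▸ hpm
            refine ⟨z, fun _ _ => ⟨hz, fun w hw => ?_, hze⟩⟩
            obtain ⟨r, hr⟩ := hpg (entry hA (T.parent i) (C.basis₀ (T.fn i)) (T.deg i) w)
              (pieceMap_mem hA _ _)
            haveI := invertible_piece hA i
            haveI := invertible_piece hA (T.parent i)
            let g : piece hA i →ₗ[R] piece hA (T.parent i) :=
              (entry hA (T.parent i) (C.basis₀ (T.fn i)) (T.deg i)).restrict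
                fun a _ => pieceMap_mem hA _ _
            have hinj := (Module.Invertible.bijective_of_surjective (f := g) fun a => by
              have ha : (a : E.M₀) ∈ (piece hA i).map
                  (entry hA (T.parent i) (C.basis₀ (T.fn i)) (T.deg i)) := hs.symm ▸ a.2
              obtain ⟨b, hb, hb'⟩ := ha
              exact ⟨⟨b, hb⟩, Subtype.ext hb'⟩).1
            refine ⟨r, congrArg Subtype.val (hinj (a₁ := ⟨w, hw⟩) (a₂ := r • ⟨z, hz⟩)
              (Subtype.ext ?_))⟩
            show entry hA _ _ _ w = entry hA _ _ _ (r • z)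
            rw [map_smul, hze, hr]
          · simp only [Tree.tgt, Tree.src, hd, if_true] at hs ⊢
            refine ⟨entry hA i (C.basis₀ (T.fn i)) (T.deg i) (e (T.parent i)),
              fun _ _ => ⟨pieceMap_mem hA _ _, fun w hw => ?_, rfl⟩⟩
            obtain ⟨u, hu, rfl⟩ : w ∈ (piece hA (T.parent i)).map
                (entry hA i (C.basis₀ (T.fn i)) (T.deg i)) := hs.symm ▸ hw
            obtain ⟨r, rfl⟩ := hpg u hu
            exact ⟨r, map_smul _ _ _⟩
        · exact ⟨0, fun a b => absurd ⟨a, b⟩ hcase⟩
      choose z hz using hstep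
      refine ⟨fun i => if i ≠ T.root ∧ T.ord i = m then z i else e i, by simp [he0],
        fun i hi hr => ?_⟩
      have hlt : T.ord (T.parent i) < m :=
        lt_of_lt_of_le (T.ord_lt i hr) (Nat.lt_succ_iff.mp hi)
      have hpar : (fun j => if j ≠ T.root ∧ T.ord j = m then z j else e j) (T.parent i) =
          e (T.parent i) := if_neg fun h => hlt.ne h.2
      rcases (Nat.lt_succ_iff.mp hi).lt_or_eq with h | h
      · have hii : (fun j => if j ≠ T.root ∧ T.ord j = m then z j else e j) i = e i :=
          if_neg fun h' => h.ne h'.2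
        have := he i h hr
        simp only [Tree.src, Tree.tgt] at this ⊢
        by_cases hd : T.dir i = true <;>
          simp only [hd, Bool.false_eq_true, if_false, if_true, hii, hpar] at this ⊢ <;> exact this
      · have hii : (fun j => if j ≠ T.root ∧ T.ord j = m then z j else e j) i = z i :=
          if_pos ⟨hr, h⟩
        obtain ⟨h1, h2, h3⟩ := hz i hr h
        simp only [Tree.src, Tree.tgt] at h3 ⊢
        by_cases hd : T.dir i = true <;>
          simp only [hd, Bool.false_eq_true, if_false, if_true, hii, hpar] at h3 ⊢ <;>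
          exact ⟨h1, h2, h3⟩
  obtain ⟨e, he0, he⟩ := hgenAll (Finset.univ.sup T.ord + 1)
  have he' := fun i => he i (Nat.lt_succ_of_le (Finset.le_sup (Finset.mem_univ i)))
  have hmem : ∀ i, e i ∈ piece hA i := fun i => by
    by_cases h : i = T.root
    · rw [h, he0]; exact hv
    · exact (he' i h).1
  have hgen : ∀ i, ∀ w ∈ piece hA i, ∃ r : R, w = r • e i := fun i => by
    by_cases h : i = T.root
    · rw [h, he0]; exact hvgen
    · exact (he' i h).2.1
  -- the matrices
  choose M hM using fun (a : C.A₀) (j : Fin C.rank) =>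
    exists_combine hA hgen (((1 : R) ⊗ₜ[k] a : C.B₀ R) • e j)
  have huniq : ∀ a j c, combine e c = ((1 : R) ⊗ₜ[k] a : C.B₀ R) • e j → M a j = c :=
    fun a j c h => combine_injective hA hmem hgen ((hM a j).trans h.symm)
  let Φ : C.A₀ → PolyMat C R := fun a i j => M a j i
  have hΦadd : ∀ a b, Φ (a + b) = Φ a + Φ b := fun a b => Matrix.ext fun i j =>
    congrFun (huniq _ j (M a j + M b j) (by
      rw [combine_add, hM, hM, TensorProduct.tmul_add, add_smul])) i
  have hΦmul : ∀ a b, Φ (a * b) = Φ a * Φ b := fun a b => Matrix.ext fun i j => by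
    have h : combine e (fun i => ∑ l, M a l i * M b j l) =
        ((1 : R) ⊗ₜ[k] (a * b) : C.B₀ R) • e j := by
      have e1 : ((1 : R) ⊗ₜ[k] (a * b) : C.B₀ R) • e j =
          ∑ l, evX C R (M b j l) • ((1 : R) ⊗ₜ[k] a : C.B₀ R) • e l := by
        rw [show ((1 : R) ⊗ₜ[k] (a * b) : C.B₀ R) = (1 ⊗ₜ a) * (1 ⊗ₜ b) by simp, mul_smul, ← hM b j,
          combine, Finset.smul_sum]
        exact Finset.sum_congr rfl fun l _ => smul_comm _ _ _
      rw [e1]
      simp only [← hM, evX_smul_combine]
      simp only [combine, map_sum, map_mul, Finset.sum_smul]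
      rw [Finset.sum_comm]
      simp only [mul_comm]
    rw [Matrix.mul_apply]
    exact congrFun (huniq _ j _ h) i
  have hΦC : ∀ c : k, Φ (algebraMap k C.A₀ c) = algebraMap k (PolyMat C R) c := fun c =>
    Matrix.ext fun i j => by
      refine congrFun (huniq _ j (fun i => algebraMap k (PolyMat C R) c i j) ?_) i
      rw [combine, Finset.sum_eq_single j (fun i _ hi => by
        simp [Matrix.algebraMap_matrix_apply, hi]) (by simp), Matrix.algebraMap_matrix_apply,
        if_pos rfl, Algebra.TensorProduct.tmul_one_eq_one_tmul c |>.symm]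
      congr 1
      simp [evX, Polynomial.algebraMap_apply]
  let mat : C.A₀ →ₐ[k] PolyMat C R :=
    { toFun := Φ
      map_one' := by simpa using hΦC 1
      map_mul' := hΦmul
      map_zero' := by simpa using hΦC 0
      map_add' := hΦadd
      commutes' := hΦC }
  -- the values
  have hval : ∀ i, ∃ b : R, e i - b • e T.root ∈
      RingHom.ker (C.baseB R) • (⊤ : Submodule (C.B₀ R) E.M₀) := by
    intro i
    have hm : e i ∈ Submodule.span (C.B₀ R) (piece hA T.root : Set E.M₀) ⊔
        RingHom.ker (C.baseB R) • (⊤ : Submodule (C.B₀ R) E.M₀) := by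
      rw [hroot]; exact Submodule.mem_top
    obtain ⟨y, hy, z, hz, hsum⟩ := Submodule.mem_sup.mp hm
    obtain ⟨b, hb⟩ : ∃ b : C.B₀ R, y = b • e T.root := by
      clear hsum
      induction hy using Submodule.span_induction with
      | mem a ha =>
        obtain ⟨r, hr⟩ := hgen _ a ha
        exact ⟨r ⊗ₜ 1, hr⟩
      | zero => exact ⟨0, (zero_smul _ _).symm⟩
      | add a c _ _ ha hc =>
        obtain ⟨p, rfl⟩ := ha
        obtain ⟨q, rfl⟩ := hc
        exact ⟨p + q, (add_smul _ _ _).symm⟩
      | smul c a _ ha => obtain ⟨p, rfl⟩ := ha; exact ⟨c * p, (mul_smul _ _ _).symm⟩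
    refine ⟨C.baseB R b, ?_⟩
    rw [← hsum, hb, smul_R_def, add_sub_right_comm, ← sub_smul]
    refine Submodule.add_mem _ (Submodule.smul_mem_smul ?_ Submodule.mem_top) hz
    rw [RingHom.mem_ker, map_sub, baseB_left, sub_self]
  choose b hb using hval
  have faith : ∀ r : R,
      r • e T.root ∈ RingHom.ker (C.baseB R) • (⊤ : Submodule (C.B₀ R) E.M₀) → r = 0 := by
    intro r hr
    have h0 : f (r • e T.root) = 0 := Submodule.smul_induction_on (p := fun x => f x = 0) hr
      (fun s hs n _ => by rw [LinearMap.map_smulₛₗ, RingHom.mem_ker.mp hs, zero_smul])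
      fun a c ha hc => by rw [map_add, ha, hc, add_zero]
    rwa [smul_R_def, LinearMap.map_smulₛₗ, baseB_left, he0, hfv, smul_eq_mul, mul_one] at h0
  have hcoef : ∀ a i j d, pieceMap hA i (coeff hA d (((1 : R) ⊗ₜ[k] a : C.B₀ R) • e j)) =
      (Φ a i j).coeff d • e i := fun a i j d => by
    rw [← hM a j, pieceMap_coeff_combine hA hmem]
  refine ⟨{ mat := mat
            b := b
            mat_x := ?_
            coeff_zero := ?_
            pole := ?_
            edge := ?_
            b_root := ?_
            rigid := ?_ }, ⟨{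
              acyclic := hA
              e := e
              mem := hmem
              gen := hgen
              rel := fun a j => (hM a j).symm
              val := hb
              rootOK := hroot }⟩⟩
  · refine Matrix.ext fun i j => ?_
    refine congrFun (huniq _ j (fun i => (Matrix.diagonal fun _ => Polynomial.X : PolyMat C R) i j)
      ?_) i
    rw [combine, Finset.sum_eq_single j (fun i _ hi => by simp [hi]) (by simp),
      Matrix.diagonal_apply_eq]
    simp [evX, Cover.xB]
  · intro a i j
    refine smul_e_injective hA hmem hgen i ((hcoef a i j 0).symm.trans ?_)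
    rw [coeff_zero, pieceMap_head, pieceMap_smul, ptB_tmul, mul_one, pieceMap_of_mem hA (hmem j)]
    rcases eq_or_ne i j with rfl | h
    · simp
    · simp [h]
  · intro a N ⟨a₁, ha⟩ i j d hd
    refine smul_e_injective hA hmem hgen i ((hcoef a i j d).symm.trans ?_)
    obtain ⟨c, hc⟩ := piece_le_vSub hA j (hmem j)
    rw [coeff_eq_zero_of_bound hA (N := N) (b := ((1 : R) ⊗ₜ[k] a₁ : C.B₁ R) • c) ?_ hd, map_zero,
      zero_smul]
    rw [LinearMap.map_smulₛₗ, LinearMap.map_smulₛₗ, hc, smul_smul, smul_smul, resB₀_tmul,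
      resB₁_tmul, ha, xT, Cover.xB, resB₀_tmul, Algebra.TensorProduct.tmul_pow,
      Algebra.TensorProduct.tmul_mul_tmul, Algebra.TensorProduct.tmul_mul_tmul, one_pow, one_mul,
      pow_succ, mul_right_comm]
  · intro i hi
    refine smul_e_injective hA hmem hgen _
      ((hcoef _ (T.tgt i) (T.src i) (T.deg i)).symm.trans ?_)
    rw [one_smul]
    exact (he' i hi).2.2
  · refine sub_eq_zero.mp (faith _ ?_)
    have := hb T.root
    rw [← neg_mem_iff] at this
    convert this using 1
    rw [sub_smul, one_smul, neg_sub]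
  · intro a i
    refine sub_eq_zero.mp (faith _ ?_)
    have hN : ∀ (c : C.B₀ R) (l : Fin C.rank), c • e l - (C.baseB R c * b l) • e T.root ∈
        RingHom.ker (C.baseB R) • (⊤ : Submodule (C.B₀ R) E.M₀) := by
      intro c l
      have h1 : (c - C.baseB R c ⊗ₜ[k] 1) • e l ∈
          RingHom.ker (C.baseB R) • (⊤ : Submodule (C.B₀ R) E.M₀) :=
        Submodule.smul_mem_smul (by rw [RingHom.mem_ker, map_sub, baseB_left, sub_self])
          Submodule.mem_top
      have h2 := Submodule.smul_of_tower_mem _ (C.baseB R c) (hb l)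
      convert Submodule.add_mem _ h1 h2 using 1
      rw [sub_smul, smul_sub, smul_smul, ← smul_R_def]
      abel
    have h1 := hN ((1 : R) ⊗ₜ[k] a : C.B₀ R) i
    have h2 := Submodule.sum_mem _ fun l (_ : l ∈ (Finset.univ : Finset (Fin C.rank))) =>
      hN (evX C R (Φ a l i)) l
    rw [Finset.sum_sub_distrib] at h2
    rw [← hM a i] at h1
    have h3 : ∑ x, evX C R (Φ a x i) • e x = combine e (M a i) := rfl
    rw [h3] at h2
    convert Submodule.sub_mem _ h1 h2 using 1
    simp only [baseB_tmul, baseB_evX, mul_one, sub_smul, Finset.sum_smul]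
    rw [show mat a = Φ a from rfl]
    abel

/-! ### Functoriality -/

variable {R' : Type u} [CommRing R'] [Algebra k R']

/-- Points are compatible with pullback. -/
theorem HasPt.pullback {φ : R →ₐ[k] R'} {E' : Bundle C R'} {p : Pt T R} (hp : HasPt p E)
    (hA' : E'.Acyclic) (h : Bundle.IsPullback φ E E') : HasPt (p.map φ) E' := by
  obtain ⟨F⟩ := hp
  obtain ⟨f₀, f₁, f, hs, -, c₀, c₁⟩ := h
  have hker : ∀ m ∈ RingHom.ker (C.baseB R) • (⊤ : Submodule (C.B₀ R) E.M₀),
      f₀ m ∈ RingHom.ker (C.baseB R') • (⊤ : Submodule (C.B₀ R') E'.M₀) := by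
    intro m hm
    refine Submodule.smul_induction_on
      (p := fun x => f₀ x ∈ RingHom.ker (C.baseB R') • (⊤ : Submodule (C.B₀ R') E'.M₀)) hm
      (fun b hb n _ => ?_) fun a c ha hc => by rw [map_add]; exact Submodule.add_mem _ ha hc
    rw [LinearMap.map_smulₛₗ]
    refine Submodule.smul_mem_smul ?_ Submodule.mem_top
    rw [RingHom.mem_ker, baseB_mapB₀, RingHom.mem_ker.mp hb, map_zero]
  refine ⟨{ acyclic := hA'
            e := fun i => f₀ (F.e i)
            mem := fun i => map_piece F.acyclic hA' c₀ c₁ (F.mem i)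
            gen := fun i v hv => ?_
            rel := fun a j => ?_
            val := fun i => ?_
            rootOK := ?_ }⟩
  · rw [piece_eq_span F.acyclic hA' c₀ c₁ hs i] at hv
    induction hv using Submodule.span_induction with
    | mem v hv =>
      obtain ⟨w, hw, rfl⟩ := hv
      obtain ⟨r, rfl⟩ := F.gen i w hw
      exact ⟨φ r, map_smul_R r _⟩
    | zero => exact ⟨0, (zero_smul R' (f₀ (F.e i))).symm⟩
    | add a b _ _ ha hb =>
      obtain ⟨r, rfl⟩ := ha
      obtain ⟨s, rfl⟩ := hb
      exact ⟨r + s, (add_smul r s _).symm⟩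
    | smul c a _ ha =>
      obtain ⟨r, rfl⟩ := ha
      exact ⟨c * r, (mul_smul c r _).symm⟩
  · have h := congrArg f₀ (F.rel a j)
    rw [LinearMap.map_smulₛₗ, mapB₀_tmul, map_one, map_sum] at h
    rw [h]
    refine Finset.sum_congr rfl fun i _ => ?_
    rw [LinearMap.map_smulₛₗ, mapB₀_evX, Pt.map_mat]
  · have h := hker _ (F.val i)
    rwa [map_sub, map_smul_R] at h
  · rw [RootOK, eq_top_iff]
    refine hs.symm.trans_le (Submodule.span_le.mpr ?_)
    rintro _ ⟨m, rfl⟩
    have hm : m ∈ Submodule.span (C.B₀ R) (piece F.acyclic T.root : Set E.M₀) ⊔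
        RingHom.ker (C.baseB R) • (⊤ : Submodule (C.B₀ R) E.M₀) := by
      rw [F.rootOK]; exact Submodule.mem_top
    obtain ⟨y, hy, z, hz, rfl⟩ := Submodule.mem_sup.mp hm
    rw [SetLike.mem_coe, map_add]
    refine Submodule.add_mem _ (Submodule.mem_sup_left ?_) (Submodule.mem_sup_right (hker z hz))
    clear hm
    induction hy using Submodule.span_induction with
    | mem a ha => exact Submodule.subset_span (map_piece F.acyclic hA' c₀ c₁ ha)
    | zero => rw [map_zero]; exact Submodule.zero_mem _
    | add a b _ _ ha hb => rw [map_add]; exact Submodule.add_mem _ ha hb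
    | smul b a _ ha => rw [LinearMap.map_smulₛₗ]; exact Submodule.smul_mem _ _ ha

end FLTAgent.JacRep.Charts
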