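import Mathlib.RingTheory.PicardGroup
import Mathlib.RingTheory.DedekindDomain.Factorization
import Mathlib.RingTheory.TensorProduct.Basic
import Mathlib.FieldTheory.IsAlgClosed.AlgebraicClosure
import Mathlib.Algebra.MvPolynomial.Funext
import Mathlib.LinearAlgebra.Matrix.ToLin
import Mathlib.LinearAlgebra.Matrix.ToLinearEquiv
import Mathlib.Algebra.Polynomial.AlgebraMap

/-!
# Modules given by commuting matrices

`MatData` is an algebra free over the polynomials in `t` acting on `R[t]ⁿ` by matrices.
`invertible_matMod`: if the geometric fibres of the algebra are Dedekind domains the module is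
invertible.  On each geometric fibre it is torsion-free of rank one, so has a generator modulo
any prime (`exists_generator`), and over an infinite field a generator can be chosen rational.
-/

set_option autoImplicit false
set_option linter.style.haveILetI false

noncomputable section

open scoped TensorProduct Polynomial

universe u

namespace FLTAgent.JacRep.Charts

variable {k : Type u} [Field k] {A : Type u} [CommRing A] [Algebra k A] {n : ℕ}

/-- An algebra free over the polynomials in `t`, acting by matrices. -/
structure MatData (A : Type u) [CommRing A] [Algebra k A] (n : ℕ) (R : Type u) [CommRing R]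
    [Algebra k R] : Type u where
  t : A
  bas : Fin n → A
  bij : Function.Bijective fun c : Fin n → k[X] => ∑ i, Polynomial.aeval t (c i) * bas i
  mat : A →ₐ[k] Matrix (Fin n) (Fin n) R[X]
  mat_t : mat t = Matrix.diagonal fun _ => Polynomial.X

variable {R : Type u} [CommRing R] [Algebra k R] (D : MatData (k := k) A n R)

/-- The action of the algebra over the base. -/
def MatData.rep : R ⊗[k] A →ₐ[R] Matrix (Fin n) (Fin n) R[X] :=
  Algebra.TensorProduct.lift (Algebra.ofId R _) D.mat fun r a => Algebra.commutes r (D.mat a)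

theorem MatData.rep_tmul (r : R) (a : A) : D.rep (r ⊗ₜ a) = r • D.mat a := by
  rw [Algebra.smul_def]
  exact Algebra.TensorProduct.lift_tmul _ _ _ _ _

/-- The module. -/
def MatMod (_D : MatData (k := k) A n R) : Type u := Fin n → R[X]

instance instMatModAddCommGroup : AddCommGroup (MatMod D) :=
  inferInstanceAs (AddCommGroup (Fin n → R[X]))

/-- Coordinates of the module. -/
def MatData.vec : MatMod D ≃+ (Fin n → R[X]) := AddEquiv.refl _

instance instMatModModule : Module (R ⊗[k] A) (MatMod D) where
  smul b v := D.vec.symm ((D.rep b).mulVec (D.vec v))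
  one_smul v := show (D.rep 1).mulVec (D.vec v) = D.vec v by rw [map_one, Matrix.one_mulVec]
  mul_smul a b v := show (D.rep (a * b)).mulVec (D.vec v) =
      (D.rep a).mulVec ((D.rep b).mulVec (D.vec v)) by rw [map_mul, Matrix.mulVec_mulVec]
  smul_zero a := show (D.rep a).mulVec 0 = (0 : Fin n → R[X]) from Matrix.mulVec_zero _
  smul_add a v w := show (D.rep a).mulVec (D.vec v + D.vec w) =
      (D.rep a).mulVec (D.vec v) + (D.rep a).mulVec (D.vec w) from Matrix.mulVec_add _ _ _
  add_smul a b v := show (D.rep (a + b)).mulVec (D.vec v) =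
      (D.rep a).mulVec (D.vec v) + (D.rep b).mulVec (D.vec v) by rw [map_add, Matrix.add_mulVec]
  zero_smul v := show (D.rep 0).mulVec (D.vec v) = (0 : Fin n → R[X]) by
    rw [map_zero, Matrix.zero_mulVec]

theorem MatData.vec_smul (b : R ⊗[k] A) (v : MatMod D) :
    D.vec (b • v) = (D.rep b).mulVec (D.vec v) := rfl

/-- Polynomials in the coordinate. -/
def MatData.evT : R[X] →+* R ⊗[k] A :=
  Polynomial.eval₂RingHom (Algebra.TensorProduct.includeLeftRingHom : R →+* R ⊗[k] A)
    ((1 : R) ⊗ₜ D.t)

theorem MatData.evT_monomial (d : ℕ) (r : R) :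
    D.evT (Polynomial.monomial d r) = r ⊗ₜ[k] (D.t ^ d) := by
  simp [MatData.evT, Algebra.TensorProduct.tmul_pow, Algebra.TensorProduct.tmul_mul_tmul]

theorem MatData.rep_evT (c : R[X]) : D.rep (D.evT c) = Matrix.diagonal fun _ => c := by
  induction c using Polynomial.induction_on' with
  | add a b ha hb => rw [map_add, map_add, ha, hb, Matrix.diagonal_add]
  | monomial d r =>
    rw [D.evT_monomial, D.rep_tmul, map_pow, D.mat_t, Matrix.diagonal_pow]
    refine Matrix.ext fun i j => ?_
    rcases eq_or_ne i j with rfl | h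
    · simp [Polynomial.X_pow_eq_monomial, Polynomial.smul_monomial]
    · simp [h]

theorem MatData.vec_evT_smul (c : R[X]) (v : MatMod D) : D.vec (D.evT c • v) = c • D.vec v := by
  rw [D.vec_smul, D.rep_evT]
  exact funext fun i => Matrix.mulVec_diagonal _ _ i

/-- The combinations of the basis. -/
def MatData.comb (c : Fin n → R[X]) : R ⊗[k] A := ∑ l, D.evT (c l) * ((1 : R) ⊗ₜ D.bas l)

theorem MatData.comb_smul (q : R[X]) (c : Fin n → R[X]) :
    D.comb (q • c) = D.evT q * D.comb c := by
  simp [MatData.comb, Finset.mul_sum, mul_assoc]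

theorem MatData.comb_bijective : Function.Bijective D.comb := by
  classical
  let e : A ≃ₗ[k] (Fin n → k[X]) :=
    (LinearEquiv.ofBijective (∑ i, (LinearMap.mulRight k (D.bas i)) ∘ₗ
      (Polynomial.aeval D.t).toLinearMap ∘ₗ LinearMap.proj i : (Fin n → k[X]) →ₗ[k] A) (by
        convert D.bij using 1
        funext c
        simp [LinearMap.sum_apply])).symm
  have he : ∀ c : Fin n → k[X], e.symm c = ∑ i, Polynomial.aeval D.t (c i) * D.bas i := fun c => by
    simp [e, LinearMap.sum_apply]
  let G : R ⊗[k] A →+ (Fin n → R[X]) := TensorProduct.liftAddHom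
    (AddMonoidHom.mk' (fun r => AddMonoidHom.mk'
        (fun a l => Polynomial.C r * (e a l).map (algebraMap k R))
        (fun a b => funext fun l => by simp [mul_add]))
      fun r s => AddMonoidHom.ext fun a => funext fun l => by simp [add_mul])
    fun c r a => funext fun l => by
      show Polynomial.C (c • r) * (e a l).map (algebraMap k R) =
        Polynomial.C r * (e (c • a) l).map (algebraMap k R)
      rw [map_smul e, Pi.smul_apply, Polynomial.map_smul, Polynomial.smul_eq_C_mul,
        Algebra.smul_def, Polynomial.C_mul]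
      ring
  have hG : ∀ r a, G (r ⊗ₜ a) = fun l => Polynomial.C r * (e a l).map (algebraMap k R) :=
    fun r a => rfl
  have hGF : ∀ c, G (D.comb c) = c := by
    intro c
    rw [MatData.comb, map_sum]
    conv_rhs => rw [← Finset.univ_sum_single c]
    refine Finset.sum_congr rfl fun l _ => ?_
    induction c l using Polynomial.induction_on' with
    | add a b ha hb => rw [map_add, add_mul, map_add, ha, hb, Pi.single_add]
    | monomial d r =>
      rw [D.evT_monomial, Algebra.TensorProduct.tmul_mul_tmul, mul_one, hG]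
      have h : e (D.t ^ d * D.bas l) = Pi.single l (Polynomial.monomial d 1) := by
        refine e.symm.injective ?_
        rw [LinearEquiv.symm_apply_apply, he, Finset.sum_eq_single l
          (fun i _ hi => by simp [Pi.single_eq_of_ne hi]) (by simp)]
        simp
      funext i
      rcases eq_or_ne i l with rfl | hi
      · rw [h]; simp [Polynomial.C_mul_monomial]
      · rw [h]; simp [Pi.single_eq_of_ne hi]
  have hcadd : ∀ c c', D.comb (c + c') = D.comb c + D.comb c' := fun c c' => by
    simp [MatData.comb, add_mul, Finset.sum_add_distrib]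
  refine ⟨fun c c' h => by rw [← hGF c, h, hGF], fun b => ?_⟩
  induction b using TensorProduct.induction_on with
  | zero => exact ⟨0, by simp [MatData.comb]⟩
  | tmul r a =>
    refine ⟨fun l => Polynomial.C r * (e a l).map (algebraMap k R), ?_⟩
    conv_rhs => rw [← e.symm_apply_apply a, he, TensorProduct.tmul_sum]
    refine Finset.sum_congr rfl fun l _ => ?_
    beta_reduce
    induction e a l using Polynomial.induction_on' with
    | add f g hf hg =>
      rw [Polynomial.map_add, mul_add, map_add, add_mul, hf, hg, map_add, add_mul,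
        TensorProduct.tmul_add]
    | monomial d c =>
      rw [Polynomial.map_monomial, Polynomial.C_mul_monomial, D.evT_monomial,
        Algebra.TensorProduct.tmul_mul_tmul, mul_one, Polynomial.aeval_monomial, ← Algebra.smul_def,
        smul_mul_assoc, TensorProduct.tmul_smul, mul_comm r, ← Algebra.smul_def,
        TensorProduct.smul_tmul']
  | add p q hp hq =>
    obtain ⟨c, rfl⟩ := hp
    obtain ⟨c', rfl⟩ := hq
    exact ⟨c + c', hcadd c c'⟩

/-- The matrix of `b ↦ b • v` in the basis. -/
def MatData.orbit (v : Fin n → R[X]) : Matrix (Fin n) (Fin n) R[X] :=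
  fun i l => (D.mat (D.bas l)).mulVec v i

theorem MatData.vec_comb_smul (c : Fin n → R[X]) (v : MatMod D) :
    D.vec (D.comb c • v) = (D.orbit (D.vec v)).mulVec c := by
  rw [MatData.comb, Finset.sum_smul, map_sum]
  funext i
  rw [Finset.sum_apply]
  simp only [mul_smul, D.vec_evT_smul, D.vec_smul, D.rep_tmul, one_smul, Pi.smul_apply, smul_eq_mul]
  exact Finset.sum_congr rfl fun l _ => mul_comm _ _

/-- Change of the base. -/
def MatData.baseChange {S : Type u} [CommRing S] [Algebra k S] (φ : R →ₐ[k] S) :
    MatData (k := k) A n S where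
  t := D.t
  bas := D.bas
  bij := D.bij
  mat := (Polynomial.mapAlgHom φ).mapMatrix.comp D.mat
  mat_t := by
    rw [AlgHom.comp_apply, D.mat_t, AlgHom.mapMatrix_apply, Matrix.diagonal_map (map_zero _)]
    simp

section Fibre

variable {K : Type u} [Field K] [Algebra k K] [IsDedekindDomain (K ⊗[k] A)]
  (E : MatData (k := k) A n K)

theorem MatData.smul_eq_zero_field {b : K ⊗[k] A} {v : MatMod E} (hb : b ≠ 0) (h : b • v = 0) :
    v = 0 := by
  obtain ⟨G, hG⟩ : ∃ G : K ⊗[k] A → (Fin n → K[X]), ∀ c, E.comb (G c) = c :=
    ⟨fun c => (E.comb_bijective.2 c).choose, fun c => (E.comb_bijective.2 c).choose_spec⟩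
  let M : Matrix (Fin n) (Fin n) K[X] := fun i l => G (b * ((1 : K) ⊗ₜ E.bas l)) i
  have hM : ∀ c, E.comb (M.mulVec c) = b * E.comb c := fun c => by
    have h1 : ∀ l, E.comb (fun i => M i l) = b * ((1 : K) ⊗ₜ E.bas l) := fun l => hG _
    have h2 : E.comb c = ∑ l, E.evT (c l) * ((1 : K) ⊗ₜ E.bas l) := rfl
    rw [h2, Finset.mul_sum]
    simp only [mul_left_comm b, ← h1]
    simp only [MatData.comb, Matrix.mulVec, dotProduct, map_sum, map_mul, Finset.sum_mul,
      Finset.mul_sum]
    rw [Finset.sum_comm]
    exact Finset.sum_congr rfl fun l _ => Finset.sum_congr rfl fun i _ => by ring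
  have hdet : M.det ≠ 0 := fun h0 => by
    obtain ⟨c, hc, hc0⟩ := Matrix.exists_mulVec_eq_zero_iff.mpr h0
    have := hM c
    rw [hc0, show E.comb 0 = 0 by simp [MatData.comb]] at this
    rcases mul_eq_zero.mp this.symm with h' | h'
    · exact hb h'
    · exact hc (E.comb_bijective.1 (h'.trans (by simp [MatData.comb])))
  have he : b * E.comb (M.adjugate.mulVec (G 1)) = E.evT M.det := by
    rw [← hM, Matrix.mulVec_mulVec, Matrix.mul_adjugate, Matrix.smul_mulVec, Matrix.one_mulVec,
      E.comb_smul, hG, mul_one]
  have hq : E.evT M.det • v = 0 := by rw [← he, mul_comm, mul_smul, h, smul_zero]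
  have := congrArg E.vec hq
  rw [E.vec_evT_smul, map_zero] at this
  exact E.vec.injective (((smul_eq_zero.mp this).resolve_left hdet).trans (map_zero _).symm)

/-- On a geometric fibre some vector generates at any point of the line. -/
theorem MatData.exists_generator (ξ : K) :
    ∃ w : Fin n → K[X], (E.orbit w).det.eval ξ ≠ 0 := by
  classical
  rcases Nat.eq_zero_or_pos n with rfl | hn
  · exact ⟨0, by simp⟩
  set v : MatMod E := E.vec.symm (Pi.single ⟨0, hn⟩ 1) with hv
  have hv0 : v ≠ 0 := fun h => by
    have := congrFun (congrArg E.vec h) ⟨0, hn⟩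
    simp [hv] at this
  have hdet : (E.orbit (E.vec v)).det ≠ 0 := fun h => by
    obtain ⟨c, hc, hc0⟩ := Matrix.exists_mulVec_eq_zero_iff.mpr h
    have h' : E.comb c • v = 0 := E.vec.injective (by rw [E.vec_comb_smul, hc0, map_zero])
    refine hv0 (E.smul_eq_zero_field (fun h0 => hc (E.comb_bijective.1 (h0.trans ?_))) h')
    simp [MatData.comb]
  set Δ := E.orbit (E.vec v)
  let lam : MatMod E → K ⊗[k] A := fun m => E.comb (Δ.adjugate.mulVec (E.vec m))
  have hlam : ∀ m, lam m • v = E.evT Δ.det • m := fun m => E.vec.injective (by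
    rw [E.vec_comb_smul, E.vec_evT_smul, Matrix.mulVec_mulVec, Matrix.mul_adjugate,
      Matrix.smul_mulVec, Matrix.one_mulVec])
  have hcancel : ∀ a b : K ⊗[k] A, a • v = b • v → a = b := fun a b h => by
    by_contra hne
    exact hv0 (E.smul_eq_zero_field (sub_ne_zero.mpr hne) (by rw [sub_smul, h, sub_self]))
  let L : MatMod E →ₗ[K ⊗[k] A] K ⊗[k] A :=
    { toFun := lam
      map_add' := fun a b => hcancel _ _ (by rw [add_smul, hlam, hlam, hlam, smul_add])
      map_smul' := fun b m => hcancel _ _ (by
        rw [RingHom.id_apply, smul_eq_mul, mul_smul, hlam, hlam, smul_comm]) }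
  have hL : Function.Injective L := fun a b h => by
    have h1 := congrArg (fun z => E.vec (z • v)) h
    simp only [show ∀ m, L m = lam m from fun m => rfl, hlam, E.vec_evT_smul] at h1
    exact E.vec.injective (smul_right_injective _ hdet h1)
  set t := E.evT (Polynomial.X - Polynomial.C ξ) with ht
  have ht0 : t ≠ 0 := fun h => by
    have h1 := congrArg E.rep h
    rw [ht, E.rep_evT, map_zero] at h1
    exact Polynomial.X_sub_C_ne_zero ξ (by simpa using congrFun (congrFun h1 ⟨0, hn⟩) ⟨0, hn⟩)
  have hJ0 : Ideal.span {t} * LinearMap.range L ≠ 0 := by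
    refine mul_ne_zero (fun h => ht0 ?_) (fun h => hv0 (hL ?_))
    · simpa using h
    · have : L v ∈ LinearMap.range L := ⟨v, rfl⟩
      rw [h] at this
      rw [map_zero]
      simpa using this
  obtain ⟨x, hx⟩ := IsDedekindDomain.exists_sup_span_eq (I := Ideal.span {t} * LinearMap.range L)
    (J := LinearMap.range L) Ideal.mul_le_right hJ0
  obtain ⟨w, hw⟩ : x ∈ LinearMap.range L :=
    hx ▸ Submodule.mem_sup_right (Ideal.mem_span_singleton_self x)
  refine ⟨E.vec w, ?_⟩
  have hsurj : Function.Surjective
      ((E.orbit (E.vec w)).map (Polynomial.evalRingHom ξ)).mulVec := by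
    intro u
    have hmem : L (E.vec.symm fun i => Polynomial.C (u i)) ∈
        Ideal.span {t} * LinearMap.range L ⊔ Ideal.span {x} := by rw [hx]; exact ⟨_, rfl⟩
    obtain ⟨a, ha, b, hb, hab⟩ := Submodule.mem_sup.mp hmem
    obtain ⟨c, rfl⟩ := Ideal.mem_span_singleton'.mp hb
    obtain ⟨z, ⟨z', rfl⟩, rfl⟩ := Ideal.mem_span_singleton_mul.mp ha
    rw [← hw, ← smul_eq_mul, ← smul_eq_mul, ← map_smul, ← map_smul, ← map_add] at hab
    have h1 := congrArg E.vec (hL hab)
    obtain ⟨cc, rfl⟩ := E.comb_bijective.2 c
    rw [map_add, ht, E.vec_evT_smul, E.vec_comb_smul, AddEquiv.apply_symm_apply] at h1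
    refine ⟨fun l => (cc l).eval ξ, funext fun i => ?_⟩
    have h2 := congrArg (Polynomial.eval ξ) (congrFun h1 i)
    simp [Matrix.mulVec, dotProduct, Polynomial.eval_finsetSum] at h2
    simpa [Matrix.mulVec, dotProduct] using h2
  have hu := Matrix.mulVec_surjective_iff_isUnit.mp hsurj
  rw [Matrix.isUnit_iff_isUnit_det] at hu
  have hmap : ((E.orbit (E.vec w)).map (Polynomial.evalRingHom ξ)).det =
      (E.orbit (E.vec w)).det.eval ξ := (RingHom.map_det (Polynomial.evalRingHom ξ) _).symm
  exact fun h0 => hu.ne_zero (hmap.trans h0)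

end Fibre

/-- **The module is invertible.** -/
theorem invertible_matMod [Infinite k]
    (hded : ∀ (K : Type u) [Field K] [IsAlgClosed K] [Algebra k K], IsDedekindDomain (K ⊗[k] A)) :
    Module.Invertible (R ⊗[k] A) (MatMod D) := by
  classical
  set I : Ideal R[X] := Ideal.span (Set.range fun v => (D.orbit v).det ^ 4) with hI
  have hItop : I = ⊤ := by
    by_contra hne
    obtain ⟨q, hq, hle⟩ := Ideal.exists_le_maximal I hne
    haveI := hq
    letI : Field (R[X] ⧸ q) := Ideal.Quotient.field q
    let K := AlgebraicClosure (R[X] ⧸ q)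
    let ψ : R[X] →ₐ[k] K :=
      (IsScalarTower.toAlgHom k (R[X] ⧸ q) K).comp (Ideal.Quotient.mkₐ k q)
    let ψR : R →ₐ[k] K := ψ.comp (IsScalarTower.toAlgHom k R R[X])
    set ξ := ψ Polynomial.X with hξ
    haveI := hded K
    have hψ : ∀ f : R[X], ψ f = (f.map (ψR : R →+* K)).eval ξ := fun f => by
      induction f using Polynomial.induction_on' with
      | add a b ha hb => rw [map_add, Polynomial.map_add, Polynomial.eval_add, ha, hb]
      | monomial d r =>
        rw [← Polynomial.C_mul_X_pow_eq_monomial, map_mul, map_pow, Polynomial.map_mul,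
          Polynomial.map_pow, Polynomial.map_C, Polynomial.map_X]
        simp [ψR, hξ]
    obtain ⟨w, hw⟩ := (D.baseChange ψR).exists_generator ξ
    let g : Matrix (Fin n) (Fin n) (MvPolynomial (Fin n) (R[X] ⧸ q)) := fun i l =>
      ∑ j, MvPolynomial.C (Ideal.Quotient.mk q (D.mat (D.bas l) i j)) * MvPolynomial.X j
    haveI : Infinite (R[X] ⧸ q) :=
      Infinite.of_injective (algebraMap k (R[X] ⧸ q)) (algebraMap k (R[X] ⧸ q)).injective
    have hf : g.det = 0 := by
      refine MvPolynomial.funext fun v => ?_
      obtain ⟨u, rfl⟩ : ∃ u, (fun j => Ideal.Quotient.mk q (u j)) = v :=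
        ⟨fun j => (Ideal.Quotient.mk_surjective (v j)).choose,
          funext fun j => (Ideal.Quotient.mk_surjective (v j)).choose_spec⟩
      have hmem : (D.orbit u).det ∈ q :=
        hq.isPrime.mem_of_pow_mem 4 (hle (Ideal.subset_span ⟨u, rfl⟩))
      rw [map_zero, RingHom.map_det]
      have e : (MvPolynomial.eval fun j => Ideal.Quotient.mk q (u j)).mapMatrix g =
          (Ideal.Quotient.mk q).mapMatrix (D.orbit u) := by
        refine Matrix.ext fun i l => ?_
        show MvPolynomial.eval _ (g i l) = Ideal.Quotient.mk q (D.orbit u i l)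
        simp [g, MatData.orbit, Matrix.mulVec, dotProduct]
      rw [e, ← RingHom.map_det]
      exact Ideal.Quotient.eq_zero_iff_mem.mpr hmem
    refine hw ?_
    have h1 := congrArg (MvPolynomial.eval₂Hom (algebraMap (R[X] ⧸ q) K)
      (fun j => (w j).eval ξ)) hf
    rw [map_zero, RingHom.map_det] at h1
    rw [← Polynomial.coe_evalRingHom, RingHom.map_det, ← h1]
    congr 1
    refine Matrix.ext fun i l => ?_
    show Polynomial.evalRingHom ξ ((D.baseChange ψR).orbit w i l) =
      MvPolynomial.eval₂Hom _ _ (g i l)
    simp only [g, MatData.orbit, Matrix.mulVec, dotProduct, map_sum, MvPolynomial.eval₂Hom_C,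
      MvPolynomial.eval₂Hom_X', map_mul, Polynomial.coe_evalRingHom]
    refine Finset.sum_congr rfl fun j _ => ?_
    congr 1
    exact (hψ _).symm
  obtain ⟨G, hG⟩ : ∃ G : R ⊗[k] A → (Fin n → R[X]), ∀ c, D.comb (G c) = c :=
    ⟨fun c => (D.comb_bijective.2 c).choose, fun c => (D.comb_bijective.2 c).choose_spec⟩
  -- the functional attached to a vector
  have hlam : ∀ v : Fin n → R[X], ∃ f : Module.Dual (R ⊗[k] A) (MatMod D),
      (∀ m, f m • D.vec.symm v = D.evT ((D.orbit v).det ^ 2) • m) ∧
        f (D.vec.symm v) = D.evT ((D.orbit v).det ^ 2) := by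
    intro v
    set Δ := D.orbit v with hΔ
    let lam : MatMod D → R ⊗[k] A := fun m => D.comb (Δ.adjugate.mulVec (D.vec m))
    have h1 : ∀ m, lam m • D.vec.symm v = D.evT Δ.det • m := fun m => D.vec.injective (by
      rw [D.vec_comb_smul, AddEquiv.apply_symm_apply, D.vec_evT_smul, Matrix.mulVec_mulVec,
        ← hΔ, Matrix.mul_adjugate, Matrix.smul_mulVec, Matrix.one_mulVec])
    have h2 : ∀ a b : R ⊗[k] A, a • D.vec.symm v = b • D.vec.symm v →
        D.evT Δ.det * a = D.evT Δ.det * b := by
      intro a b h
      have h' := congrArg D.vec h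
      rw [← hG a, ← hG b] at h' ⊢
      rw [D.vec_comb_smul, D.vec_comb_smul, AddEquiv.apply_symm_apply, ← hΔ] at h'
      have h'' := congrArg Δ.adjugate.mulVec h'
      rw [Matrix.mulVec_mulVec, Matrix.mulVec_mulVec, Matrix.adjugate_mul, Matrix.smul_mulVec,
        Matrix.smul_mulVec, Matrix.one_mulVec, Matrix.one_mulVec] at h''
      rw [← D.comb_smul, ← D.comb_smul, h'']
    let f : Module.Dual (R ⊗[k] A) (MatMod D) :=
      { toFun := fun m => D.evT Δ.det * lam m
        map_add' := fun a b => by
          rw [← mul_add]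
          exact h2 _ _ (by rw [add_smul, h1, h1, h1, smul_add])
        map_smul' := fun b m => by
          rw [RingHom.id_apply, smul_eq_mul, mul_left_comm]
          exact h2 _ _ (by rw [mul_smul, h1, h1, smul_comm]) }
    refine ⟨f, fun m => ?_, ?_⟩
    · show (D.evT Δ.det * lam m) • _ = _
      rw [mul_smul, h1, smul_smul, pow_two, map_mul]
    · show D.evT Δ.det * lam (D.vec.symm v) = _
      rw [h2 _ (D.evT Δ.det) (h1 _), pow_two, map_mul]
  choose f hf hfv using hlam
  constructor
  constructor
  · refine (injective_iff_map_eq_zero _).mpr fun z hz => ?_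
    have key : ∀ (v : Fin n → R[X]) (x : Module.Dual (R ⊗[k] A) (MatMod D) ⊗[R ⊗[k] A] MatMod D),
        D.evT ((D.orbit v).det ^ 4) • x =
          (D.evT ((D.orbit v).det ^ 2) * contractLeft (R ⊗[k] A) (MatMod D) x) •
            (f v ⊗ₜ D.vec.symm v) := by
      intro v x
      induction x using TensorProduct.induction_on with
      | zero => simp
      | tmul φ m =>
        set d := D.evT ((D.orbit v).det ^ 2) with hd
        have hd4 : D.evT ((D.orbit v).det ^ 4) = d * d := by
          rw [hd, ← map_mul, ← pow_add]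
        have hφ : d • φ = φ (D.vec.symm v) • f v := by
          refine LinearMap.ext fun m' => ?_
          have := congrArg φ (hf v m')
          simp only [map_smul, smul_eq_mul] at this
          show d * φ m' = φ (D.vec.symm v) * f v m'
          rw [hd, ← this, mul_comm]
        rw [contractLeft_apply, hd4, mul_smul, ← TensorProduct.tmul_smul d φ m, ← hf v m,
          TensorProduct.tmul_smul, TensorProduct.smul_tmul', TensorProduct.smul_tmul',
          TensorProduct.smul_tmul', smul_comm d, hφ, smul_smul]
        congr 2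
        have := congrArg φ (hf v m)
        simp only [map_smul, smul_eq_mul] at this
        exact this
      | add x y hx hy => rw [smul_add, hx, hy, map_add, mul_add, add_smul]
    have hker : ∀ c ∈ I, D.evT c • z = 0 := by
      intro c hc
      rw [hI] at hc
      induction hc using Submodule.span_induction with
      | mem c hc =>
        obtain ⟨v, rfl⟩ := hc
        rw [key v z, hz, mul_zero, zero_smul]
      | zero => simp
      | add a b _ _ ha hb => rw [map_add, add_smul, ha, hb, add_zero]
      | smul a b _ hb => rw [smul_eq_mul, map_mul, mul_smul, hb, smul_zero]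
    simpa using hker 1 (hItop ▸ Submodule.mem_top)
  · intro b
    have : ∀ c ∈ I, D.evT c ∈ LinearMap.range (contractLeft (R ⊗[k] A) (MatMod D)) := by
      intro c hc
      rw [hI] at hc
      induction hc using Submodule.span_induction with
      | mem c hc =>
        obtain ⟨v, rfl⟩ := hc
        refine ⟨D.evT ((D.orbit v).det ^ 2) • (f v ⊗ₜ D.vec.symm v), ?_⟩
        rw [map_smul, contractLeft_apply, hfv, smul_eq_mul, ← map_mul, ← pow_add]
      | zero => simp
      | add a b _ _ ha hb => rw [map_add]; exact Submodule.add_mem _ ha hb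
      | smul a b _ hb => rw [smul_eq_mul, map_mul]; exact Submodule.smul_mem _ _ hb
    obtain ⟨z, hz⟩ := this 1 (hItop ▸ Submodule.mem_top)
    exact ⟨b • z, by rw [map_smul, hz, map_one, smul_eq_mul, mul_one]⟩

end FLTAgent.JacRep.Charts
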