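import Fermat.Agent.JacRep.Charts.Split

/-!
# Pieces, entries and the open conditions of a chart

For an acyclic bundle, `piece` is the part of `V` at a point of the fibre `x = 0`, an invertible
module (`invertible_piece`), and `entry` the entries of the matrices of the chart functions
between pieces.  A `Tree` spans the points by entries; `TreeGood` says that these are onto and
that the root generates at the base point.  On an acyclic family this is cut out by an ideal
(`exists_treeGood_ideal`).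
-/

set_option autoImplicit false
set_option linter.style.haveILetI false

noncomputable section

open scoped TensorProduct

universe u

namespace FLTAgent.JacRep.Charts

variable {k : Type u} [Field k] {C : Cover k} {R : Type u} [CommRing R] [Algebra k R]

/-- Multiplication by a function, `R`-linearly. -/
def actR (E : Bundle C R) (b : C.B₀ R) : E.M₀ →ₗ[R] E.M₀ where
  toFun m := b • m
  map_add' := smul_add b
  map_smul' r m := smul_comm b r m

theorem actR_apply (E : Bundle C R) (b : C.B₀ R) (m : E.M₀) : actR E b m = b • m := rfl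

variable {E : Bundle C R} (hA : E.Acyclic)

include hA in
theorem head_smul_head (b : C.B₀ R) (m : E.M₀) : head hA (b • head hA m) = head hA (b • m) := by
  conv_rhs => rw [← head_add_tail hA m, smul_add, smul_comm b (C.xB R), map_add, head_xB_smul,
    add_zero]

/-- The projection to the piece at the point `i`. -/
def pieceMap (i : Fin C.rank) : E.M₀ →ₗ[R] E.M₀ := head hA ∘ₗ actR E (sepB C R i)

/-- The piece of `V` at the point `i`. -/
def piece (i : Fin C.rank) : Submodule R E.M₀ := LinearMap.range (pieceMap hA i)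

theorem pieceMap_apply (i : Fin C.rank) (m : E.M₀) :
    pieceMap hA i m = head hA (sepB C R i • m) := rfl

theorem head_smul (b : C.B₀ R) (m : E.M₀) :
    head hA (b • m) = ∑ i, C.ptB R i b • pieceMap hA i m := by
  obtain ⟨c, hc⟩ := exists_eq_sum_sepB C R b
  conv_lhs => rw [hc, add_smul, Finset.sum_smul, map_add, mul_smul (C.xB R) c m, head_xB_smul,
    add_zero, map_sum]
  refine Finset.sum_congr rfl fun i _ => ?_
  rw [← smul_smul, ← smul_R_def, map_smul, pieceMap_apply]

theorem pieceMap_smul (i : Fin C.rank) (b : C.B₀ R) (m : E.M₀) :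
    pieceMap hA i (b • m) = C.ptB R i b • pieceMap hA i m := by
  rw [pieceMap_apply, smul_smul, head_smul, Finset.sum_eq_single i
    (fun j _ hj => by rw [map_mul, ptB_sepB, if_neg hj, zero_mul, zero_smul]) (by simp),
    map_mul, ptB_sepB, if_pos rfl, one_mul]

theorem pieceMap_head (i : Fin C.rank) (m : E.M₀) :
    pieceMap hA i (head hA m) = pieceMap hA i m := head_smul_head hA _ _

theorem pieceMap_pieceMap (i j : Fin C.rank) (m : E.M₀) :
    pieceMap hA i (pieceMap hA j m) = if i = j then pieceMap hA i m else 0 := by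
  rw [pieceMap_apply hA j, pieceMap_head, pieceMap_smul, ptB_sepB]
  split <;> simp

theorem piece_le_vSub (i : Fin C.rank) : piece hA i ≤ vSub E := by
  rintro _ ⟨m, rfl⟩
  exact head_mem hA _

theorem pieceMap_of_mem {i : Fin C.rank} {v : E.M₀} (hv : v ∈ piece hA i) (j : Fin C.rank) :
    pieceMap hA j v = if j = i then v else 0 := by
  obtain ⟨m, rfl⟩ := hv
  rw [pieceMap_pieceMap]
  split_ifs with h
  · rw [h]
  · rfl

theorem sum_pieceMap (m : E.M₀) : ∑ i, pieceMap hA i m = head hA m := by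
  have h := head_smul hA 1 m
  simpa using h.symm

theorem sum_pieceMap_of_mem {v : E.M₀} (hv : v ∈ vSub E) : ∑ i, pieceMap hA i v = v := by
  rw [sum_pieceMap, head_of_mem hA hv]

theorem pieceMap_mem (i : Fin C.rank) (m : E.M₀) : pieceMap hA i m ∈ piece hA i := ⟨m, rfl⟩

include hA in
/-- The pieces are invertible. -/
theorem invertible_piece (i : Fin C.rank) : Module.Invertible R (piece hA i) := by
  letI : Algebra (C.B₀ R) R := (C.ptB R i).toAlgebra
  letI : Module (C.B₀ R) (piece hA i) := Module.compHom _ (C.ptB R i)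
  haveI : IsScalarTower (C.B₀ R) R (piece hA i) := ⟨fun b r v => (smul_smul (C.ptB R i b) r v).symm⟩
  let h : E.M₀ →ₗ[C.B₀ R] piece hA i :=
    { toFun := fun m => ⟨pieceMap hA i m, pieceMap_mem hA i m⟩
      map_add' := fun a b => Subtype.ext (map_add _ a b)
      map_smul' := fun b m => Subtype.ext (pieceMap_smul hA i b m) }
  let F : R ⊗[C.B₀ R] E.M₀ →ₗ[R] piece hA i := h.liftBaseChange R
  let G : piece hA i → R ⊗[C.B₀ R] E.M₀ := fun v => 1 ⊗ₜ (v : E.M₀)
  have hFG : ∀ v, F (G v) = v := fun v => Subtype.ext (by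
    simp only [F, G, LinearMap.liftBaseChange_tmul, one_smul]
    exact (pieceMap_of_mem hA v.2 i).trans (if_pos rfl))
  have hone : ∀ b m, (1 : R) ⊗ₜ[C.B₀ R] (b • m : E.M₀) = C.ptB R i b ⊗ₜ m := fun b m => by
    rw [TensorProduct.tmul_smul, TensorProduct.smul_tmul', Algebra.smul_def, mul_one]
    rfl
  have hGF : ∀ t, G (F t) = t := by
    intro t
    induction t using TensorProduct.induction_on with
    | zero => simp [G]
    | tmul r m =>
      simp only [F, G, LinearMap.liftBaseChange_tmul, SetLike.val_smul]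
      show (1 : R) ⊗ₜ[C.B₀ R] (r • pieceMap hA i m) = r ⊗ₜ m
      rw [smul_R_def, hone, ptB_left, pieceMap_apply]
      have e := head_add_tail hA (sepB C R i • m)
      rw [eq_sub_of_add_eq e, TensorProduct.tmul_sub]
      conv_lhs => rw [← mul_one r, ← smul_eq_mul, ← TensorProduct.smul_tmul',
        ← TensorProduct.smul_tmul', hone, hone, ptB_sepB, if_pos rfl, ptB_xB,
        TensorProduct.zero_tmul, smul_zero, sub_zero, TensorProduct.smul_tmul', smul_eq_mul, mul_one]
    | add x y hx hy =>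
      show (1 : R) ⊗ₜ[C.B₀ R] ((F (x + y) : piece hA i) : E.M₀) = x + y
      rw [map_add, Submodule.coe_add, TensorProduct.tmul_add]
      exact congrArg₂ (· + ·) hx hy
  exact .congr (LinearEquiv.ofBijective F
    ⟨fun a b e => by rw [← hGF a, ← hGF b, e], fun v => ⟨G v, hFG v⟩⟩)

/-! ### Entries -/

/-- The entry of a chart function at `(i, j)` and `x ^ d`. -/
def entry (i : Fin C.rank) (a : C.A₀) (d : ℕ) : E.M₀ →ₗ[R] E.M₀ :=
  pieceMap hA i ∘ₗ coeff hA d ∘ₗ actR E (1 ⊗ₜ a)

theorem entry_apply (i : Fin C.rank) (a : C.A₀) (d : ℕ) (m : E.M₀) :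
    entry hA i a d m = pieceMap hA i (coeff hA d (((1 : R) ⊗ₜ[k] a : C.B₀ R) • m)) := rfl

/-- The entry is onto. -/
def EntrySurj (i j : Fin C.rank) (a : C.A₀) (d : ℕ) : Prop :=
  Submodule.map (entry hA i a d) (piece hA j) = piece hA i

/-- The piece at `i` generates the fibre at the base point. -/
def RootOK (i : Fin C.rank) : Prop :=
  Submodule.span (C.B₀ R) (piece hA i : Set E.M₀) ⊔
    RingHom.ker (C.baseB R) • (⊤ : Submodule (C.B₀ R) E.M₀) = ⊤

/-! ### Naturality -/

section Naturality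

variable {R' : Type u} [CommRing R'] [Algebra k R'] {φ : R →ₐ[k] R'} {E' : Bundle C R'}
  (hA' : E'.Acyclic) {f₀ : E.M₀ →ₛₗ[C.mapB₀ φ] E'.M₀} {f₁ : E.M₁ →ₛₗ[C.mapB₁ φ] E'.M₁}
  {f : E.M →ₛₗ[C.mapB φ] E'.M} (c₀ : ∀ m, f (E.ι₀ m) = E'.ι₀ (f₀ m))
  (c₁ : ∀ m, f (E.ι₁ m) = E'.ι₁ (f₁ m))

theorem map_smul_R (r : R) (m : E.M₀) : f₀ (r • m) = φ r • f₀ m := by
  rw [smul_R_def, LinearMap.map_smulₛₗ, mapB₀_tmul, smul_R_def]

include c₀ c₁

theorem map_pieceMap (i : Fin C.rank) (m : E.M₀) :
    pieceMap hA' i (f₀ m) = f₀ (pieceMap hA i m) := by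
  rw [pieceMap_apply, pieceMap_apply, ← mapB₀_sepB φ i, ← LinearMap.map_smulₛₗ,
    (map_head_tail hA hA' c₀ c₁ _).1]

theorem map_piece {i : Fin C.rank} {m : E.M₀} (hm : m ∈ piece hA i) : f₀ m ∈ piece hA' i := by
  obtain ⟨n, rfl⟩ := hm
  exact ⟨f₀ n, map_pieceMap hA hA' c₀ c₁ i n⟩

theorem map_entry (i : Fin C.rank) (a : C.A₀) (d : ℕ) (m : E.M₀) :
    entry hA' i a d (f₀ m) = f₀ (entry hA i a d m) := by
  rw [entry_apply, entry_apply, ← map_one φ, ← mapB₀_tmul, ← LinearMap.map_smulₛₗ,
    map_coeff hA hA' c₀ c₁, map_pieceMap hA hA' c₀ c₁]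

variable (hspan : Submodule.span (C.B₀ R') (Set.range f₀) = ⊤)
include hspan

theorem piece_eq_span (i : Fin C.rank) :
    piece hA' i = Submodule.span R' (f₀ '' (piece hA i : Set E.M₀)) := by
  refine le_antisymm ?_ (Submodule.span_le.mpr ?_)
  · rintro _ ⟨m, rfl⟩
    have hm : m ∈ Submodule.span (C.B₀ R') (Set.range f₀) := hspan ▸ Submodule.mem_top
    induction hm using Submodule.span_induction with
    | mem m hm =>
      obtain ⟨n, rfl⟩ := hm
      exact Submodule.subset_span ⟨_, pieceMap_mem hA i n, (map_pieceMap hA hA' c₀ c₁ i n).symm⟩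
    | zero => simp
    | add a b _ _ ha hb => rw [map_add]; exact Submodule.add_mem _ ha hb
    | smul b m _ hm => rw [pieceMap_smul]; exact Submodule.smul_mem _ _ hm
  · rintro _ ⟨m, hm, rfl⟩
    exact map_piece hA hA' c₀ c₁ hm

end Naturality

include hA in
/-- The locus where an entry is onto is cut out by an ideal. -/
theorem exists_entry_ideal (i j : Fin C.rank) (a : C.A₀) (d : ℕ) :
    ∃ I : Ideal R, ∀ (R' : Type u) [CommRing R'] [Algebra k R'] (φ : R →ₐ[k] R')
      (E' : Bundle C R') (hA' : E'.Acyclic), Bundle.IsPullback φ E E' →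
        (EntrySurj hA' i j a d ↔ I.map (φ : R →+* R') = ⊤) := by
  haveI := invertible_piece hA i
  set N : Submodule R (piece hA i) :=
    ((piece hA j).map (entry hA i a d)).comap (piece hA i).subtype
  obtain ⟨I, hI⟩ := exists_ideal_smul_top N
  refine ⟨I, fun R' _ _ φ E' hA' ⟨f₀, f₁, f, hs₀, _, c₀, c₁⟩ => ?_⟩
  haveI := invertible_piece hA' i
  let g : piece hA i →ₛₗ[(φ : R →+* R')] piece hA' i :=
    { toFun := fun v => ⟨f₀ v, map_piece hA hA' c₀ c₁ v.2⟩
      map_add' := fun a b => Subtype.ext (map_add f₀ _ _)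
      map_smul' := fun r v => Subtype.ext (map_smul_R r (v : E.M₀)) }
  have hg : Submodule.span R' (Set.range g) = ⊤ := by
    refine Submodule.map_injective_of_injective (f := (piece hA' i).subtype)
      Subtype.val_injective ?_
    rw [Submodule.map_span, Submodule.map_subtype_top, ← Set.range_comp]
    refine Eq.trans ?_ (piece_eq_span hA hA' c₀ c₁ hs₀ i).symm
    congr 1
    ext z
    exact ⟨fun ⟨v, hv⟩ => ⟨v, v.2, hv⟩, fun ⟨v, hv, e⟩ => ⟨⟨v, hv⟩, e⟩⟩
  have hN : ((piece hA' j).map (entry hA' i a d)).comap (piece hA' i).subtype =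
      I.map (φ : R →+* R') • ⊤ := by
    rw [← span_image_smul_top g hg I, ← hI]
    refine Submodule.map_injective_of_injective (f := (piece hA' i).subtype)
      Subtype.val_injective ?_
    rw [Submodule.map_comap_eq, Submodule.range_subtype, inf_eq_right.mpr (by
      rintro _ ⟨v, -, rfl⟩; exact pieceMap_mem hA' i _), Submodule.map_span, ← Set.image_comp,
      piece_eq_span hA hA' c₀ c₁ hs₀ j, Submodule.map_span, ← Set.image_comp]
    congr 1
    ext z
    constructor
    · rintro ⟨m, hm, rfl⟩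
      exact ⟨⟨entry hA i a d m, pieceMap_mem hA i _⟩, ⟨m, hm, rfl⟩,
        (map_entry hA hA' c₀ c₁ i a d m).symm⟩
    · rintro ⟨v, ⟨m, hm, e⟩, rfl⟩
      exact ⟨m, hm, (map_entry hA hA' c₀ c₁ i a d m).trans (congrArg f₀ e)⟩
  refine ⟨fun h => ideal_eq_top_of_smul_top (M := piece hA' i) ?_, fun h => ?_⟩
  · rw [← hN, h, Submodule.comap_subtype_self]
  · rw [h, Submodule.top_smul] at hN
    refine le_antisymm (by rintro _ ⟨v, -, rfl⟩; exact pieceMap_mem hA' i _) fun v hv => ?_
    have : (⟨v, hv⟩ : piece hA' i) ∈ (⊤ : Submodule R' (piece hA' i)) := Submodule.mem_top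
    rw [← hN] at this
    exact this

include hA in
/-- The locus where a piece generates at the base point is cut out by an ideal. -/
theorem exists_root_ideal (i : Fin C.rank) :
    ∃ I : Ideal R, ∀ (R' : Type u) [CommRing R'] [Algebra k R'] (φ : R →ₐ[k] R')
      (E' : Bundle C R') (hA' : E'.Acyclic), Bundle.IsPullback φ E E' →
        (RootOK hA' i ↔ I.map (φ : R →+* R') = ⊤) := by
  obtain ⟨I, hI⟩ := exists_ideal_smul_top (Submodule.span (C.B₀ R) (piece hA i : Set E.M₀))
  refine ⟨I.map (C.baseB R), fun R' _ _ φ E' hA' ⟨f₀, f₁, f, hs₀, _, c₀, c₁⟩ => ?_⟩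
  have hN : Submodule.span (C.B₀ R') (piece hA' i : Set E'.M₀) = I.map (C.mapB₀ φ) • ⊤ := by
    rw [← span_image_smul_top f₀ hs₀ I, ← hI]
    refine le_antisymm (Submodule.span_le.mpr ?_) (Submodule.span_le.mpr ?_)
    · intro v hv
      rw [piece_eq_span hA hA' c₀ c₁ hs₀ i] at hv
      exact Submodule.span_le_restrictScalars R' _ _
        (Submodule.span_mono (Set.image_mono Submodule.subset_span) hv)
    · rintro _ ⟨m, hm, rfl⟩
      induction hm using Submodule.span_induction with
      | mem m hm => exact Submodule.subset_span (map_piece hA hA' c₀ c₁ hm)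
      | zero => simp
      | add a b _ _ ha hb => rw [map_add]; exact Submodule.add_mem _ ha hb
      | smul b m _ hm => rw [LinearMap.map_smulₛₗ]; exact Submodule.smul_mem _ _ hm
  have hcomp : (C.baseB R').comp (C.mapB₀ φ) = (φ : R →+* R').comp (C.baseB R) :=
    RingHom.ext fun b => baseB_mapB₀ φ b
  have hsurj : Function.Surjective (C.baseB R') := fun r => ⟨_, baseB_left C R' r⟩
  have key : I.map (C.mapB₀ φ) ⊔ RingHom.ker (C.baseB R') = ⊤ ↔
      (I.map (C.baseB R)).map (φ : R →+* R') = ⊤ := by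
    rw [Ideal.map_map, ← hcomp, ← Ideal.map_map, RingHom.ker_eq_comap_bot,
      ← Ideal.comap_map_of_surjective _ hsurj, Ideal.comap_eq_top_iff]
  rw [RootOK, hN, ← Submodule.sup_smul, ← key]
  exact ⟨ideal_eq_top_of_smul_top, fun h => by rw [h, Submodule.top_smul]⟩

/-! ### Trees -/

theorem ideal_mul_eq_top {S : Type u} [CommRing S] {I J : Ideal S} :
    I * J = ⊤ ↔ I = ⊤ ∧ J = ⊤ :=
  ⟨fun h => ⟨top_unique (h ▸ Ideal.mul_le_left), top_unique (h ▸ Ideal.mul_le_right)⟩,
    fun ⟨h₁, h₂⟩ => by rw [h₁, h₂, Ideal.top_mul]⟩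

/-- A rooted spanning tree on the points of the fibre, with an entry on each edge. -/
structure Tree (C : Cover k) : Type where
  root : Fin C.rank
  parent : Fin C.rank → Fin C.rank
  ord : Fin C.rank → ℕ
  dir : Fin C.rank → Bool
  fn : Fin C.rank → Fin C.rank
  deg : Fin C.rank → ℕ
  ord_lt : ∀ i, i ≠ root → ord (parent i) < ord i

/-- The target of the edge at `i`. -/
def Tree.tgt (T : Tree C) (i : Fin C.rank) : Fin C.rank := if T.dir i then i else T.parent i

/-- The source of the edge at `i`. -/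
def Tree.src (T : Tree C) (i : Fin C.rank) : Fin C.rank := if T.dir i then T.parent i else i

/-- Acyclic, onto along the tree, generating at the base point. -/
def TreeGood (T : Tree C) (F : Bundle C R) : Prop :=
  ∃ h : F.Acyclic,
    (∀ i, i ≠ T.root → EntrySurj h (T.tgt i) (T.src i) (C.basis₀ (T.fn i)) (T.deg i)) ∧
      RootOK h T.root

include hA in
/-- On an acyclic family the good locus is cut out by an ideal. -/
theorem exists_treeGood_ideal (T : Tree C) :
    ∃ I : Ideal R, ∀ (R' : Type u) [CommRing R'] [Algebra k R'] (φ : R →ₐ[k] R')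
      (E' : Bundle C R'), E'.Acyclic → Bundle.IsPullback φ E E' →
        (TreeGood T E' ↔ I.map (φ : R →+* R') = ⊤) := by
  classical
  choose J hJ using fun i => exists_entry_ideal hA (T.tgt i) (T.src i) (C.basis₀ (T.fn i)) (T.deg i)
  obtain ⟨K, hK⟩ := exists_root_ideal hA T.root
  refine ⟨(∏ i ∈ Finset.univ.filter (· ≠ T.root), J i) * K, fun R' _ _ φ E' hA' hP => ?_⟩
  rw [Ideal.map_mul, ideal_mul_eq_top, ← Ideal.mapHom_apply, map_prod, ← hK R' φ E' hA' hP]
  have hprod : ∀ (s : Finset (Fin C.rank)) (g : Fin C.rank → Ideal R'),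
      ∏ i ∈ s, g i = ⊤ ↔ ∀ i ∈ s, g i = ⊤ := by
    intro s g
    induction s using Finset.induction_on with
    | empty => simp [Ideal.one_eq_top]
    | insert a s ha ih => rw [Finset.prod_insert ha, ideal_mul_eq_top, ih]; simp
  rw [hprod]
  refine ⟨fun ⟨h, h1, h2⟩ => ⟨fun i hi => ?_, h2⟩, fun ⟨h1, h2⟩ => ⟨hA', fun i hi => ?_, h2⟩⟩
  · exact (hJ i R' φ E' h hP).mp (h1 i (Finset.mem_filter.mp hi).2)
  · exact (hJ i R' φ E' hA' hP).mpr (h1 i (Finset.mem_filter.mpr ⟨Finset.mem_univ _, hi⟩))

end FLTAgent.JacRep.Charts
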