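import Fermat.Agent.JacRep.Charts.Pieces
import Mathlib.LinearAlgebra.Matrix.ToLin
import Mathlib.RingTheory.FinitePresentation
import Mathlib.RingTheory.Polynomial.Basic

/-!
# The points of a chart and the algebra representing them

A point `Pt T R` consists of matrices of the chart functions and values at the base point of a
frame, normalised along the tree `T`.  `ChartRing T`, generic matrices of bounded degree modulo
the equations `ChartRel`, is finitely presented and carries the universal point `univPt`; each
point comes from it by exactly one map (`Pt.classify_spec`, `chartRing_hom_ext`).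
-/

set_option autoImplicit false
set_option linter.style.haveILetI false

noncomputable section

open scoped TensorProduct Polynomial

universe u

namespace FLTAgent.JacRep.Charts

variable {k : Type u} [Field k] {C : Cover k}

/-- The matrices of a framed acyclic bundle. -/
abbrev PolyMat (C : Cover k) (R : Type u) [CommRing R] : Type u :=
  Matrix (Fin C.rank) (Fin C.rank) R[X]

/-- A point of the chart of the tree `T`. -/
@[ext]
structure Pt (T : Tree C) (R : Type u) [CommRing R] [Algebra k R] : Type u where
  mat : C.A₀ →ₐ[k] PolyMat C R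
  b : Fin C.rank → R
  mat_x : mat C.x = Matrix.diagonal fun _ => Polynomial.X
  coeff_zero : ∀ a i j, (mat a i j).coeff 0 = if i = j then algebraMap k R (C.pt i a) else 0
  pole : ∀ a N, (∃ a₁, C.res₀ a = C.res₀ C.x ^ N * C.res₁ a₁) → ∀ i j d, N < d →
    (mat a i j).coeff d = 0
  edge : ∀ i, i ≠ T.root →
    (mat (C.basis₀ (T.fn i)) (T.tgt i) (T.src i)).coeff (T.deg i) = 1
  b_root : b T.root = 1
  rigid : ∀ a i,
    ∑ j, (mat a j i).eval (algebraMap k R (C.base C.x)) * b j = algebraMap k R (C.base a) * b i

variable {R : Type u} [CommRing R] [Algebra k R] {S : Type u} [CommRing S] [Algebra k S]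
  {T : Tree C}

/-- Change of coefficients of a point. -/
def Pt.map (φ : R →ₐ[k] S) (p : Pt T R) : Pt T S where
  mat := (Polynomial.mapAlgHom φ).mapMatrix.comp p.mat
  b i := φ (p.b i)
  mat_x := by
    rw [AlgHom.comp_apply, p.mat_x, AlgHom.mapMatrix_apply, Matrix.diagonal_map (map_zero _)]
    simp
  coeff_zero a i j := by
    simp only [AlgHom.comp_apply, AlgHom.mapMatrix_apply, Matrix.map_apply,
      Polynomial.coe_mapAlgHom, Polynomial.coeff_map, p.coeff_zero]
    split <;> simp
  pole a N h i j d hd := by
    simp [p.pole a N h i j d hd]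
  edge i hi := by simp [p.edge i hi]
  b_root := by simp [p.b_root]
  rigid a i := by
    have h := congrArg φ (p.rigid a i)
    simp only [map_sum, map_mul, AlgHom.commutes] at h
    rw [← h]
    refine Finset.sum_congr rfl fun j _ => ?_
    congr 1
    simp only [AlgHom.comp_apply, AlgHom.mapMatrix_apply, Matrix.map_apply,
      Polynomial.coe_mapAlgHom]
    rw [← AlgHom.commutes φ]
    exact Polynomial.eval_map_apply (f := (φ : R →+* S)) (algebraMap k R (C.base C.x))

theorem Pt.map_mat (φ : R →ₐ[k] S) (p : Pt T R) (a : C.A₀) (i j : Fin C.rank) :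
    (p.map φ).mat a i j = (p.mat a i j).map (φ : R →+* S) := rfl

theorem Pt.map_id (p : Pt T R) : p.map (AlgHom.id k R) = p := by
  refine Pt.ext (AlgHom.ext fun a => Matrix.ext fun i j => ?_) rfl
  rw [Pt.map_mat]
  exact Polynomial.map_id

theorem Pt.map_map {S' : Type u} [CommRing S'] [Algebra k S'] (φ : R →ₐ[k] S) (ψ : S →ₐ[k] S')
    (p : Pt T R) : (p.map φ).map ψ = p.map (ψ.comp φ) := by
  refine Pt.ext (AlgHom.ext fun a => Matrix.ext fun i j => ?_) rfl
  rw [Pt.map_mat, Pt.map_mat, Pt.map_mat, Polynomial.map_map]
  rfl

/-! ### The coefficient bound -/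

/-- Every function has bounded pole order at infinity. -/
theorem exists_pole (a : C.A₀) : ∃ N a₁, C.res₀ a = C.res₀ C.x ^ N * C.res₁ a₁ := by
  letI := C.res₁.toRingHom.toAlgebra
  haveI : IsLocalization.Away C.y C.A := C.away₁
  obtain ⟨n, a₁, h⟩ := IsLocalization.Away.surj C.y (C.res₀ a)
  refine ⟨n, a₁, ?_⟩
  have h' : C.res₀ a * C.res₁ C.y ^ n = C.res₁ a₁ := h
  rw [← h', mul_comm (C.res₀ a), ← mul_assoc, ← mul_pow, C.x_mul_y, one_pow, one_mul]

theorem pole_mono {a : C.A₀} {N M : ℕ} (h : ∃ a₁, C.res₀ a = C.res₀ C.x ^ N * C.res₁ a₁)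
    (hNM : N ≤ M) : ∃ a₁, C.res₀ a = C.res₀ C.x ^ M * C.res₁ a₁ := by
  obtain ⟨a₁, ha⟩ := h
  obtain ⟨e, rfl⟩ := Nat.exists_eq_add_of_le hNM
  refine ⟨C.y ^ e * a₁, ?_⟩
  rw [map_mul, map_pow, pow_add, ← mul_assoc, mul_assoc (C.res₀ C.x ^ N), ← mul_pow, C.x_mul_y,
    one_pow, mul_one, ha]

/-- A bound for the degrees of the matrices of the basis. -/
def degBound (C : Cover k) : ℕ :=
  Finset.univ.sup fun l => (exists_pole (C.basis₀ l)).choose

theorem pole_basis (l : Fin C.rank) :
    ∃ a₁, C.res₀ (C.basis₀ l) = C.res₀ C.x ^ degBound C * C.res₁ a₁ :=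
  pole_mono (exists_pole (C.basis₀ l)).choose_spec
    (Finset.le_sup (f := fun l => (exists_pole (C.basis₀ l)).choose) (Finset.mem_univ l))

/-! ### The basis -/

/-- Coordinates of the chart functions. -/
def coords (C : Cover k) : C.A₀ ≃ₗ[k] (Fin C.rank → k[X]) :=
  (LinearEquiv.ofBijective
    (∑ i, (LinearMap.mulRight k (C.basis₀ i)) ∘ₗ (Polynomial.aeval C.x).toLinearMap ∘ₗ
      LinearMap.proj i : (Fin C.rank → k[X]) →ₗ[k] C.A₀)
    (by
      convert C.basis₀_bijective using 1
      funext c
      simp [LinearMap.sum_apply])).symm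

theorem eq_sum_coords (a : C.A₀) :
    a = ∑ i, Polynomial.aeval C.x (coords C a i) * C.basis₀ i := by
  conv_lhs => rw [← (coords C).symm_apply_apply a]
  generalize coords C a = c
  simp [coords, LinearMap.sum_apply]

theorem mat_aeval (p : Pt T R) (f : k[X]) :
    p.mat (Polynomial.aeval C.x f) = Matrix.diagonal fun _ => f.map (algebraMap k R) := by
  induction f using Polynomial.induction_on' with
  | add f g hf hg =>
    rw [map_add, map_add, hf, hg, Matrix.diagonal_add]
    simp
  | monomial d c =>
    rw [Polynomial.aeval_monomial, map_mul, map_pow, AlgHom.commutes, p.mat_x, Matrix.diagonal_pow,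
      Matrix.algebraMap_eq_diagonal, Matrix.diagonal_mul_diagonal, Polynomial.map_monomial]
    refine congrArg Matrix.diagonal (funext fun _ => ?_)
    simp [Pi.algebraMap_apply, Polynomial.C_mul_X_pow_eq_monomial]

theorem Pt.mat_eq (p : Pt T R) (a : C.A₀) (i j : Fin C.rank) :
    p.mat a i j = ∑ l, (coords C a l).map (algebraMap k R) * p.mat (C.basis₀ l) i j := by
  conv_lhs => rw [eq_sum_coords a, map_sum]
  simp only [Matrix.sum_apply, map_mul, mat_aeval, Matrix.diagonal_mul]

/-! ### The representing algebra -/

/-- The unknowns. -/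
abbrev ChartVar (C : Cover k) : Type :=
  (Fin C.rank × Fin (degBound C + 1) × Fin C.rank × Fin C.rank) ⊕ Fin C.rank

/-- Polynomials in the unknowns. -/
abbrev GenRing (C : Cover k) : Type u := MvPolynomial (ChartVar C) k

/-- The generic matrices of the basis. -/
def genBasis (C : Cover k) (l : Fin C.rank) : PolyMat C (GenRing C) := fun i j =>
  ∑ d : Fin (degBound C + 1), Polynomial.monomial (d : ℕ) (MvPolynomial.X (.inl (l, d, i, j)))

/-- The generic matrix of a chart function. -/
def genMat (C : Cover k) (a : C.A₀) : PolyMat C (GenRing C) := fun i j =>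
  ∑ l, (coords C a l).map (algebraMap k (GenRing C)) * genBasis C l i j

/-- The generic value at the base point. -/
def genB (C : Cover k) (i : Fin C.rank) : GenRing C := MvPolynomial.X (.inr i)

/-- The equations of a chart. -/
inductive ChartRel (T : Tree C) : GenRing C → Prop
  | one (i j : Fin C.rank) (d : ℕ) :
      ChartRel T ((genMat C 1 i j - (1 : PolyMat C (GenRing C)) i j).coeff d)
  | mul (a a' : C.A₀) (i j : Fin C.rank) (d : ℕ) :
      ChartRel T ((genMat C (a * a') i j - (genMat C a * genMat C a') i j).coeff d)
  | coord (i j : Fin C.rank) (d : ℕ) :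
      ChartRel T ((genMat C C.x i j -
        (Matrix.diagonal fun _ => Polynomial.X : PolyMat C (GenRing C)) i j).coeff d)
  | zero (a : C.A₀) (i j : Fin C.rank) :
      ChartRel T ((genMat C a i j).coeff 0 -
        if i = j then algebraMap k (GenRing C) (C.pt i a) else 0)
  | pole (a : C.A₀) (N : ℕ) (h : ∃ a₁, C.res₀ a = C.res₀ C.x ^ N * C.res₁ a₁) (i j : Fin C.rank)
      (d : ℕ) (hd : N < d) : ChartRel T ((genMat C a i j).coeff d)
  | edge (i : Fin C.rank) (hi : i ≠ T.root) :
      ChartRel T ((genMat C (C.basis₀ (T.fn i)) (T.tgt i) (T.src i)).coeff (T.deg i) - 1)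
  | root : ChartRel T (genB C T.root - 1)
  | rigid (a : C.A₀) (i : Fin C.rank) :
      ChartRel T (∑ j, (genMat C a j i).eval (algebraMap k (GenRing C) (C.base C.x)) * genB C j -
        algebraMap k (GenRing C) (C.base a) * genB C i)

/-- The ideal of the equations. -/
def chartIdeal (T : Tree C) : Ideal (GenRing C) := Ideal.span {f | ChartRel T f}

/-- The algebra of a chart. -/
abbrev ChartRing (T : Tree C) : Type u := GenRing C ⧸ chartIdeal T

theorem finitePresentation_chartRing (T : Tree C) :
    Algebra.FinitePresentation k (ChartRing T) :=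
  Algebra.FinitePresentation.quotient (IsNoetherian.noetherian _)

theorem isNoetherianRing_chartRing (T : Tree C) : IsNoetherianRing (ChartRing T) := inferInstance

variable (T)

/-- The quotient map. -/
def chartQ : GenRing C →ₐ[k] ChartRing T := Ideal.Quotient.mkₐ k _

theorem chartQ_rel {f : GenRing C} (h : ChartRel T f) : chartQ T f = 0 :=
  Ideal.Quotient.eq_zero_iff_mem.mpr (Ideal.subset_span h)

/-- The matrix of the universal point. -/
def univMat (a : C.A₀) : PolyMat C (ChartRing T) :=
  (genMat C a).map (Polynomial.mapRingHom (chartQ T : GenRing C →+* ChartRing T))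

theorem univMat_eq_of_rel {a : C.A₀} {M : PolyMat C (GenRing C)}
    (h : ∀ i j d, ChartRel T ((genMat C a i j - M i j).coeff d)) :
    univMat T a = M.map (Polynomial.mapRingHom (chartQ T : GenRing C →+* ChartRing T)) := by
  refine Matrix.ext fun i j => Polynomial.ext fun d => ?_
  have := chartQ_rel T (h i j d)
  rw [Polynomial.coeff_sub, map_sub, sub_eq_zero] at this
  simpa [univMat] using this

theorem univMat_add (a b : C.A₀) : univMat T (a + b) = univMat T a + univMat T b := by
  refine Matrix.ext fun i j => ?_
  simp [univMat, genMat, add_mul, Finset.sum_add_distrib]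

theorem univMat_smul (c : k) (a : C.A₀) : univMat T (c • a) = c • univMat T a := by
  refine Matrix.ext fun i j => ?_
  show Polynomial.map (chartQ T : GenRing C →+* ChartRing T) (genMat C (c • a) i j) =
    c • Polynomial.map (chartQ T : GenRing C →+* ChartRing T) (genMat C a i j)
  simp [genMat, Polynomial.map_sum, Finset.smul_sum, Polynomial.map_smul,
    Polynomial.map_map]

/-- The universal point. -/
def univPt : Pt T (ChartRing T) where
  mat :=
    AlgHom.ofLinearMap
      { toFun := univMat T
        map_add' := univMat_add T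
        map_smul' := univMat_smul T }
      (by
        show univMat T 1 = 1
        rw [univMat_eq_of_rel T (M := 1) fun i j d => .one i j d]
        exact Matrix.map_one (Polynomial.mapRingHom (chartQ T : GenRing C →+* ChartRing T))
          (map_zero _) (map_one _))
      fun a b => by
        show univMat T (a * b) = univMat T a * univMat T b
        rw [univMat_eq_of_rel T (M := genMat C a * genMat C b) fun i j d => .mul a b i j d,
          Matrix.map_mul]
        rfl
  b i := chartQ T (genB C i)
  mat_x := by
    show univMat T C.x = _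
    rw [univMat_eq_of_rel T fun i j d => .coord i j d, Matrix.diagonal_map (map_zero _)]
    simp
  coeff_zero a i j := by
    have h := chartQ_rel T (.zero a i j)
    rw [map_sub, sub_eq_zero] at h
    show (univMat T a i j).coeff 0 = _
    simp only [univMat, Matrix.map_apply, Polynomial.coe_mapRingHom, Polynomial.coeff_map,
      RingHom.coe_coe, h]
    split <;> simp
  pole a N hN i j d hd := by
    show (univMat T a i j).coeff d = 0
    simpa [univMat] using chartQ_rel T (.pole a N hN i j d hd)
  edge i hi := by
    have h := chartQ_rel T (.edge i hi)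
    rw [map_sub, sub_eq_zero, map_one] at h
    show (univMat T _ _ _).coeff _ = 1
    simpa [univMat] using h
  b_root := by
    have h := chartQ_rel T (f := genB C T.root - 1) .root
    rwa [map_sub, sub_eq_zero, map_one] at h
  rigid a i := by
    have h := chartQ_rel T (.rigid a i)
    simp only [map_sub, map_sum, map_mul, sub_eq_zero, AlgHom.commutes] at h
    rw [← h]
    refine Finset.sum_congr rfl fun j _ => ?_
    congr 1
    show (univMat T a j i).eval _ = _
    rw [← AlgHom.commutes (chartQ T)]
    exact Polynomial.eval_map_apply (f := (chartQ T : GenRing C →+* ChartRing T))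
      (algebraMap k (GenRing C) (C.base C.x))

variable {T}

/-- The values of the unknowns at a point. -/
def Pt.value (p : Pt T R) : ChartVar C → R :=
  Sum.elim (fun v => (p.mat (C.basis₀ v.1) v.2.2.1 v.2.2.2).coeff v.2.1) p.b

theorem Pt.natDegree_le (p : Pt T R) (l i j : Fin C.rank) :
    (p.mat (C.basis₀ l) i j).natDegree ≤ degBound C :=
  Polynomial.natDegree_le_iff_coeff_eq_zero.mpr fun d hd => p.pole _ _ (pole_basis l) i j d hd

theorem Pt.map_genMat (p : Pt T R) (a : C.A₀) (i j : Fin C.rank) :
    (genMat C a i j).map (MvPolynomial.aeval p.value : GenRing C →ₐ[k] R) = p.mat a i j := by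
  rw [p.mat_eq a i j, genMat, Polynomial.map_sum]
  refine Finset.sum_congr rfl fun l _ => ?_
  rw [Polynomial.map_mul, Polynomial.map_map]
  congr 1
  · congr 1
    exact RingHom.ext fun c =>
      AlgHom.commutes (MvPolynomial.aeval p.value : GenRing C →ₐ[k] R) c
  · rw [genBasis, Polynomial.map_sum]
    conv_rhs => rw [(p.mat (C.basis₀ l) i j).as_sum_range'
      (degBound C + 1) (Nat.lt_succ_of_le (p.natDegree_le l i j))]
    rw [← Fin.sum_univ_eq_sum_range]
    simp [Pt.value]

theorem Pt.value_rel (p : Pt T R) {f : GenRing C} (h : ChartRel T f) :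
    MvPolynomial.aeval p.value f = 0 := by
  set ev : GenRing C →ₐ[k] R := MvPolynomial.aeval p.value
  have hm : ∀ a i j, (genMat C a i j).map (ev : GenRing C →+* R) = p.mat a i j := p.map_genMat
  have hc : ∀ (g : (GenRing C)[X]) d, ev (g.coeff d) = (g.map (ev : GenRing C →+* R)).coeff d :=
    fun g d => by simp
  have hb : ∀ i, ev (genB C i) = p.b i := fun i => MvPolynomial.aeval_X _ _
  cases h with
  | one i j d =>
    rw [hc, Polynomial.map_sub, hm, map_one p.mat]
    simp only [Matrix.one_apply]
    split <;> simp
  | mul a a' i j d =>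
    rw [hc, Polynomial.map_sub, hm, map_mul p.mat, Matrix.mul_apply, Matrix.mul_apply,
      Polynomial.map_sum]
    simp [hm]
  | coord i j d =>
    rw [hc, Polynomial.map_sub, hm, p.mat_x]
    simp only [Matrix.diagonal_apply]
    split <;> simp
  | zero a i j =>
    rw [map_sub, hc, hm, p.coeff_zero]
    split <;> simp
  | pole a N hN i j d hd => rw [hc, hm, p.pole a N hN i j d hd]
  | edge i hi => rw [map_sub, hc, hm, p.edge i hi, map_one, sub_self]
  | root => rw [map_sub, hb, p.b_root, map_one, sub_self]
  | rigid a i =>
    simp only [map_sub, map_sum, map_mul, hb, AlgHom.commutes]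
    rw [sub_eq_zero, ← p.rigid a i]
    refine Finset.sum_congr rfl fun j _ => ?_
    congr 1
    rw [← hm, ← AlgHom.commutes ev]
    exact (Polynomial.eval_map_apply (f := (ev : GenRing C →+* R))
      (algebraMap k (GenRing C) (C.base C.x))).symm

/-- The map classifying a point. -/
def Pt.classify (p : Pt T R) : ChartRing T →ₐ[k] R :=
  Ideal.Quotient.liftₐ _ (MvPolynomial.aeval p.value) fun f hf => by
    induction hf using Submodule.span_induction with
    | mem f hf => exact p.value_rel hf
    | zero => simp
    | add a b _ _ ha hb => rw [map_add, ha, hb, add_zero]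
    | smul c f _ hf => rw [smul_eq_mul, map_mul, hf, mul_zero]

/-- Every point is the image of the universal point under its classifying map. -/
theorem Pt.classify_spec (p : Pt T R) : (univPt T).map p.classify = p := by
  refine Pt.ext (AlgHom.ext fun a => Matrix.ext fun i j => ?_) (funext fun i => ?_)
  · rw [Pt.map_mat]
    show (univMat T a i j).map _ = _
    rw [univMat, Matrix.map_apply, Polynomial.coe_mapRingHom, Polynomial.map_map, ← p.map_genMat]
    rfl
  · exact MvPolynomial.aeval_X p.value (.inr i)

theorem genMat_basis (l : Fin C.rank) : genMat C (C.basis₀ l) = genBasis C l := by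
  have h : coords C (C.basis₀ l) = Pi.single l 1 := by
    refine (coords C).symm.injective ?_
    rw [LinearEquiv.symm_apply_apply]
    simp [coords, LinearMap.sum_apply, Pi.single_apply, apply_ite]
  refine Matrix.ext fun i j => ?_
  simp [genMat, h, Pi.single_apply, apply_ite, ite_mul]

/-- Maps out of the chart algebra agreeing on the universal point are equal. -/
theorem chartRing_hom_ext {φ ψ : ChartRing T →ₐ[k] R}
    (h : (univPt T).map φ = (univPt T).map ψ) : φ = ψ := by
  refine Ideal.Quotient.algHom_ext _ (MvPolynomial.algHom_ext fun v => ?_)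
  rcases v with ⟨l, d, i, j⟩ | i
  · have h' := congrArg (fun p : Pt T R => (p.mat (C.basis₀ l) i j).coeff (d : ℕ)) h
    simp only [Pt.map_mat, Polynomial.coeff_map] at h'
    have e : ((univPt T).mat (C.basis₀ l) i j).coeff (d : ℕ) =
        chartQ T (MvPolynomial.X (.inl (l, d, i, j))) := by
      show (univMat T (C.basis₀ l) i j).coeff (d : ℕ) = _
      rw [univMat, Matrix.map_apply, genMat_basis]
      simp [genBasis, Polynomial.coeff_monomial, Fin.val_inj]
    rw [e] at h'
    exact h'
  · exact congrFun (congrArg Pt.b h) i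

end FLTAgent.JacRep.Charts
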