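import Fermat.Agent.JacRep.Charts.Frame

/-!
# A point determines its bundle

`isPullback_of_hasPt`: if `E` realises a point and `E'` its image under a change of base, then
`E'` is a pullback of `E`.  The map is prescribed on the frame of the first chart and extended to
the overlap and to the second chart, which is spanned by sections with a pole at infinity.
-/

set_option autoImplicit false
set_option linter.style.haveILetI false

noncomputable section

open scoped TensorProduct Polynomial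

universe u

namespace FLTAgent.JacRep.Charts

variable {k : Type u} [Field k] {C : Cover k} {R : Type u} [CommRing R] [Algebra k R]
  {R' : Type u} [CommRing R'] [Algebra k R'] {T : Tree C}

/-- A power of the coordinate carries the overlap into the first chart. -/
theorem exists_resB₀_eq (b : C.B R) : ∃ n b₀, xT C R ^ n * b = C.resB₀ R b₀ := by
  induction b using TensorProduct.induction_on with
  | zero => exact ⟨0, 0, by simp⟩
  | tmul r a =>
    letI := C.res₀.toRingHom.toAlgebra
    haveI : IsLocalization.Away C.x C.A := C.away₀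
    obtain ⟨n, a₀, h⟩ := IsLocalization.Away.surj C.x a
    refine ⟨n, r ⊗ₜ a₀, ?_⟩
    have h' : a * C.res₀ C.x ^ n = C.res₀ a₀ := h
    rw [resB₀_tmul, ← h', xT, Cover.xB, resB₀_tmul, Algebra.TensorProduct.tmul_pow,
      Algebra.TensorProduct.tmul_mul_tmul, one_pow, one_mul, mul_comm]
  | add p q hp hq =>
    obtain ⟨n, p₀, hp⟩ := hp
    obtain ⟨m, q₀, hq⟩ := hq
    refine ⟨n + m, C.xB R ^ m * p₀ + C.xB R ^ n * q₀, ?_⟩
    rw [map_add, map_mul, map_mul, map_pow, map_pow, show C.resB₀ R (C.xB R) = xT C R from rfl,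
      ← hp, ← hq]
    ring

theorem combine_zero {E : Bundle C R} (e : Fin C.rank → E.M₀) : combine e 0 = 0 := by
  simp [combine]

theorem combine_single {E : Bundle C R} (e : Fin C.rank → E.M₀) (i : Fin C.rank) :
    combine e (Pi.single i 1) = e i := by
  rw [combine, Finset.sum_eq_single i (fun j _ h => by simp [Pi.single_eq_of_ne h]) (by simp)]
  simp

theorem Frame.smul_combine {E : Bundle C R} {p : Pt T R} (F : Frame T E p) (a : C.A₀)
    (c : Fin C.rank → R[X]) :
    ((1 : R) ⊗ₜ[k] a : C.B₀ R) • combine F.e c = combine F.e ((p.mat a).mulVec c) := by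
  have h : ∀ i, ((1 : R) ⊗ₜ[k] a : C.B₀ R) • evX C R (c i) • F.e i =
      ∑ l, (evX C R (p.mat a l i) * evX C R (c i)) • F.e l := fun i => by
    rw [smul_comm, F.rel, Finset.smul_sum]
    simp only [smul_smul, mul_comm]
  simp only [combine, Finset.smul_sum, h, Matrix.mulVec, dotProduct, map_sum, map_mul,
    Finset.sum_smul]
  exact Finset.sum_comm

/-- The second chart is spanned by the sections with a pole at infinity. -/
theorem Frame.mem_span₁ {E : Bundle C R} {p : Pt T R} (F : Frame T E p) {b : Fin C.rank → E.M₁}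
    (hb : ∀ i, E.ι₀ (F.e i) = xT C R • E.ι₁ (b i)) (m : E.M₁) :
    m ∈ Submodule.span (C.B₁ R) (Set.range b) := by
  obtain ⟨n, m₀, hm⟩ := E.loc₀ (E.ι₁ m)
  have h : E.ι₀ (C.xB R • m₀) = xT C R ^ (n + 1) • E.ι₁ m := by
    rw [ι₀_xB_smul, ← hm, show C.resB₀ R (C.xB R) = xT C R from rfl, smul_smul, ← pow_succ']
  have hsum := eq_sum_coeff F.acyclic (tail_pow_eq_zero F.acyclic h)
  choose r hr using fun (d : ℕ) (i : Fin C.rank) =>
    F.gen i _ (pieceMap_mem F.acyclic i (coeff F.acyclic d (C.xB R • m₀)))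
  have hm' : m = ∑ d ∈ Finset.range (n + 1), ∑ i,
      (C.yB R ^ (n - d) * (r d i ⊗ₜ[k] (1 : C.A₁))) • b i := by
    refine E.inj₁ ?_
    have e1 : yT C R ^ (n + 1) • E.ι₀ (C.xB R • m₀) = E.ι₁ m := by
      rw [h, smul_smul, ← mul_pow, yT_mul_xT, one_pow, one_smul]
    rw [← e1, hsum, map_sum, Finset.smul_sum, map_sum]
    refine Finset.sum_congr rfl fun d hd => ?_
    conv_lhs => rw [← sum_pieceMap_of_mem F.acyclic (coeff_mem F.acyclic d (C.xB R • m₀))]
    rw [Finset.smul_sum, map_sum, Finset.smul_sum, map_sum]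
    refine Finset.sum_congr rfl fun i _ => ?_
    have hd' : n + 1 = (n - d) + (d + 1) := by have := Finset.mem_range.mp hd; omega
    have e2 : yT C R ^ (n + 1) * xT C R ^ (d + 1) = yT C R ^ (n - d) := by
      rw [hd', pow_add, mul_assoc, ← mul_pow, yT_mul_xT, one_pow, mul_one]
    rw [hr, smul_R_def, smul_smul, LinearMap.map_smulₛₗ, LinearMap.map_smulₛₗ, hb, map_mul, map_mul,
      map_pow, map_pow, resB₀_tmul, resB₁_tmul, map_one, map_one,
      show C.resB₀ R (C.xB R) = xT C R from rfl, show C.resB₁ R (C.yB R) = yT C R from rfl,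
      smul_smul, smul_smul, ← e2]
    congr 1
    ring
  rw [hm']
  exact Submodule.sum_mem _ fun d _ => Submodule.sum_mem _ fun i _ =>
    Submodule.smul_mem _ _ (Submodule.subset_span ⟨i, rfl⟩)

/-- **Bundles realising a point and its image are related by pullback.** -/
theorem isPullback_of_hasPt {φ : R →ₐ[k] R'} {E : Bundle C R} {E' : Bundle C R'} {p : Pt T R}
    (hp : HasPt p E) (hp' : HasPt (p.map φ) E') : Bundle.IsPullback φ E E' := by
  classical
  obtain ⟨F⟩ := hp
  obtain ⟨F'⟩ := hp'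
  choose cc hcc using exists_combine F.acyclic F.gen
  have huniq : ∀ m c, combine F.e c = m → cc m = c := fun m c h =>
    combine_injective F.acyclic F.mem F.gen ((hcc m).trans h.symm)
  set ψ : R[X] →+* R'[X] := Polynomial.mapRingHom (φ : R →+* R')
  let g₀ : E.M₀ → E'.M₀ := fun m => combine F'.e fun i => ψ (cc m i)
  have g₀_combine : ∀ c, g₀ (combine F.e c) = combine F'.e fun i => ψ (c i) := fun c => by
    show combine F'.e (fun i => ψ (cc _ i)) = _
    rw [huniq _ c rfl]
  have g₀_add : ∀ m m', g₀ (m + m') = g₀ m + g₀ m' := fun m m' => by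
    conv_lhs => rw [← hcc m, ← hcc m', ← combine_add, g₀_combine]
    rw [← combine_add]
    exact congrArg _ (funext fun i => map_add ψ _ _)
  have g₀_smul : ∀ (b : C.B₀ R) m, g₀ (b • m) = C.mapB₀ φ b • g₀ m := by
    intro b
    induction b using TensorProduct.induction_on with
    | zero =>
      intro m
      rw [map_zero, zero_smul, zero_smul, ← combine_zero F.e, g₀_combine]
      simp [combine]
    | tmul r a =>
      intro m
      have hsplit : ∀ (S : Type u) [CommRing S] [Algebra k S] (s : S),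
          (s ⊗ₜ[k] a : C.B₀ S) = (s ⊗ₜ[k] (1 : C.A₀)) * (1 ⊗ₜ a) := fun S _ _ s => by simp
      have hC : ∀ (S : Type u) [CommRing S] [Algebra k S] (s : S),
          (s ⊗ₜ[k] (1 : C.A₀) : C.B₀ S) = evX C S (Polynomial.C s) := fun S _ _ s => by simp [evX]
      rw [mapB₀_tmul, hsplit R r, hsplit R' (φ r), mul_smul, mul_smul, hC R, hC R']
      conv_lhs => rw [← hcc m, F.smul_combine, evX_smul_combine, g₀_combine]
      rw [show g₀ m = combine F'.e fun i => ψ (cc m i) from rfl, F'.smul_combine, evX_smul_combine]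
      refine congrArg _ (funext fun i => ?_)
      simp only [Matrix.mulVec, dotProduct, map_mul, map_sum, Pt.map_mat, ψ,
        Polynomial.coe_mapRingHom, Polynomial.map_C, RingHom.coe_coe]
    | add b b' hb hb' =>
      intro m
      rw [add_smul, g₀_add, hb, hb', map_add, add_smul]
  let f₀ : E.M₀ →ₛₗ[C.mapB₀ φ] E'.M₀ := { toFun := g₀, map_add' := g₀_add, map_smul' := g₀_smul }
  have hf₀e : ∀ i, f₀ (F.e i) = F'.e i := fun i => by
    show g₀ _ = _
    rw [← combine_single F.e i, g₀_combine, ← combine_single F'.e i]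
    refine congrArg _ (funext fun j => ?_)
    rw [Pi.single_apply, Pi.single_apply]
    split <;> simp [ψ]
  -- the overlap
  choose nn mm hnm using E.loc₀
  let g : E.M → E'.M := fun m => yT C R' ^ nn m • E'.ι₀ (f₀ (mm m))
  have g_spec : ∀ {m : E.M} {n : ℕ} {m₀ : E.M₀}, xT C R ^ n • m = E.ι₀ m₀ →
      xT C R' ^ n • g m = E'.ι₀ (f₀ m₀) := by
    intro m n m₀ h
    have h2 : E.ι₀ (C.xB R ^ n • mm m) = E.ι₀ (C.xB R ^ nn m • m₀) := by
      rw [LinearMap.map_smulₛₗ, LinearMap.map_smulₛₗ, map_pow, map_pow, ← hnm m, ← h,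
        show C.resB₀ R (C.xB R) = xT C R from rfl, smul_comm]
    have h3 := congrArg (fun z => E'.ι₀ (f₀ z)) (E.inj₀ h2)
    simp only [LinearMap.map_smulₛₗ, map_pow, mapB₀_xB,
      show C.resB₀ R' (C.xB R') = xT C R' from rfl] at h3
    show xT C R' ^ n • yT C R' ^ nn m • E'.ι₀ (f₀ (mm m)) = _
    rw [smul_comm, h3, smul_smul, ← mul_pow, yT_mul_xT, one_pow, one_smul]
  have g_eq : ∀ {m : E.M} {n : ℕ} {m₀ : E.M₀} {z : E'.M}, xT C R ^ n • m = E.ι₀ m₀ →
      xT C R' ^ n • z = E'.ι₀ (f₀ m₀) → g m = z := by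
    intro m n m₀ z h hz
    have h' := congrArg (yT C R' ^ n • ·) ((g_spec h).trans hz.symm)
    simpa [smul_smul, ← mul_pow, yT_mul_xT] using h'
  have hloc : ∀ m, xT C R ^ nn m • m = E.ι₀ (mm m) := fun m => hnm m
  clear_value g
  have g_add : ∀ m m', g (m + m') = g m + g m' := fun m m' => by
    refine g_eq (n := nn m + nn m') (m₀ := C.xB R ^ nn m' • mm m + C.xB R ^ nn m • mm m') ?_ ?_
    · rw [map_add, LinearMap.map_smulₛₗ, LinearMap.map_smulₛₗ, map_pow, map_pow, ← hloc, ← hloc,
        show C.resB₀ R (C.xB R) = xT C R from rfl, smul_smul, smul_smul, smul_add, ← pow_add,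
        ← pow_add, add_comm (nn m') (nn m)]
    · rw [map_add, map_add, smul_add]
      simp only [LinearMap.map_smulₛₗ, map_pow, mapB₀_xB,
        show C.resB₀ R' (C.xB R') = xT C R' from rfl]
      rw [← g_spec (hloc m), ← g_spec (hloc m'), smul_smul, smul_smul, ← pow_add, ← pow_add,
        add_comm (nn m') (nn m)]
  have g_smul : ∀ (b : C.B R) m, g (b • m) = C.mapB φ b • g m := by
    intro b m
    obtain ⟨l, b₀, hb⟩ := exists_resB₀_eq b
    refine g_eq (n := l + nn m) (m₀ := b₀ • mm m) ?_ ?_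
    · rw [LinearMap.map_smulₛₗ, ← hb, ← hloc, smul_smul, smul_smul, pow_add]
      congr 1
      ring
    · rw [LinearMap.map_smulₛₗ, LinearMap.map_smulₛₗ, ← mapB_resB₀, ← hb, ← g_spec (hloc m), map_mul,
        map_pow, mapB_xT, smul_smul, smul_smul, pow_add]
      congr 1
      ring
  let f : E.M →ₛₗ[C.mapB φ] E'.M := { toFun := g, map_add' := g_add, map_smul' := g_smul }
  have c₀ : ∀ m, f (E.ι₀ m) = E'.ι₀ (f₀ m) := fun m =>
    g_eq (n := 0) (m₀ := m) (by rw [pow_zero, one_smul]) (by rw [pow_zero, one_smul])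
  -- the second chart
  choose b hb using fun i => piece_le_vSub F.acyclic i (F.mem i)
  choose b' hb' using fun i => piece_le_vSub F'.acyclic i (F'.mem i)
  have hgb : ∀ i, f (E.ι₁ (b i)) = E'.ι₁ (b' i) := fun i =>
    g_eq (n := 1) (m₀ := F.e i) (by rw [pow_one, hb]) (by rw [pow_one, hf₀e, hb'])
  have hrange : ∀ m, ∃ m', E'.ι₁ m' = f (E.ι₁ m) := by
    intro m
    have hm := F.mem_span₁ hb m
    induction hm using Submodule.span_induction with
    | mem z hz => obtain ⟨i, rfl⟩ := hz; exact ⟨b' i, (hgb i).symm⟩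
    | zero => exact ⟨0, by simp⟩
    | add x y _ _ hx hy =>
      obtain ⟨x', hx⟩ := hx
      obtain ⟨y', hy⟩ := hy
      exact ⟨x' + y', by rw [map_add, map_add, map_add, hx, hy]⟩
    | smul c x _ hx =>
      obtain ⟨x', hx⟩ := hx
      exact ⟨C.mapB₁ φ c • x', by
        rw [LinearMap.map_smulₛₗ, LinearMap.map_smulₛₗ, LinearMap.map_smulₛₗ, hx, mapB_resB₁]⟩
  choose g₁ hg₁ using hrange
  let f₁ : E.M₁ →ₛₗ[C.mapB₁ φ] E'.M₁ :=
    { toFun := g₁
      map_add' := fun x y => E'.inj₁ (by rw [hg₁, map_add, map_add, map_add, hg₁, hg₁])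
      map_smul' := fun c x => E'.inj₁ (by
        rw [hg₁, LinearMap.map_smulₛₗ, LinearMap.map_smulₛₗ, LinearMap.map_smulₛₗ, hg₁,
          mapB_resB₁]) }
  refine ⟨f₀, f₁, f, ?_, ?_, c₀, fun m => (hg₁ m).symm⟩
  · rw [eq_top_iff]
    intro z _
    obtain ⟨c, rfl⟩ := exists_combine F'.acyclic F'.gen z
    exact Submodule.sum_mem _ fun i _ =>
      Submodule.smul_mem _ _ (Submodule.subset_span ⟨F.e i, hf₀e i⟩)
  · rw [eq_top_iff]
    intro z _
    refine Submodule.span_mono ?_ (F'.mem_span₁ hb' z)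
    rintro _ ⟨i, rfl⟩
    exact ⟨b i, E'.inj₁ ((hg₁ (b i)).trans (hgb i))⟩

end FLTAgent.JacRep.Charts
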