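import Fermat.Agent.JacRep.Charts.Basic

/-!
# Splitting an acyclic bundle

An acyclic bundle is a polynomial extension of the `R`-module `vSub E` of its sections with at most
a simple pole along `x = ∞`: each element of the first chart splits uniquely as `head + x * tail`,
has finitely many coefficients `coeff` and is their polynomial (`exists_eq_sum_coeff`,
`span_vSub`).  These maps commute with pullback.
-/

set_option autoImplicit false
set_option linter.style.haveILetI false

noncomputable section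

open scoped TensorProduct

universe u

namespace FLTAgent.JacRep.Charts

variable {k : Type u} [Field k] {C : Cover k} {R : Type u} [CommRing R] [Algebra k R]

/-- `R` acts on the first chart of a bundle. -/
scoped instance instChartsModR (E : Bundle C R) : Module R E.M₀ := E.rModule₀

scoped instance instChartsTowerR (E : Bundle C R) : IsScalarTower R (C.B₀ R) E.M₀ :=
  ⟨fun r b m => by
    show (r • b) • m = ((r ⊗ₜ[k] (1 : C.A₀)) : C.B₀ R) • (b • m)
    rw [smul_smul]
    congr 1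
    induction b using TensorProduct.induction_on with
    | zero => simp
    | tmul s a => rw [TensorProduct.smul_tmul', Algebra.TensorProduct.tmul_mul_tmul, one_mul]; rfl
    | add p q hp hq => rw [smul_add, mul_add, hp, hq]⟩

theorem smul_R_def (E : Bundle C R) (r : R) (m : E.M₀) :
    r • m = ((r ⊗ₜ[k] (1 : C.A₀)) : C.B₀ R) • m := rfl

variable (E : Bundle C R)

theorem ι₀_xB_smul (m : E.M₀) : E.ι₀ (C.xB R • m) = xT C R • E.ι₀ m := by
  rw [LinearMap.map_smulₛₗ]; rfl

theorem ι₁_yB_smul (m : E.M₁) : E.ι₁ (C.yB R • m) = yT C R • E.ι₁ m := by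
  rw [LinearMap.map_smulₛₗ]; rfl

theorem xT_smul_injective {a b : E.M} (h : xT C R • a = xT C R • b) : a = b := by
  simpa [smul_smul, yT_mul_xT] using congrArg (yT C R • ·) h

/-- The sections with at most a simple pole at infinity. -/
def vSub : Submodule R E.M₀ where
  carrier := {m | ∃ m₁, E.ι₀ m = xT C R • E.ι₁ m₁}
  zero_mem' := ⟨0, by simp⟩
  add_mem' := by
    rintro a b ⟨a₁, ha⟩ ⟨b₁, hb⟩
    exact ⟨a₁ + b₁, by rw [map_add, map_add, ha, hb, smul_add]⟩
  smul_mem' := by
    rintro r a ⟨a₁, ha⟩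
    refine ⟨((r ⊗ₜ[k] (1 : C.A₁)) : C.B₁ R) • a₁, ?_⟩
    rw [smul_R_def, LinearMap.map_smulₛₗ, LinearMap.map_smulₛₗ, ha, resB₀_tmul, resB₁_tmul,
      map_one, map_one, smul_comm]

theorem mem_vSub {m : E.M₀} : m ∈ vSub E ↔ ∃ m₁, E.ι₀ m = xT C R • E.ι₁ m₁ := Iff.rfl

variable {E} (hA : E.Acyclic)
include hA

theorem eq_of_diff {a : E.M₀} {b : E.M₁} (h : E.ι₀ a = E.ι₁ b) : a = 0 ∧ b = 0 := by
  have h' : E.diff (a, b) = E.diff (0, 0) := by simp [Bundle.diff, h]
  exact Prod.mk.inj (hA.1 h')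

theorem exists_split (m : E.M₀) : ∃ m' : E.M₀, m - C.xB R • m' ∈ vSub E := by
  obtain ⟨⟨a, b⟩, hab⟩ := hA.2 (yT C R • E.ι₀ m)
  refine ⟨a, -b, ?_⟩
  have h : E.ι₀ a - E.ι₁ b = yT C R • E.ι₀ m := hab
  have h' := congrArg (xT C R • ·) h
  simp only [smul_sub, smul_smul, xT_mul_yT, one_smul] at h'
  rw [map_sub, ι₀_xB_smul, ← h', map_neg, smul_neg]
  abel

/-- The quotient by the coordinate. -/
def tailFun (m : E.M₀) : E.M₀ := (exists_split hA m).choose

theorem eq_zero_of_split {v m : E.M₀} (hv : v ∈ vSub E) (h : v + C.xB R • m = 0) :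
    v = 0 ∧ m = 0 := by
  obtain ⟨b, hb⟩ := hv
  have h' := congrArg E.ι₀ h
  rw [map_add, hb, ι₀_xB_smul, map_zero, ← smul_add] at h'
  have h'' : E.ι₁ b + E.ι₀ m = 0 := xT_smul_injective E (by rwa [smul_zero])
  obtain ⟨rfl, -⟩ := eq_of_diff hA (a := m) (b := -b) (by rw [map_neg, eq_neg_iff_add_eq_zero,
    add_comm, h''])
  exact ⟨by simpa using h, rfl⟩

theorem tailFun_eq {m m' : E.M₀} (h : m - C.xB R • m' ∈ vSub E) : tailFun hA m = m' := by
  have h1 := (exists_split hA m).choose_spec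
  have := (eq_zero_of_split hA (Submodule.sub_mem _ h1 h) (m := tailFun hA m - m') (by
    rw [tailFun, smul_sub]; abel)).2
  exact sub_eq_zero.mp this

/-- The quotient by the coordinate, linearly. -/
def tail : E.M₀ →ₗ[R] E.M₀ where
  toFun := tailFun hA
  map_add' a b := tailFun_eq hA (by
    have := Submodule.add_mem _ (exists_split hA a).choose_spec (exists_split hA b).choose_spec
    convert this using 1
    rw [tailFun, tailFun, smul_add]; abel)
  map_smul' r a := tailFun_eq hA (by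
    have := Submodule.smul_mem _ r (exists_split hA a).choose_spec
    convert this using 1
    rw [RingHom.id_apply, tailFun, smul_sub, smul_comm])

/-- The value at `x = 0` in `V`. -/
def head : E.M₀ →ₗ[R] E.M₀ where
  toFun m := m - C.xB R • tail hA m
  map_add' a b := by rw [map_add, smul_add]; abel
  map_smul' r a := by rw [map_smul, RingHom.id_apply, smul_sub, smul_comm]

theorem head_mem (m : E.M₀) : head hA m ∈ vSub E := (exists_split hA m).choose_spec

theorem head_add_tail (m : E.M₀) : head hA m + C.xB R • tail hA m = m := sub_add_cancel _ _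

theorem split_unique {m v m' : E.M₀} (hv : v ∈ vSub E) (h : m = v + C.xB R • m') :
    head hA m = v ∧ tail hA m = m' := by
  have ht : tail hA m = m' := tailFun_eq hA (by rwa [h, add_sub_cancel_right])
  refine ⟨?_, ht⟩
  show m - C.xB R • tail hA m = v
  rw [ht, h, add_sub_cancel_right]

theorem head_of_mem {v : E.M₀} (hv : v ∈ vSub E) : head hA v = v :=
  (split_unique hA hv (m' := 0) (by simp)).1

theorem tail_of_mem {v : E.M₀} (hv : v ∈ vSub E) : tail hA v = 0 :=
  (split_unique hA hv (m' := 0) (by simp)).2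

theorem head_xB_smul (m : E.M₀) : head hA (C.xB R • m) = 0 :=
  (split_unique hA (zero_mem _) (zero_add _).symm).1

theorem tail_xB_smul (m : E.M₀) : tail hA (C.xB R • m) = m :=
  (split_unique hA (zero_mem _) (zero_add _).symm).2

/-- The coefficient of `x ^ d`. -/
def coeff (d : ℕ) : E.M₀ →ₗ[R] E.M₀ := head hA ∘ₗ (tail hA) ^ d

theorem coeff_zero : coeff hA 0 = head hA := by ext; simp [coeff]

theorem coeff_succ (d : ℕ) (m : E.M₀) : coeff hA (d + 1) m = coeff hA d (tail hA m) := by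
  simp [coeff, pow_succ]

theorem coeff_mem (d : ℕ) (m : E.M₀) : coeff hA d m ∈ vSub E := head_mem hA _

theorem coeff_xB_smul_succ (d : ℕ) (m : E.M₀) :
    coeff hA (d + 1) (C.xB R • m) = coeff hA d m := by
  rw [coeff_succ, tail_xB_smul]

theorem coeff_monomial {v : E.M₀} (hv : v ∈ vSub E) (d e : ℕ) :
    coeff hA d (C.xB R ^ e • v) = if d = e then v else 0 := by
  induction e generalizing d with
  | zero =>
    rcases d with - | d
    · simp [coeff_zero, head_of_mem hA hv]
    · simp [coeff_succ, tail_of_mem hA hv]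
  | succ e ih =>
    rw [pow_succ', ← smul_smul]
    rcases d with - | d
    · simp [coeff_zero, head_xB_smul]
    · rw [coeff_xB_smul_succ, ih]; simp

/-- Boundedness by a pole order stops the expansion. -/
theorem tail_pow_eq_zero {m : E.M₀} {N : ℕ} {b : E.M₁}
    (h : E.ι₀ m = xT C R ^ (N + 1) • E.ι₁ b) : ((tail hA) ^ (N + 1)) m = 0 := by
  induction N generalizing m b with
  | zero =>
    simp only [zero_add, pow_one] at h ⊢
    exact tail_of_mem hA ⟨b, h⟩
  | succ N ih =>
    rw [pow_succ, Module.End.mul_apply]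
    obtain ⟨c, hc⟩ := head_mem hA m
    refine ih (b := b - C.yB R ^ (N + 1) • c) (xT_smul_injective E ?_)
    have h' := congrArg E.ι₀ (head_add_tail hA m)
    rw [map_add, hc, ι₀_xB_smul, h] at h'
    rw [map_sub, smul_sub, smul_sub, smul_smul, ← pow_succ', smul_smul, ← pow_succ',
      LinearMap.map_smulₛₗ, map_pow, smul_smul, show C.resB₁ R (C.yB R) = yT C R from rfl,
      pow_succ' (xT C R), mul_assoc, ← mul_pow, xT_mul_yT, one_pow, mul_one, ← pow_succ', ← h']
    abel

theorem coeff_eq_zero_of_bound {m : E.M₀} {N : ℕ} {b : E.M₁}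
    (h : E.ι₀ m = xT C R ^ (N + 1) • E.ι₁ b) {d : ℕ} (hd : N < d) : coeff hA d m = 0 := by
  obtain ⟨e, rfl⟩ := Nat.exists_eq_add_of_le hd
  rw [coeff, LinearMap.comp_apply, Nat.add_comm, pow_add, Module.End.mul_apply,
    tail_pow_eq_zero hA h, map_zero, map_zero]

omit hA in
theorem exists_bound (m : E.M₀) : ∃ (N : ℕ) (b : E.M₁), E.ι₀ m = xT C R ^ (N + 1) • E.ι₁ b := by
  obtain ⟨n, b, hb⟩ := E.loc₁ (E.ι₀ m)
  refine ⟨n, C.yB R • b, ?_⟩
  rw [ι₁_yB_smul, ← hb, show C.resB₁ R (C.yB R) = yT C R from rfl, smul_smul, smul_smul,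
    mul_assoc, ← pow_succ', ← mul_pow, xT_mul_yT, one_pow, one_smul]

/-- The expansion. -/
theorem eq_sum_coeff {m : E.M₀} {n : ℕ} (h : ((tail hA) ^ n) m = 0) :
    m = ∑ d ∈ Finset.range n, C.xB R ^ d • coeff hA d m := by
  induction n generalizing m with
  | zero => simpa using h
  | succ n ih =>
    rw [pow_succ, Module.End.mul_apply] at h
    rw [Finset.sum_range_succ', pow_zero, one_smul, coeff_zero]
    conv_lhs => rw [← head_add_tail hA m, ih h]
    rw [Finset.smul_sum, add_comm]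
    simp only [smul_smul, ← pow_succ', coeff_succ]

theorem exists_eq_sum_coeff (m : E.M₀) :
    ∃ n, m = ∑ d ∈ Finset.range n, C.xB R ^ d • coeff hA d m := by
  obtain ⟨N, b, hb⟩ := exists_bound m
  exact ⟨N + 1, eq_sum_coeff hA (tail_pow_eq_zero hA hb)⟩

theorem span_vSub : Submodule.span (C.B₀ R) (vSub E : Set E.M₀) = ⊤ := by
  rw [eq_top_iff]
  intro m _
  obtain ⟨n, hn⟩ := exists_eq_sum_coeff hA m
  rw [hn]
  exact Submodule.sum_mem _ fun d _ =>
    Submodule.smul_mem _ _ (Submodule.subset_span (coeff_mem hA d m))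

/-! ### Naturality -/

variable {R' : Type u} [CommRing R'] [Algebra k R'] {φ : R →ₐ[k] R'} {E' : Bundle C R'}
  (hA' : E'.Acyclic) {f₀ : E.M₀ →ₛₗ[C.mapB₀ φ] E'.M₀} {f₁ : E.M₁ →ₛₗ[C.mapB₁ φ] E'.M₁}
  {f : E.M →ₛₗ[C.mapB φ] E'.M} (c₀ : ∀ m, f (E.ι₀ m) = E'.ι₀ (f₀ m))
  (c₁ : ∀ m, f (E.ι₁ m) = E'.ι₁ (f₁ m))

omit hA in
include c₀ c₁ in
theorem map_vSub {m : E.M₀} (hm : m ∈ vSub E) : f₀ m ∈ vSub E' := by
  obtain ⟨b, hb⟩ := hm
  exact ⟨f₁ b, by rw [← c₀, hb, LinearMap.map_smulₛₗ, c₁, mapB_xT]⟩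

include c₀ c₁ in
theorem map_head_tail (m : E.M₀) :
    head hA' (f₀ m) = f₀ (head hA m) ∧ tail hA' (f₀ m) = f₀ (tail hA m) :=
  split_unique hA' (map_vSub c₀ c₁ (head_mem hA m)) (by
    conv_lhs => rw [← head_add_tail hA m, map_add, LinearMap.map_smulₛₗ, mapB₀_xB])

include c₀ c₁ in
theorem map_coeff (d : ℕ) (m : E.M₀) : coeff hA' d (f₀ m) = f₀ (coeff hA d m) := by
  induction d generalizing m with
  | zero => rw [coeff_zero, coeff_zero, (map_head_tail hA hA' c₀ c₁ m).1]
  | succ d ih => rw [coeff_succ, coeff_succ, (map_head_tail hA hA' c₀ c₁ m).2, ih]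

end FLTAgent.JacRep.Charts
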