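import Fermat.Agent.JacRep.Charts.Pieces
import Fermat.Agent.JacRep.Ops
import Fermat.Agent.JacRep.Coh
import Fermat.Agent.JacRep.Degree

/-!
# Twists and the condition of a chart

Tensor identities for bundles, rigidifications over fields (`isRigidified_field`) and along
nilpotent thickenings (`isRigidified_of_thickening`), invariance of `TreeGood`, and `TwistGood`,
the condition of a chart: the twist by a given bundle of the ground field is good along the tree.
-/

set_option autoImplicit false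
set_option linter.style.haveILetI false

noncomputable section

open scoped TensorProduct

universe u

namespace FLTAgent.JacRep.Charts

variable {k : Type u} [Field k] {C : Cover k} {R : Type u} [CommRing R] [Algebra k R]
  {R' : Type u} [CommRing R'] [Algebra k R']

/-- A bundle isomorphic to the trivial one. -/
def IsUnitBundle (U : Bundle C R) : Prop :=
  ∃ (e₀ : U.M₀ ≃ₗ[C.B₀ R] C.B₀ R) (e₁ : U.M₁ ≃ₗ[C.B₁ R] C.B₁ R) (e : U.M ≃ₗ[C.B R] C.B R),
    (∀ m, e (U.ι₀ m) = C.resB₀ R (e₀ m)) ∧ ∀ m, e (U.ι₁ m) = C.resB₁ R (e₁ m)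

/-- The trivial bundle is neutral. -/
theorem isTensor_unit {E U : Bundle C R} (hU : IsUnitBundle U) : Bundle.IsTensor E U E := by
  obtain ⟨e₀, e₁, e, h₀, h₁⟩ := hU
  refine ⟨((LinearMap.lsmul (C.B₀ R) E.M₀).comp e₀.toLinearMap).flip,
    ((LinearMap.lsmul (C.B₁ R) E.M₁).comp e₁.toLinearMap).flip,
    ((LinearMap.lsmul (C.B R) E.M).comp e.toLinearMap).flip, ?_, ?_, fun a b => ?_, fun a b => ?_⟩
  · exact top_unique fun m _ => Submodule.subset_span ⟨m, e₀.symm 1, by simp⟩
  · exact top_unique fun m _ => Submodule.subset_span ⟨m, e₁.symm 1, by simp⟩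
  · show e (U.ι₀ b) • E.ι₀ a = E.ι₀ (e₀ b • a)
    rw [h₀, LinearMap.map_smulₛₗ]
  · show e (U.ι₁ b) • E.ι₁ a = E.ι₁ (e₁ b • a)
    rw [h₁, LinearMap.map_smulₛₗ]

/-- Tensoring with an inverse undoes tensoring. -/
theorem iso_of_tensor_inverse {A B B' U F G : Bundle C R} (hU : IsUnitBundle U)
    (hA : Bundle.IsTensor A B F) (hB : Bundle.IsTensor B B' U) (hG : Bundle.IsTensor F B' G) :
    G.Iso A :=
  Bundle.isTensor_assoc hA hG hB (isTensor_unit hU)

theorem isTensor_of_iso {A B F F' : Bundle C R} (h : Bundle.IsTensor A B F) (e : F.Iso F') :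
    Bundle.IsTensor A B F' := by
  obtain ⟨e₀, e₁, e, h₀, h₁⟩ := e
  obtain ⟨μ₀, μ₁, μ, hs₀, hs₁, hμ₀, hμ₁⟩ := h
  refine ⟨μ₀.compr₂ e₀.toLinearMap, μ₁.compr₂ e₁.toLinearMap, μ.compr₂ e.toLinearMap, ?_, ?_,
    fun a b => ?_, fun a b => ?_⟩
  · refine top_unique fun m _ => ?_
    have hm : e₀.symm m ∈ Submodule.span (C.B₀ R) {z | ∃ a b, μ₀ a b = z} :=
      hs₀ ▸ Submodule.mem_top
    have := Submodule.mem_map_of_mem (f := e₀.toLinearMap) hm
    rw [Submodule.map_span, LinearEquiv.coe_coe, LinearEquiv.apply_symm_apply] at this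
    refine Submodule.span_mono ?_ this
    rintro _ ⟨_, ⟨a, b, rfl⟩, rfl⟩
    exact ⟨a, b, rfl⟩
  · refine top_unique fun m _ => ?_
    have hm : e₁.symm m ∈ Submodule.span (C.B₁ R) {z | ∃ a b, μ₁ a b = z} :=
      hs₁ ▸ Submodule.mem_top
    have := Submodule.mem_map_of_mem (f := e₁.toLinearMap) hm
    rw [Submodule.map_span, LinearEquiv.coe_coe, LinearEquiv.apply_symm_apply] at this
    refine Submodule.span_mono ?_ this
    rintro _ ⟨_, ⟨a, b, rfl⟩, rfl⟩
    exact ⟨a, b, rfl⟩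
  · show e (μ (A.ι₀ a) (B.ι₀ b)) = F'.ι₀ (e₀ (μ₀ a b))
    rw [hμ₀, h₀]
  · show e (μ (A.ι₁ a) (B.ι₁ b)) = F'.ι₁ (e₁ (μ₁ a b))
    rw [hμ₁, h₁]

theorem isTensor_left_cancel {A A' B F F' : Bundle C R} (h : Bundle.IsTensor A B F)
    (h' : Bundle.IsTensor A' B F') (e : F.Iso F') : A.Iso A' := by
  obtain ⟨B', U, hB, hU, -⟩ := Bundle.exists_inverse B
  obtain ⟨G, hG⟩ := Bundle.exists_tensor F B'
  obtain ⟨G', hG'⟩ := Bundle.exists_tensor F' B'
  exact Bundle.iso_trans (Bundle.iso_symm (iso_of_tensor_inverse hU h hB hG))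
    (Bundle.iso_trans (Bundle.isTensor_unique e (Bundle.iso_refl _) hG hG')
      (iso_of_tensor_inverse hU h' hB hG'))

theorem isPullback_id_of_iso {E E' : Bundle C R} (e : E.Iso E') :
    Bundle.IsPullback (AlgHom.id k R) E E' :=
  Bundle.isPullback_of_iso (Bundle.iso_refl E) e (Bundle.isPullback_id E)

theorem euler_iso {K : Type u} [Field K] [Algebra k K] {E E' : Bundle C K} (e : E.Iso E') :
    E'.euler = E.euler :=
  Bundle.euler_pullback (isPullback_id_of_iso e)

theorem treeGood_iso {T : Tree C} {E E' : Bundle C R} (e : E.Iso E') (h : TreeGood T E) :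
    TreeGood T E' := by
  obtain ⟨I, hI⟩ := exists_treeGood_ideal h.1 T
  have hI' : I.map (AlgHom.id k R : R →+* R) = ⊤ :=
    (hI R (AlgHom.id k R) E h.1 (Bundle.isPullback_id E)).mp h
  exact (hI R (AlgHom.id k R) E' ((isPullback_id_of_iso e).acyclic h.1)
    (isPullback_id_of_iso e)).mpr hI'

theorem treeGood_pullback {T : Tree C} {φ : R →ₐ[k] R'} {E : Bundle C R} {E' : Bundle C R'}
    (hP : Bundle.IsPullback φ E E') (h : TreeGood T E) : TreeGood T E' := by
  obtain ⟨I, hI⟩ := exists_treeGood_ideal h.1 T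
  have hI' : I.map (AlgHom.id k R : R →+* R) = ⊤ :=
    (hI R (AlgHom.id k R) E h.1 (Bundle.isPullback_id E)).mp h
  refine (hI R' φ E' (hP.acyclic h.1) hP).mpr ?_
  rw [show I = ⊤ by simpa using hI', Ideal.map_top]

/-- Over a field every bundle is rigidified. -/
theorem isRigidified_field {K : Type u} [Field K] [Algebra k K] (E : Bundle C K) :
    E.IsRigidified := by
  obtain ⟨s, hs⟩ := exists_dual_basis (B := C.B₀ K) (M := E.M₀)
  obtain ⟨p, -, hp⟩ : ∃ p ∈ s, C.baseB K (p.1 p.2) ≠ 0 := by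
    by_contra h
    push Not at h
    have := congrArg (C.baseB K) hs
    rw [map_sum, map_one, Finset.sum_eq_zero h] at this
    exact zero_ne_one this
  refine ⟨⟨⟨fun m => C.baseB K (p.1 m), fun a b => by rw [map_add, map_add]⟩,
    fun c m => by show C.baseB K (p.1 (c • m)) = C.baseB K c • C.baseB K (p.1 m); rw [map_smul, smul_eq_mul, map_mul, smul_eq_mul]⟩, fun r => ?_⟩
  refine ⟨((r * (C.baseB K (p.1 p.2))⁻¹) ⊗ₜ[k] (1 : C.A₀) : C.B₀ K) • p.2, ?_⟩
  show C.baseB K (p.1 (_ • p.2)) = r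
  rw [map_smul, smul_eq_mul, map_mul, baseB_left, mul_assoc, inv_mul_cancel₀ hp, mul_one]

theorem mapB₀_surjective {π : R →ₐ[k] R'} (hπ : Function.Surjective π) :
    Function.Surjective (C.mapB₀ π) := by
  intro b
  induction b using TensorProduct.induction_on with
  | zero => exact ⟨0, map_zero _⟩
  | tmul r a =>
    obtain ⟨r', rfl⟩ := hπ r
    exact ⟨r' ⊗ₜ a, mapB₀_tmul π r' a⟩
  | add a b ha hb =>
    obtain ⟨a', rfl⟩ := ha
    obtain ⟨b', rfl⟩ := hb
    exact ⟨a' + b', map_add _ _ _⟩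

/-- A rigidification lifts along a nilpotent thickening. -/
theorem isRigidified_of_thickening {π : R →ₐ[k] R'} (hπ : Function.Surjective π)
    (hker : RingHom.ker (π : R →+* R') ^ 2 = ⊥) {E : Bundle C R} {E' : Bundle C R'}
    (h : Bundle.IsPullback π E E') (hE : E'.IsRigidified) : E.IsRigidified := by
  obtain ⟨f₀, f₁, f, hs, -, -, -⟩ := h
  obtain ⟨g, hg⟩ := hE
  obtain ⟨v', hv'⟩ := hg 1
  have hsurj : Function.Surjective f₀ := fun w => by
    have hw : w ∈ Submodule.span (C.B₀ R') (Set.range f₀) := hs ▸ Submodule.mem_top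
    induction hw using Submodule.span_induction with
    | mem a ha => exact ha
    | zero => exact ⟨0, map_zero _⟩
    | add a b _ _ ha hb =>
      obtain ⟨a', rfl⟩ := ha
      obtain ⟨b', rfl⟩ := hb
      exact ⟨a' + b', map_add _ _ _⟩
    | smul c a _ ha =>
      obtain ⟨a', rfl⟩ := ha
      obtain ⟨c', rfl⟩ := mapB₀_surjective hπ c
      exact ⟨c' • a', LinearMap.map_smulₛₗ _ _ _⟩
  obtain ⟨v, rfl⟩ := hsurj v'
  obtain ⟨s, hs'⟩ := exists_dual_basis (B := C.B₀ R) (M := E.M₀)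
  choose c hc using fun m : E.M₀ => hπ (g (f₀ m))
  let ev : E.M₀ →ₛₗ[C.baseB R] R :=
    { toFun := fun m => ∑ p ∈ s, c p.2 * C.baseB R (p.1 m)
      map_add' := fun a b => by simp [mul_add, Finset.sum_add_distrib]
      map_smul' := fun r m => by
        simp only [map_smul, smul_eq_mul, map_mul, Finset.mul_sum, mul_left_comm] }
  have hval : π (ev v) = 1 := by
    show π (∑ p ∈ s, c p.2 * C.baseB R (p.1 v)) = 1
    rw [map_sum, ← map_one π, ← map_one (C.baseB R), ← hs', map_sum, map_sum]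
    refine Finset.sum_congr rfl fun p _ => ?_
    have e := congrArg f₀ (dual_smul_comm p.1 v p.2)
    rw [LinearMap.map_smulₛₗ, LinearMap.map_smulₛₗ] at e
    have e' := congrArg g e
    rw [LinearMap.map_smulₛₗ, LinearMap.map_smulₛₗ, hv', smul_eq_mul, smul_eq_mul, mul_one,
      baseB_mapB₀, baseB_mapB₀] at e'
    rw [map_mul, hc, mul_comm]
    exact e'
  have hu : IsUnit (ev v) := by
    have hn : IsNilpotent (ev v - 1) := ⟨2, by
      have h2 : (ev v - 1) ^ 2 ∈ RingHom.ker (π : R →+* R') ^ 2 :=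
        Ideal.pow_mem_pow (by rw [RingHom.mem_ker, map_sub, map_one, RingHom.coe_coe, hval,
          sub_self]) 2
      rwa [hker] at h2⟩
    simpa using hn.isUnit_add_one
  refine ⟨ev, fun r => ⟨((r * ↑hu.unit⁻¹) ⊗ₜ[k] (1 : C.A₀) : C.B₀ R) • v, ?_⟩⟩
  rw [LinearMap.map_smulₛₗ, baseB_left, smul_eq_mul, mul_assoc, IsUnit.val_inv_mul, mul_one]

/-- The condition of a chart: the twist by the given bundle of the ground field is good. -/
def TwistGood (T : Tree C) (E₀ : Bundle C k) (R : Type u) [CommRing R] [Algebra k R]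
    (E : Bundle C R) : Prop :=
  ∃ E₀' F : Bundle C R, Bundle.IsPullback (Algebra.ofId k R) E₀ E₀' ∧ Bundle.IsTensor E E₀' F ∧
    TreeGood T F

theorem twistGood_iff {T : Tree C} {E₀ : Bundle C k} {E E₀' F : Bundle C R}
    (h₀ : Bundle.IsPullback (Algebra.ofId k R) E₀ E₀') (hF : Bundle.IsTensor E E₀' F) :
    TwistGood T E₀ R E ↔ TreeGood T F :=
  ⟨fun ⟨_, _, h₀', hF', h⟩ => treeGood_iso (Bundle.isTensor_unique (Bundle.iso_refl E)
      (Bundle.isPullback_unique (Bundle.iso_refl E₀) h₀' h₀) hF' hF) h,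
    fun h => ⟨E₀', F, h₀, hF, h⟩⟩

theorem isPullback_ofId_comp {φ : R →ₐ[k] R'} {E₀ : Bundle C k} {G : Bundle C R}
    {G' : Bundle C R'} (h : Bundle.IsPullback (Algebra.ofId k R) E₀ G)
    (h' : Bundle.IsPullback φ G G') : Bundle.IsPullback (Algebra.ofId k R') E₀ G' := by
  rw [show Algebra.ofId k R' = φ.comp (Algebra.ofId k R) from AlgHom.ext fun c => (φ.commutes c).symm]
  exact Bundle.isPullback_comp h h'

/-- The twist of a degree zero bundle by a bundle of Euler characteristic zero has Euler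
characteristic zero. -/
theorem euler_twist {K : Type u} [Field K] [Algebra k K] {E₀ : Bundle C k} (hE₀ : E₀.euler = 0)
    {E E₀' F : Bundle C K} (h₀ : Bundle.IsPullback (Algebra.ofId k K) E₀ E₀')
    (hF : Bundle.IsTensor E E₀' F) {U : Bundle C K} (hU : IsUnitBundle U) :
    F.euler + U.euler = E.euler := by
  rw [Bundle.euler_tensor C E E₀' F U hF hU, Bundle.euler_pullback h₀, hE₀, add_zero]

end FLTAgent.JacRep.Charts
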