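import Fermat.Agent.JacRep.Charts.Realize
import Fermat.Agent.JacRep.Charts.MatInv
import Mathlib.Algebra.Polynomial.Reverse
import Mathlib.RingTheory.Flat.Basic

/-!
# Every point of a chart is realised

`exists_bundle_of_pt`: every point is the point of a rigidified bundle.  The model `modelBundle`
has two polynomial modules on which the chart functions act by the matrices of the point and by
their reflections; these are invertible by `invertible_matMod`, glue to an acyclic bundle, and
the standard vectors form the frame.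
-/

set_option autoImplicit false
set_option linter.style.haveILetI false

noncomputable section

open scoped TensorProduct Polynomial

universe u

namespace FLTAgent.JacRep.Charts

variable {k : Type u} [Field k] {C : Cover k} {R : Type u} [CommRing R] [Algebra k R]

theorem resB₀_injective : Function.Injective (C.resB₀ R) := by
  have h0 : Function.Injective C.res₀ := by
    letI := C.res₀.toRingHom.toAlgebra
    haveI : IsLocalization.Away C.x C.A := C.away₀
    refine IsLocalization.injective C.A (M := Submonoid.powers C.x) ?_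
    rintro _ ⟨n, rfl⟩
    have hx : C.x ∈ nonZeroDivisors C.A₀ := by
      rw [mem_nonZeroDivisors_iff_right]
      intro a ha
      have h1 : coords C (a * C.x) = fun i => coords C a i * Polynomial.X := by
        refine (coords C).symm.injective ?_
        rw [LinearEquiv.symm_apply_apply]
        conv_lhs => rw [eq_sum_coords a, Finset.sum_mul]
        simp [coords, LinearMap.sum_apply, mul_right_comm]
      rw [ha, map_zero] at h1
      refine (coords C).injective (funext fun i => ?_)
      rw [map_zero, Pi.zero_apply]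
      exact (mul_eq_zero.mp (congrFun h1 i).symm).resolve_right Polynomial.X_ne_zero
    exact pow_mem hx n
  exact Module.Flat.lTensor_preserves_injective_linearMap (M := R) C.res₀.toLinearMap h0

/-- An element of the kernel of a normalised functional lies in `ker • ⊤`. -/
theorem exists_unit_scalar {E : Bundle C R} (f : E.M₀ →ₛₗ[C.baseB R] R) {v : E.M₀} (hv : f v = 1)
    (m : E.M₀) : ∃ b : C.B₀ R, C.baseB R b = f m ∧
      m - b • v ∈ RingHom.ker (C.baseB R) • (⊤ : Submodule (C.B₀ R) E.M₀) := by
  obtain ⟨s, hs⟩ := exists_dual_basis (B := C.B₀ R) (M := E.M₀)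
  let cu : E.M₀ → C.B₀ R := fun u => ∑ p ∈ s, (f p.2 ⊗ₜ[k] (1 : C.A₀)) * p.1 u
  have hbase : ∀ u, C.baseB R (cu u) = f u := fun u => by
    have hu : u = ∑ p ∈ s, p.1 u • p.2 := by
      rw [← Finset.sum_congr rfl fun p _ => dual_smul_comm p.1 p.2 u, ← Finset.sum_smul, hs,
        one_smul]
    conv_rhs => rw [hu]
    simp only [cu, map_sum, map_mul, baseB_left, LinearMap.map_smulₛₗ, smul_eq_mul, mul_comm]
  refine ⟨cu m, hbase m, ?_⟩
  have hsym : cu m • v = cu v • m := by
    simp only [cu, Finset.sum_smul, mul_smul]
    exact Finset.sum_congr rfl fun p _ => by rw [dual_smul_comm]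
  rw [hsym]
  rw [show m - cu v • m = (1 - cu v) • m by rw [sub_smul, one_smul]]
  exact Submodule.smul_mem_smul
    (by rw [RingHom.mem_ker, map_sub, hbase, hv, map_one, sub_self]) Submodule.mem_top

section Build

variable {T : Tree C} (p : Pt T R)

/-- The matrices on the first chart. -/
def dataZero : MatData (k := k) C.A₀ C.rank R :=
  ⟨C.x, C.basis₀, C.basis₀_bijective, p.mat, p.mat_x⟩

local notation "N₀" => MatMod (dataZero p)

/-- The standard vectors. -/
def stdVec (i : Fin C.rank) : N₀ := (dataZero p).vec.symm (Pi.single i 1)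

theorem vec_sum_evX (v : Fin C.rank → R[X]) :
    ∑ i, evX C R (v i) • stdVec p i = (dataZero p).vec.symm v := by
  refine (dataZero p).vec.injective ?_
  rw [map_sum, AddEquiv.apply_symm_apply]
  conv_rhs => rw [← Finset.univ_sum_single v]
  refine Finset.sum_congr rfl fun i _ => ?_
  rw [show evX C R (v i) = (dataZero p).evT (v i) from rfl, (dataZero p).vec_evT_smul, stdVec,
    AddEquiv.apply_symm_apply, ← Pi.single_smul, smul_eq_mul, mul_one]

/-- The overlap of the model. -/
abbrev OverlapMod : Type u :=
  letI := (C.resB₀ R).toAlgebra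
  C.B R ⊗[C.B₀ R] N₀

/-- Restriction of the first chart of the model. -/
def iotaZero : N₀ →ₛₗ[C.resB₀ R] OverlapMod p :=
  letI := (C.resB₀ R).toAlgebra
  { toFun := fun m => (1 : C.B R) ⊗ₜ[C.B₀ R] m
    map_add' := fun a b => TensorProduct.tmul_add _ a b
    map_smul' := fun b m => by
      rw [TensorProduct.tmul_smul, ← algebraMap_smul (C.B R) b]
      rfl }

theorem iotaZero_evX_smul (q : R[X]) (m : N₀) :
    iotaZero p (evX C R q • m) = C.resB₀ R (evX C R q) • iotaZero p m :=
  LinearMap.map_smulₛₗ _ _ _

/-- Restriction of the second chart of the model. -/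
def embOne : (Fin C.rank → R[X]) →+ OverlapMod p where
  toFun c := ∑ i, C.resB₁ R (evY C R (c i)) • yT C R • iotaZero p (stdVec p i)
  map_zero' := by simp
  map_add' a b := by simp [add_smul, Finset.sum_add_distrib]

theorem embOne_smul (q : R[X]) (c : Fin C.rank → R[X]) :
    embOne p (fun i => q * c i) = C.resB₁ R (evY C R q) • embOne p c := by
  simp [embOne, Finset.smul_sum, smul_smul, mul_assoc]

theorem resB₀_evX_monomial (d : ℕ) (r : R) :
    C.resB₀ R (evX C R (Polynomial.monomial d r)) =
      C.resB₀ R (r ⊗ₜ[k] 1) * xT C R ^ d := by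
  rw [evX_monomial, map_mul, map_pow]; rfl

theorem resB₁_evY_monomial (d : ℕ) (r : R) :
    C.resB₁ R (evY C R (Polynomial.monomial d r)) =
      C.resB₀ R (r ⊗ₜ[k] 1) * yT C R ^ d := by
  simp [evY, resB₀_tmul, resB₁_tmul, yT]

/-- Reflection of polynomials of bounded degree exchanges the two charts. -/
theorem pow_smul_embOne {N : ℕ} (c : Fin C.rank → R[X]) (hc : ∀ i, (c i).natDegree ≤ N) :
    xT C R ^ (N + 1) • embOne p c =
      iotaZero p ((dataZero p).vec.symm fun i => Polynomial.reflect N (c i)) := by
  rw [← vec_sum_evX, map_sum]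
  simp only [embOne, AddMonoidHom.coe_mk, ZeroHom.coe_mk, Finset.smul_sum, iotaZero_evX_smul,
    smul_smul]
  refine Finset.sum_congr rfl fun i _ => ?_
  congr 1
  conv_lhs => rw [(c i).as_sum_range' (N + 1) (Nat.lt_succ_of_le (hc i))]
  conv_rhs => rw [(c i).as_sum_range' (N + 1) (Nat.lt_succ_of_le (hc i))]
  have hsum : Polynomial.reflect N
      (∑ d ∈ Finset.range (N + 1), Polynomial.monomial d ((c i).coeff d)) =
      ∑ d ∈ Finset.range (N + 1), Polynomial.monomial (N - d) ((c i).coeff d) := by
    refine Finset.induction_on' (Finset.range (N + 1)) (by simp) fun {a s} ha _ has ih => ?_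
    rw [Finset.sum_insert has, Finset.sum_insert has, Polynomial.reflect_add, ih,
      ← Polynomial.C_mul_X_pow_eq_monomial, Polynomial.reflect_C_mul_X_pow,
      Polynomial.revAt_le (Nat.lt_succ_iff.mp (Finset.mem_range.mp ha)),
      Polynomial.C_mul_X_pow_eq_monomial]
  rw [hsum, map_sum, map_sum, map_sum, map_sum, Finset.sum_mul, Finset.mul_sum]
  refine Finset.sum_congr rfl fun d hd => ?_
  rw [resB₁_evY_monomial, resB₀_evX_monomial]
  have e : xT C R ^ (N + 1) * yT C R ^ (d + 1) = xT C R ^ (N - d) := by
    rw [show N + 1 = (N - d) + (d + 1) by have := Finset.mem_range.mp hd; omega, pow_add, mul_assoc,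
      ← mul_pow, xT_mul_yT, one_pow, mul_one]
  rw [← e]
  ring

theorem exists_degree_bound (c : Fin C.rank → R[X]) : ∃ N, ∀ i, (c i).natDegree ≤ N :=
  ⟨Finset.univ.sup fun i => (c i).natDegree,
    fun i => Finset.le_sup (f := fun i => (c i).natDegree) (Finset.mem_univ i)⟩

variable [Infinite k]

include p in
theorem invertible_zero : Module.Invertible (C.B₀ R) N₀ :=
  invertible_matMod (dataZero p) C.dedekind₀

theorem iotaZero_injective : Function.Injective (iotaZero p) := by
  letI := (C.resB₀ R).toAlgebra
  haveI := invertible_zero p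
  intro a b h
  have hinj := Module.Flat.rTensor_preserves_injective_linearMap (M := N₀)
    (Algebra.linearMap (C.B₀ R) (C.B R)) resB₀_injective
  have h' : (Algebra.linearMap (C.B₀ R) (C.B R)).rTensor N₀ ((1 : C.B₀ R) ⊗ₜ a) =
      (Algebra.linearMap (C.B₀ R) (C.B R)).rTensor N₀ ((1 : C.B₀ R) ⊗ₜ b) := by
    simp only [LinearMap.rTensor_tmul, Algebra.linearMap_apply, map_one]
    exact h
  simpa using congrArg (TensorProduct.lid (C.B₀ R) N₀) (hinj h')

theorem embOne_injective : Function.Injective (embOne p) := by
  refine (injective_iff_map_eq_zero _).mpr fun c h => ?_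
  obtain ⟨N, hN⟩ := exists_degree_bound c
  have h' := pow_smul_embOne p c hN
  rw [h, smul_zero, ← map_zero (iotaZero p)] at h'
  have h'' := congrArg (dataZero p).vec (iotaZero_injective p h')
  rw [map_zero, AddEquiv.apply_symm_apply] at h''
  exact funext fun i => Polynomial.reflect_eq_zero_iff.mp (congrFun h'' i).symm

omit [Infinite k] in
theorem iotaZero_mem_range {N : ℕ} (v : Fin C.rank → R[X]) (hv : ∀ i, (v i).natDegree ≤ N) :
    embOne p (fun i => Polynomial.reflect N (v i)) =
      yT C R ^ (N + 1) • iotaZero p ((dataZero p).vec.symm v) := by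
  have h := pow_smul_embOne p (N := N) (fun i => Polynomial.reflect N (v i))
    fun i => Polynomial.natDegree_reflect_le.trans (max_le le_rfl (hv i))
  simp only [Polynomial.reflect_reflect] at h
  rw [← h, smul_smul, ← mul_pow, yT_mul_xT, one_pow, one_smul]

omit [Infinite k] in
theorem exists_colOne (a : C.A₁) (j : Fin C.rank) :
    ∃ c, embOne p c = C.resB₁ R ((1 : R) ⊗ₜ[k] a) • embOne p (Pi.single j 1) := by
  letI := C.res₀.toRingHom.toAlgebra
  haveI : IsLocalization.Away C.x C.A := C.away₀
  obtain ⟨N, a₀, h⟩ := IsLocalization.Away.surj C.x (C.res₁ a)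
  have h' : C.res₀ a₀ = C.res₀ C.x ^ N * C.res₁ a := (h : _ = C.res₀ a₀).symm.trans (mul_comm _ _)
  refine ⟨fun i => Polynomial.reflect N (p.mat a₀ i j), ?_⟩
  have hdeg : ∀ i, (p.mat a₀ i j).natDegree ≤ N := fun i =>
    Polynomial.natDegree_le_iff_coeff_eq_zero.mpr fun d hd => p.pole a₀ N ⟨a, h'⟩ i j d hd
  rw [iotaZero_mem_range p (fun i => p.mat a₀ i j) hdeg]
  have hcol : (dataZero p).vec.symm (fun i => p.mat a₀ i j) =
      ((1 : R) ⊗ₜ[k] a₀ : C.B₀ R) • stdVec p j := by
    refine (dataZero p).vec.injective ?_
    rw [AddEquiv.apply_symm_apply, (dataZero p).vec_smul, (dataZero p).rep_tmul, one_smul, stdVec,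
      AddEquiv.apply_symm_apply, Matrix.mulVec_single_one]
    rfl
  have he : embOne p (Pi.single j 1) = yT C R • iotaZero p (stdVec p j) := by
    simp only [embOne, AddMonoidHom.coe_mk, ZeroHom.coe_mk]
    rw [Finset.sum_eq_single j (fun i _ hi => by simp [Pi.single_eq_of_ne hi]) (by simp)]
    simp
  rw [hcol, LinearMap.map_smulₛₗ, he, smul_smul, smul_smul]
  congr 1
  rw [resB₀_tmul, h', resB₁_tmul,
    show (1 : R) ⊗ₜ[k] (C.res₀ C.x ^ N * C.res₁ a) = xT C R ^ N * ((1 : R) ⊗ₜ[k] C.res₁ a) by
      rw [xT, Cover.xB, resB₀_tmul, Algebra.TensorProduct.tmul_pow,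
        Algebra.TensorProduct.tmul_mul_tmul, one_pow, one_mul],
    ← mul_assoc, pow_succ', mul_assoc (yT C R), ← mul_pow, yT_mul_xT, one_pow, mul_one, mul_comm]

/-- The columns of the second chart functions. -/
def matOneFun (a : C.A₁) : PolyMat C R := fun i j => (exists_colOne p a j).choose i

omit [Infinite k] in
theorem embOne_matOneFun (a : C.A₁) (c : Fin C.rank → R[X]) :
    embOne p ((matOneFun p a).mulVec c) = C.resB₁ R ((1 : R) ⊗ₜ[k] a) • embOne p c := by
  have hcol : ∀ j, embOne p (fun i => matOneFun p a i j) =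
      C.resB₁ R ((1 : R) ⊗ₜ[k] a) • embOne p (Pi.single j 1) :=
    fun j => (exists_colOne p a j).choose_spec
  have h1 : (matOneFun p a).mulVec c = ∑ j, fun i => c j * matOneFun p a i j := by
    funext i
    simp [Matrix.mulVec, dotProduct, mul_comm]
  have h2 : c = ∑ j, fun i => c j * (Pi.single j (1 : R[X]) : Fin C.rank → R[X]) i := by
    funext i
    simp [Pi.single_apply]
  rw [h1, map_sum]
  conv_rhs => rw [h2, map_sum, Finset.smul_sum]
  refine Finset.sum_congr rfl fun j _ => ?_
  rw [embOne_smul, embOne_smul, hcol, smul_comm]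

omit [Infinite k] in
theorem resB₁_tmul_one (c : k) :
    C.resB₁ R ((1 : R) ⊗ₜ[k] algebraMap k C.A₁ c) = C.resB₁ R (evY C R (Polynomial.C
      (algebraMap k R c))) := by
  simp [evY, ← Algebra.TensorProduct.tmul_one_eq_one_tmul]

theorem matOne_ext {M M' : PolyMat C R} (h : ∀ c, embOne p (M.mulVec c) = embOne p (M'.mulVec c)) :
    M = M' :=
  Matrix.ext_of_mulVec_single fun _ => embOne_injective p (h _)

theorem matOne_add (a b : C.A₁) : matOneFun p (a + b) = matOneFun p a + matOneFun p b :=
  matOne_ext p fun c => by
    rw [Matrix.add_mulVec, map_add, embOne_matOneFun, embOne_matOneFun, embOne_matOneFun,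
      TensorProduct.tmul_add, map_add, add_smul]

theorem matOne_mul (a b : C.A₁) : matOneFun p (a * b) = matOneFun p a * matOneFun p b :=
  matOne_ext p fun c => by
    rw [← Matrix.mulVec_mulVec, embOne_matOneFun, embOne_matOneFun, embOne_matOneFun, smul_smul,
      ← map_mul, Algebra.TensorProduct.tmul_mul_tmul, one_mul]

theorem matOne_algebraMap (c : k) :
    matOneFun p (algebraMap k C.A₁ c) = algebraMap k (PolyMat C R) c :=
  matOne_ext p fun v => by
    rw [embOne_matOneFun, resB₁_tmul_one, ← embOne_smul]
    congr 1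
    funext i
    rw [Matrix.algebraMap_eq_diagonal, Matrix.mulVec_diagonal]
    simp [Pi.algebraMap_apply, Polynomial.algebraMap_apply]

/-- The matrices on the second chart. -/
def dataOne : MatData (k := k) C.A₁ C.rank R where
  t := C.y
  bas := C.basis₁
  bij := C.basis₁_bijective
  mat :=
    { toFun := matOneFun p
      map_one' := by simpa using matOne_algebraMap p 1
      map_mul' := matOne_mul p
      map_zero' := by simpa using matOne_algebraMap p 0
      map_add' := matOne_add p
      commutes' := matOne_algebraMap p }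
  mat_t := matOne_ext p fun c => by
    show embOne p ((matOneFun p C.y).mulVec c) = _
    rw [embOne_matOneFun, show ((1 : R) ⊗ₜ[k] C.y : C.B₁ R) = evY C R Polynomial.X by
      simp [evY, Cover.yB], ← embOne_smul]
    congr 1
    funext i
    rw [Matrix.mulVec_diagonal]

theorem invertible_one : Module.Invertible (C.B₁ R) (MatMod (dataOne p)) :=
  invertible_matMod (dataOne p) C.dedekind₁

theorem invertible_overlap : Module.Invertible (C.B R) (OverlapMod p) := by
  letI := (C.resB₀ R).toAlgebra
  haveI := invertible_zero p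
  infer_instance

/-- The restriction of the second chart, semilinearly. -/
def iotaOne : MatMod (dataOne p) →ₛₗ[C.resB₁ R] OverlapMod p where
  toFun m := embOne p ((dataOne p).vec m)
  map_add' a b := by rw [map_add, map_add]
  map_smul' b m := by
    induction b using TensorProduct.induction_on with
    | zero => simp
    | tmul r a =>
      rw [(dataOne p).vec_smul, (dataOne p).rep_tmul, Matrix.smul_mulVec,
        show (r • ((dataOne p).mat a).mulVec ((dataOne p).vec m) : Fin C.rank → R[X]) =
          fun i => Polynomial.C r * (matOneFun p a).mulVec ((dataOne p).vec m) i from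
          funext fun i => Polynomial.smul_eq_C_mul r,
        embOne_smul, embOne_matOneFun, smul_smul, ← map_mul]
      congr 2
      simp [evY]
    | add b b' hb hb' => rw [add_smul, map_add, map_add, hb, hb', map_add, add_smul]

/-- The bundle of a point. -/
def modelBundle : Bundle C R :=
  haveI := invertible_zero p
  haveI := invertible_one p
  haveI := invertible_overlap p
  { M₀ := N₀
    M₁ := MatMod (dataOne p)
    M := OverlapMod p
    ι₀ := iotaZero p
    ι₁ := iotaOne p
    inj₀ := iotaZero_injective p
    inj₁ := fun a b h => (dataOne p).vec.injective (embOne_injective p h)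
    loc₀ := fun m => by
      letI := (C.resB₀ R).toAlgebra
      induction m using TensorProduct.induction_on with
      | zero => exact ⟨0, 0, by simp⟩
      | tmul b m =>
        obtain ⟨n, b₀, hb⟩ := exists_resB₀_eq b
        refine ⟨n, b₀ • m, ?_⟩
        rw [LinearMap.map_smulₛₗ, ← hb, TensorProduct.smul_tmul', smul_eq_mul]
        show _ = (xT C R ^ n * b) • ((1 : C.B R) ⊗ₜ[C.B₀ R] m)
        rw [TensorProduct.smul_tmul', smul_eq_mul, mul_one]
        rfl
      | add a b ha hb =>
        obtain ⟨n, a₀, ha⟩ := ha
        obtain ⟨l, b₀, hb⟩ := hb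
        refine ⟨n + l, C.xB R ^ l • a₀ + C.xB R ^ n • b₀, ?_⟩
        rw [map_add, LinearMap.map_smulₛₗ, LinearMap.map_smulₛₗ, map_pow, map_pow, ← ha, ← hb,
          smul_smul, smul_smul, ← pow_add, ← pow_add, smul_add, add_comm l n]
    loc₁ := fun m => by
      letI := (C.resB₀ R).toAlgebra
      suffices h : ∃ (n : ℕ) (v : N₀), xT C R ^ n • m = iotaZero p v by
        obtain ⟨n, v, hv⟩ := h
        obtain ⟨N, hN⟩ := exists_degree_bound ((dataZero p).vec v)
        refine ⟨N + 1, (dataOne p).vec.symm fun i =>
          Polynomial.X ^ n * Polynomial.reflect N ((dataZero p).vec v i), ?_⟩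
        show _ = embOne p ((dataOne p).vec ((dataOne p).vec.symm _))
        rw [AddEquiv.apply_symm_apply, embOne_smul, iotaZero_mem_range p ((dataZero p).vec v) hN,
          AddEquiv.symm_apply_apply, ← hv, smul_smul, smul_smul, map_pow, map_pow,
          show evY C R Polynomial.X = C.yB R by simp [evY],
          show C.resB₁ R (C.yB R) = yT C R from rfl]
        congr 1
        rw [mul_right_comm, ← mul_pow, yT_mul_xT, one_pow, one_mul]
      induction m using TensorProduct.induction_on with
      | zero => exact ⟨0, 0, by simp⟩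
      | tmul b m =>
        obtain ⟨n, b₀, hb⟩ := exists_resB₀_eq b
        refine ⟨n, b₀ • m, ?_⟩
        rw [LinearMap.map_smulₛₗ, ← hb]
        show _ = (xT C R ^ n * b) • ((1 : C.B R) ⊗ₜ[C.B₀ R] m)
        rw [TensorProduct.smul_tmul', TensorProduct.smul_tmul', smul_eq_mul, smul_eq_mul, mul_one]
      | add a b ha hb =>
        obtain ⟨n, a₀, ha⟩ := ha
        obtain ⟨l, b₀, hb⟩ := hb
        refine ⟨n + l, C.xB R ^ l • a₀ + C.xB R ^ n • b₀, ?_⟩
        rw [map_add, LinearMap.map_smulₛₗ, LinearMap.map_smulₛₗ, map_pow, map_pow, ← ha, ← hb,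
          show C.resB₀ R (C.xB R) = xT C R from rfl, smul_smul, smul_smul, ← pow_add, ← pow_add,
          smul_add, add_comm l n] }

theorem exists_shift (m : OverlapMod p) :
    ∃ (n : ℕ) (v : N₀), xT C R ^ n • m = iotaZero p v :=
  (modelBundle p).loc₀ m

theorem modelBundle_acyclic : (modelBundle p).Acyclic := by
  constructor
  · refine (injective_iff_map_eq_zero _).mpr fun z hz => ?_
    suffices key : ∀ (a : N₀) (b : MatMod (dataOne p)),
        iotaZero p a = embOne p ((dataOne p).vec b) → a = 0 ∧ b = 0 by
      obtain ⟨h1, h2⟩ := key z.1 z.2 (sub_eq_zero.mp hz)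
      exact Prod.ext h1 h2
    intro a b h
    obtain ⟨N, hN⟩ := exists_degree_bound ((dataOne p).vec b)
    have h1 := pow_smul_embOne p _ hN
    rw [← h, show xT C R = C.resB₀ R (C.xB R) from rfl, ← map_pow,
      ← LinearMap.map_smulₛₗ] at h1
    have h2 := congrArg (dataZero p).vec (iotaZero_injective p h1)
    rw [show C.xB R ^ (N + 1) = (dataZero p).evT (Polynomial.X ^ (N + 1)) by
      simp [MatData.evT, dataZero, Cover.xB], (dataZero p).vec_evT_smul,
      AddEquiv.apply_symm_apply] at h2
    have ha : a = 0 := by
      refine (dataZero p).vec.injective (funext fun i => Polynomial.ext fun d => ?_)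
      have h3 := congrArg (Polynomial.coeff · (d + (N + 1))) (congrFun h2 i)
      simp only [Pi.smul_apply, smul_eq_mul, Polynomial.coeff_X_pow_mul] at h3
      rw [h3, Polynomial.coeff_reflect, Polynomial.revAt_eq_self_of_lt (by omega),
        Polynomial.coeff_eq_zero_of_natDegree_lt (lt_of_le_of_lt (hN i) (by omega)), map_zero,
        Pi.zero_apply, Polynomial.coeff_zero]
    subst ha
    rw [map_zero, eq_comm] at h
    have hb : (dataOne p).vec b = 0 := embOne_injective p (h.trans (map_zero _).symm)
    exact ⟨rfl, (dataOne p).vec.injective (hb.trans (map_zero _).symm)⟩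
  · suffices key : ∀ m : OverlapMod p, ∃ z : N₀ × MatMod (dataOne p),
        iotaZero p z.1 - embOne p ((dataOne p).vec z.2) = m from key
    intro m
    obtain ⟨n, v, hv⟩ := exists_shift p m
    set w := (dataZero p).vec v with hw
    set M := (Polynomial.X ^ (n + 1) : R[X]) with hM
    have hmonic : (M : R[X]).Monic := Polynomial.monic_X_pow _
    set hi : N₀ := (dataZero p).vec.symm fun i => (Polynomial.X * w i) /ₘ M
    set lo : Fin C.rank → R[X] := fun i => (Polynomial.X * w i) %ₘ M with hlodef
    have hlo : ∀ i, (lo i).natDegree ≤ n := fun i => by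
      rcases subsingleton_or_nontrivial R with hs | hs
      · simp [Subsingleton.elim (lo i) 0]
      · have h1 : M ≠ (1 : R[X]) := fun h => by
          have := congrArg Polynomial.natDegree h
          rw [hM, Polynomial.natDegree_X_pow, Polynomial.natDegree_one] at this
          omega
        have := Polynomial.natDegree_modByMonic_lt (Polynomial.X * w i) hmonic h1
        rw [hM, Polynomial.natDegree_X_pow] at this
        simp only [hlodef, hM]
        omega
    refine ⟨(hi, -(dataOne p).vec.symm fun i => Polynomial.reflect n (lo i)), ?_⟩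
    show iotaZero p hi - embOne p ((dataOne p).vec (-(dataOne p).vec.symm _)) = m
    rw [map_neg, map_neg, AddEquiv.apply_symm_apply, iotaZero_mem_range p lo hlo, sub_neg_eq_add]
    have h1 : xT C R ^ (n + 1) • m = iotaZero p (C.xB R • v) := by
      rw [LinearMap.map_smulₛₗ, ← hv, smul_smul, show C.resB₀ R (C.xB R) = xT C R from rfl, ← pow_succ']
    have h2 : C.xB R • v = C.xB R ^ (n + 1) • hi + (dataZero p).vec.symm lo := by
      refine (dataZero p).vec.injective ?_
      rw [show C.xB R ^ (n + 1) = (dataZero p).evT (Polynomial.X ^ (n + 1)) by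
          simp [MatData.evT, dataZero, Cover.xB],
        show C.xB R = (dataZero p).evT Polynomial.X by simp [MatData.evT, dataZero, Cover.xB],
        map_add, (dataZero p).vec_evT_smul, (dataZero p).vec_evT_smul, AddEquiv.apply_symm_apply,
        AddEquiv.apply_symm_apply]
      funext i
      show Polynomial.X * w i = M * ((Polynomial.X * w i) /ₘ M) + lo i
      rw [add_comm, hlodef, Polynomial.modByMonic_add_div (p := Polynomial.X * w i) (q := M)]
    have h3 := congrArg (yT C R ^ (n + 1) • ·) h1
    simp only [smul_smul, ← mul_pow, yT_mul_xT, one_pow, one_smul] at h3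
    rw [h3, h2, map_add, LinearMap.map_smulₛₗ, map_pow, smul_add, smul_smul,
      show C.resB₀ R (C.xB R) = xT C R from rfl, ← mul_pow, yT_mul_xT, one_pow, one_smul]

/-- Evaluation at the rigidifying point, paired with the base values of a point. -/
def evalRow (v : Fin C.rank → R[X]) : R :=
  ∑ i, (v i).eval (algebraMap k R (C.base C.x)) * p.b i

omit [Infinite k] in
theorem evalRow_add (v w : Fin C.rank → R[X]) : evalRow p (v + w) = evalRow p v + evalRow p w := by
  simp [evalRow, add_mul, Finset.sum_add_distrib]

omit [Infinite k] in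
theorem evalRow_mat (a : C.A₀) (v : Fin C.rank → R[X]) :
    evalRow p ((p.mat a).mulVec v) = algebraMap k R (C.base a) * evalRow p v := by
  simp only [evalRow, Matrix.mulVec, dotProduct, Polynomial.eval_finsetSum, Polynomial.eval_mul,
    Finset.sum_mul, Finset.mul_sum]
  rw [Finset.sum_comm]
  refine Finset.sum_congr rfl fun j _ => ?_
  rw [mul_left_comm, ← p.rigid a j, Finset.mul_sum]
  exact Finset.sum_congr rfl fun i _ => by ring

omit [Infinite k] in
/-- The rigidification on the first chart of the model. -/
def rigidZero : N₀ →ₛₗ[C.baseB R] R where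
  toFun m := evalRow p ((dataZero p).vec m)
  map_add' a b := by rw [map_add, evalRow_add]
  map_smul' c m := by
    induction c using TensorProduct.induction_on with
    | zero => rw [zero_smul, map_zero, map_zero, zero_smul]; simp [evalRow]
    | tmul r a =>
      rw [(dataZero p).vec_smul, (dataZero p).rep_tmul, Matrix.smul_mulVec, baseB_tmul]
      rw [show (dataZero p).mat a = p.mat a from rfl, smul_eq_mul]
      have h : ∀ w, evalRow p (r • w) = r * evalRow p w := fun w => by
        simp [evalRow, Finset.mul_sum, mul_assoc]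
      rw [h, evalRow_mat]
      ring
    | add a b ha hb => rw [add_smul, map_add, evalRow_add, ha, hb, map_add, add_smul]

/-- The rigidification of the model. -/
def modelRigid : (modelBundle p).M₀ →ₛₗ[C.baseB R] R := rigidZero p

theorem modelRigid_std (i : Fin C.rank) : modelRigid p (stdVec p i) = p.b i := by
  show ∑ j, ((dataZero p).vec (stdVec p i) j).eval _ * p.b j = _
  rw [stdVec, AddEquiv.apply_symm_apply,
    Finset.sum_eq_single i (fun j _ h => by simp [Pi.single_eq_of_ne h]) (by simp)]
  simp

omit [Infinite k] in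
theorem evX_mul_smul (q : R[X]) (m : N₀) :
    evX C R (Polynomial.X * q) • m = C.xB R • evX C R q • m := by
  rw [map_mul, mul_smul, show evX C R Polynomial.X = C.xB R by simp [evX]]

omit [Infinite k] in
theorem std_relation (a : C.A₀) (j : Fin C.rank) :
    ((1 : R) ⊗ₜ[k] a : C.B₀ R) • stdVec p j = ∑ i, evX C R (p.mat a i j) • stdVec p i := by
  refine Eq.trans ((dataZero p).vec.injective ?_) (vec_sum_evX p fun i => p.mat a i j).symm
  rw [AddEquiv.apply_symm_apply, (dataZero p).vec_smul, (dataZero p).rep_tmul, one_smul, stdVec,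
    AddEquiv.apply_symm_apply, Matrix.mulVec_single_one]
  rfl

omit [Infinite k] in
theorem std_sep (i : Fin C.rank) :
    sepB C R i • stdVec p i = stdVec p i +
      C.xB R • ∑ l, evX C R (p.mat (sep C i) l i).divX • stdVec p l := by
  rw [show sepB C R i = ((1 : R) ⊗ₜ[k] sep C i : C.B₀ R) from rfl, std_relation, Finset.smul_sum]
  have hc : ∀ l, evX C R (p.mat (sep C i) l i) • stdVec p l =
      evX C R (Polynomial.C ((p.mat (sep C i) l i).coeff 0)) • stdVec p l +
        C.xB R • evX C R (p.mat (sep C i) l i).divX • stdVec p l := fun l => by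
    conv_lhs => rw [← Polynomial.X_mul_divX_add (p.mat (sep C i) l i), map_add, add_smul,
      evX_mul_smul, add_comm]
  simp only [hc, Finset.sum_add_distrib]
  congr 1
  rw [Finset.sum_eq_single i (fun l _ hl => by
    rw [p.coeff_zero, if_neg hl, map_zero, map_zero, zero_smul]) (by simp), p.coeff_zero,
    if_pos rfl, pt_sep, if_pos rfl, map_one, map_one, map_one, one_smul]

theorem std_glue (i : Fin C.rank) :
    iotaZero p (stdVec p i) =
      xT C R • embOne p ((dataOne p).vec ((dataOne p).vec.symm (Pi.single i 1))) := by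
  rw [AddEquiv.apply_symm_apply]
  simp only [embOne, AddMonoidHom.coe_mk, ZeroHom.coe_mk]
  rw [Finset.sum_eq_single i (fun j _ hj => by simp [Pi.single_eq_of_ne hj]) (by simp)]
  simp [smul_smul, xT_mul_yT]

omit [Infinite k] in
theorem rigidZero_std (i : Fin C.rank) : rigidZero p (stdVec p i) = p.b i := by
  show evalRow p ((dataZero p).vec (stdVec p i)) = _
  rw [stdVec, AddEquiv.apply_symm_apply, evalRow,
    Finset.sum_eq_single i (fun j _ h => by simp [Pi.single_eq_of_ne h]) (by simp)]
  simp

omit [Infinite k] in
theorem rigidZero_surjective (r : R) : ∃ m : N₀, rigidZero p m = r :=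
  ⟨(r ⊗ₜ[k] (1 : C.A₀) : C.B₀ R) • stdVec p T.root, by
    rw [LinearMap.map_smulₛₗ, baseB_left, rigidZero_std, p.b_root, smul_eq_mul, mul_one]⟩

/-- The frame vectors inside the model. -/
def modelVec (i : Fin C.rank) : (modelBundle p).M₀ := stdVec p i

/-- **Every point is realised.** -/
theorem exists_bundle_of_pt : ∃ E : Bundle C R, HasPt p E ∧ E.IsRigidified := by
  refine ⟨modelBundle p, ?_, rigidZero p, rigidZero_surjective p⟩
  have hA := modelBundle_acyclic p
  have hb : ∀ i, (modelRigid p) (modelVec p i) = p.b i := rigidZero_std p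
  have hV : ∀ i, modelVec p i ∈ vSub (modelBundle p) := fun i =>
    ⟨(dataOne p).vec.symm (Pi.single i 1), std_glue p i⟩
  have hmem : ∀ i, modelVec p i ∈ piece hA i := fun i =>
    ⟨modelVec p i, (split_unique hA (hV i) (m' := ∑ l, evX C R (p.mat (sep C i) l i).divX •
      modelVec p l) (std_sep p i)).1⟩
  have hsum : ∀ v : (modelBundle p).M₀, ∃ q : Fin C.rank → R[X],
      v = ∑ l, evX C R (q l) • modelVec p l := fun v =>
    ⟨(dataZero p).vec v, ((vec_sum_evX p _).trans ((dataZero p).vec.symm_apply_apply v)).symm⟩
  refine ⟨{ acyclic := hA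
            e := modelVec p
            mem := hmem
            gen := fun i v hv => ?_
            rel := std_relation p
            val := fun i => ?_
            rootOK := ?_ }⟩
  · obtain ⟨q, hq⟩ := hsum v
    refine ⟨C.ptB R i (evX C R (q i)), ?_⟩
    conv_lhs => rw [← (pieceMap_of_mem hA hv i).trans (if_pos rfl), hq, map_sum]
    rw [Finset.sum_eq_single i (fun l _ hl => by
      rw [pieceMap_smul, pieceMap_of_mem hA (hmem l), if_neg (Ne.symm hl), smul_zero]) (by simp),
      pieceMap_smul, pieceMap_of_mem hA (hmem i), if_pos rfl]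
  · obtain ⟨b, hb', hbm⟩ := exists_unit_scalar (modelRigid p) (v := modelVec p T.root)
      (by rw [hb, p.b_root]) (modelVec p i)
    rw [hb] at hb'
    convert Submodule.add_mem _ hbm (Submodule.smul_mem_smul
      (n := modelVec p T.root)
      (show b - (p.b i) ⊗ₜ[k] (1 : C.A₀) ∈ RingHom.ker (C.baseB R) by
        rw [RingHom.mem_ker, map_sub, baseB_left, hb', sub_self]) Submodule.mem_top) using 1
    rw [sub_smul, smul_R_def]
    abel
  · rw [RootOK, eq_top_iff]
    intro m _
    obtain ⟨b, -, hbm⟩ := exists_unit_scalar (modelRigid p) (v := modelVec p T.root)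
      (by rw [hb, p.b_root]) m
    rw [← add_sub_cancel (b • modelVec p T.root) m]
    exact Submodule.add_mem _
      (Submodule.mem_sup_left (Submodule.smul_mem _ _ (Submodule.subset_span (hmem T.root))))
      (Submodule.mem_sup_right hbm)

end Build

end FLTAgent.JacRep.Charts
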